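import Fermat.Agent.BadRed.Setup
import Fermat.Agent.Curves.BasicExt

/-!
# The cusps of the level `q N'` curve over the cusp `∞`

`P 0` (index `1`) and `P 1` (index `q`) are exchanged by `w` and are the only places over `inf`.
-/

set_option autoImplicit false

noncomputable section

open AlgebraicCurve

namespace FLTA.BadRed.BadFibre

variable {K : Type*} [Field K] {A : ValuationSubring K} {k : Type*} [Field k] {π : A →+* k}
  {q : ℕ} [NeZero q] {F : Type*} [Field F] [Algebra K F] {F' : Type*} [Field F'] [Algebra K F']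
  {Fk : Type*} [Field Fk] [Algebra k Fk] {g gF : ℕ} (B : BadFibre A π q F F' Fk g gF)

/-- The order of a substituted series. -/
theorem order_qExpand_eq {R : Type*} [CommRing R] (m : ℕ) [NeZero m] (f : LaurentSeries R) :
    (ModularCurve.qExpand R m f).order = (m : ℤ) * f.order := by
  rcases eq_or_ne f 0 with rfl | hf
  · simp
  · have hne : ModularCurve.qExpand R m f ≠ 0 := fun h =>
      hf (ModularCurve.qExpand_injective m (h.trans (map_zero _).symm))
    apply le_antisymm
    · apply HahnSeries.order_le_of_coeff_ne_zero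
      rw [ModularCurve.qExpand_coeff_mul]
      exact (mt HahnSeries.coeff_order_eq_zero.mp hf)
    · have hc := (mt HahnSeries.coeff_order_eq_zero.mp hne)
      by_cases hd : (m : ℤ) ∣ (ModularCurve.qExpand R m f).order
      · obtain ⟨t, ht⟩ := hd
        rw [ht] at hc ⊢
        rw [ModularCurve.qExpand_coeff_mul] at hc
        exact mul_le_mul_of_nonneg_left (HahnSeries.order_le_of_coeff_ne_zero hc)
          (Int.natCast_nonneg m)
      · exact absurd (ModularCurve.qExpand_coeff_of_not_dvd m f hd) hc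

/-- `w` as an automorphism. -/
def wEquiv : F ≃ₐ[K] F :=
  AlgEquiv.ofAlgHom B.w B.w (AlgHom.ext B.w_w) (AlgHom.ext B.w_w)

theorem wEquiv_apply (x : F) : B.wEquiv x = B.w x := rfl

/-- `w` acting on places. -/
def wAut : SemilinearAut K F := SemilinearAut.ofAlgAut B.wEquiv

theorem wAut_smul (x : F) : B.wAut • x = B.w x := rfl

theorem ord_w (v : Place K F) (x : F) : v.ord (B.w x) = (B.wAut • v).ord x := by
  have h := SemilinearAut.ord_smul B.wAut v (B.w x)
  rw [wAut_smul, B.w_w] at h
  exact h.symm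

theorem wAut_smul_smul (v : Place K F) : B.wAut • B.wAut • v = v :=
  FLTA.Curves.place_ext_ord fun x => by rw [← ord_w, ← ord_w, B.w_w]

theorem wAut_smul_P_zero : B.wAut • B.P 0 = B.P 1 :=
  FLTA.Curves.place_ext_ord fun x => by
    rcases eq_or_ne x 0 with rfl | hx
    · simp
    · rw [← ord_w, B.ord_P_zero _ ((map_ne_zero B.w).mpr hx), B.ord_P_one x hx]

theorem wAut_smul_P_one : B.wAut • B.P 1 = B.P 0 := by
  rw [← wAut_smul_P_zero, wAut_smul_smul]

theorem ord_P_zero_a {x : F'} (hx : x ≠ 0) : (B.P 0).ord (B.a x) = B.inf.ord x := by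
  rw [B.ord_P_zero _ ((map_ne_zero B.a).mpr hx), B.ord_inf x hx]

theorem ord_P_one_a {x : F'} (hx : x ≠ 0) : (B.P 1).ord (B.a x) = q * B.inf.ord x := by
  rw [B.ord_P_one _ ((map_ne_zero B.a).mpr hx), B.ex_w_a, order_qExpand_eq, B.ord_inf x hx]

theorem ord_P_zero_wa {x : F'} (hx : x ≠ 0) :
    (B.P 0).ord (B.w (B.a x)) = q * B.inf.ord x := by
  rw [ord_w, wAut_smul_P_zero, ord_P_one_a B hx]

theorem ord_P_one_wa {x : F'} (hx : x ≠ 0) : (B.P 1).ord (B.w (B.a x)) = B.inf.ord x := by
  rw [ord_w, wAut_smul_P_one, ord_P_zero_a B hx]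

theorem P_zero_ne_P_one (hq : 2 ≤ q) : B.P 0 ≠ B.P 1 := fun h => by
  obtain ⟨x, hx, hx1⟩ := FLTA.Curves.exists_ord_eq_one B.inf
  have h1 := ord_P_zero_a B hx
  rw [h, ord_P_one_a B hx, hx1, mul_one] at h1
  omega

theorem P_ne (hq : 2 ≤ q) {i j : Fin 2} (hij : i ≠ j) : B.P i ≠ B.P j := by
  fin_cases i <;> fin_cases j <;>
    first
      | exact absurd rfl hij
      | exact P_zero_ne_P_one B hq
      | exact (P_zero_ne_P_one B hq).symm

theorem cuspDiv_apply (hq : 2 ≤ q) (m : ℕ) (i : Fin 2) : B.cuspDiv m (B.P i) = m := by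
  have h := P_zero_ne_P_one B hq
  fin_cases i <;> simp [cuspDiv, Finsupp.single_apply, h, h.symm]

theorem cuspDiv_apply_of_ne (m : ℕ) {v : Place K F} (h0 : v ≠ B.P 0) (h1 : v ≠ B.P 1) :
    B.cuspDiv m v = 0 := by
  simp [cuspDiv, Finsupp.single_apply, h0.symm, h1.symm]

theorem degree_cuspDiv (m : ℕ) : Divisor.degree (B.cuspDiv m) = 2 * m := by
  rw [cuspDiv, map_add, Divisor.degree_single, Divisor.degree_single, B.rrF.deg_eq_one,
    B.rrF.deg_eq_one]
  push_cast
  ring

theorem cuspDiv_mono {m l : ℕ} (h : m ≤ l) : B.cuspDiv m ≤ B.cuspDiv l :=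
  add_le_add (Finsupp.single_le_single.mpr (by exact_mod_cast h))
    (Finsupp.single_le_single.mpr (by exact_mod_cast h))

theorem cuspDiv_add (m l : ℕ) : B.cuspDiv (m + l) = B.cuspDiv m + B.cuspDiv l := by
  simp [cuspDiv, add_add_add_comm]

theorem wAut_smul_cuspDiv (m : ℕ) : B.wAut • B.cuspDiv m = B.cuspDiv m := by
  rw [cuspDiv, smul_add, SemilinearAut.smul_single, SemilinearAut.smul_single, wAut_smul_P_zero,
    wAut_smul_P_one, add_comm]

theorem w_mem_riemannRochSpace {m : ℕ} {x : F} (hx : x ∈ riemannRochSpace (B.cuspDiv m)) :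
    B.w x ∈ riemannRochSpace (B.cuspDiv m) := by
  rw [mem_riemannRochSpace_iff] at hx ⊢
  intro v
  rcases eq_or_ne x 0 with rfl | hx0
  · exact Or.inl (map_zero _)
  refine Or.inr ?_
  have h := (hx (B.wAut • v)).resolve_left hx0
  rw [← ord_w, ← wAut_smul_cuspDiv B m, SemilinearAut.divisor_smul_apply_smul] at h
  exact h

section Over

variable [CharZero K]

/-- The places over the cusp `inf` are `P 0` and `P 1`. -/
theorem eq_P_of_ord_neg (hq : 2 ≤ q) {v : Place K F} {x : F'}
    (hx : ∀ u : Place K F', u ≠ B.inf → 0 ≤ u.ord x) (hv : v.ord (B.a x) < 0) :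
    v = B.P 0 ∨ v = B.P 1 := by
  classical
  letI := algebraAlong B.a
  haveI := isScalarTower_along B.a
  haveI : Module.Finite F' F := B.finite_a
  haveI : CharZero F' := charZero_of_injective_algebraMap (algebraMap K F').injective
  haveI : Algebra.IsSeparable F' F := inferInstance
  haveI := B.rrF.principal
  have hres : v.restrict F' = B.inf := by
    by_contra hne
    have h1 := hx _ hne
    have h2 : v.ord (algebraMap F' F x) < 0 := hv
    rw [Place.ord_restrict] at h2
    have h3 : (0 : ℤ) < v.ramificationIndex F' := by exact_mod_cast v.ramificationIndex_pos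
    nlinarith
  have hsum := FLTA.Curves.sum_ramificationIndex_mul_inertiaDeg (F' := F) B.inf
  obtain ⟨t, ht0, ht1⟩ := FLTA.Curves.exists_ord_eq_one B.inf
  have hdeg : ∀ u : Place K F, u.restrict F' = B.inf →
      (u.ord (B.a t) : ℤ) = u.ramificationIndex F' := fun u hu => by
    show u.ord (algebraMap F' F t) = _
    rw [Place.ord_restrict, hu, ht1, mul_one]
  have hP : ∀ i, (B.P i).restrict F' = B.inf := by
    intro i
    refine FLTA.Curves.place_eq_of_le fun y hy => ?_
    rcases eq_or_ne y 0 with rfl | hy0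
    · exact zero_mem _
    rw [FLTA.Curves.mem_iff_ord_nonneg _ hy0]
    have hy' : 0 ≤ (B.P i).ord (B.a y) := FLTA.Curves.ord_nonneg_of_mem _ hy
    have h3 : (0 : ℤ) < q := by omega
    revert hy'
    revert i
    refine Fin.forall_fin_two.mpr ⟨fun _ h => ?_, fun _ h => ?_⟩
    · rwa [ord_P_zero_a B hy0] at h
    · rw [ord_P_one_a B hy0] at h
      exact nonneg_of_mul_nonneg_right h h3
  by_contra hcon
  rw [not_or] at hcon
  have hsub : ({B.P 0, B.P 1, v} : Finset (Place K F)) ⊆ B.inf.fiber F := by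
    intro u hu
    rw [Place.mem_fiber]
    simp only [Finset.mem_insert, Finset.mem_singleton] at hu
    rcases hu with rfl | rfl | rfl
    · exact hP 0
    · exact hP 1
    · exact hres
  have hle := Finset.sum_le_sum_of_subset_of_nonneg hsub
    (f := fun u : Place K F => (u.ramificationIndex F' : ℤ) * (u.inertiaDeg F' : ℤ))
    fun u _ _ => by positivity
  rw [hsum, Finset.sum_insert (by simp [P_zero_ne_P_one B hq, Ne.symm hcon.1]),
    Finset.sum_insert (by simp [Ne.symm hcon.2]), Finset.sum_singleton] at hle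
  have hfin : (Module.finrank F' F : ℤ) = q + 1 := by
    have := B.finrank_a
    unfold finrankAlong at this
    exact_mod_cast this
  have hi : ∀ u : Place K F, 1 ≤ (u.inertiaDeg F' : ℤ) := fun u => by
    exact_mod_cast FLTA.Curves.inertiaDeg_pos (F := F') u
  have he : ∀ u : Place K F, 1 ≤ (u.ramificationIndex F' : ℤ) := fun u => by
    exact_mod_cast u.ramificationIndex_pos
  have e0 : ((B.P 0).ramificationIndex F' : ℤ) = 1 := by
    rw [← hdeg _ (hP 0), ord_P_zero_a B ht0, ht1]
  have e1 : ((B.P 1).ramificationIndex F' : ℤ) = q := by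
    rw [← hdeg _ (hP 1), ord_P_one_a B ht0, ht1, mul_one]
  rw [hfin, e0, e1] at hle
  nlinarith [hi (B.P 0), hi (B.P 1), hi v, he v]

/-- `a` maps `L(m inf)` into `L(q m (∞ + 0))`. -/
theorem a_mem_riemannRochSpace (hq : 2 ≤ q) {m : ℕ} {x : F'}
    (hx : x ∈ riemannRochSpace (Finsupp.single B.inf (m : ℤ))) :
    B.a x ∈ riemannRochSpace (B.cuspDiv (q * m)) := by
  rcases eq_or_ne x 0 with rfl | hx0
  · rw [map_zero]; exact zero_mem _
  rw [mem_riemannRochSpace_iff] at hx
  have hinf : -(m : ℤ) ≤ B.inf.ord x := by simpa using (hx B.inf).resolve_left hx0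
  rw [mem_riemannRochSpace_iff]
  intro v
  refine Or.inr ?_
  by_cases h0 : v = B.P 0
  · rw [h0, cuspDiv_apply B hq, ord_P_zero_a B hx0]
    push_cast
    nlinarith
  by_cases h1 : v = B.P 1
  · rw [h1, cuspDiv_apply B hq, ord_P_one_a B hx0]
    push_cast
    nlinarith
  rw [cuspDiv_apply_of_ne B _ h0 h1, neg_zero]
  by_contra hneg
  rcases eq_P_of_ord_neg B hq (x := x)
      (fun u hu => by simpa [Finsupp.single_apply, Ne.symm hu] using (hx u).resolve_left hx0)
      (not_le.mp hneg) with h | h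
  · exact h0 h
  · exact h1 h

theorem w_a_mem_riemannRochSpace (hq : 2 ≤ q) {m : ℕ} {x : F'}
    (hx : x ∈ riemannRochSpace (Finsupp.single B.inf (m : ℤ))) :
    B.w (B.a x) ∈ riemannRochSpace (B.cuspDiv (q * m)) :=
  w_mem_riemannRochSpace B (a_mem_riemannRochSpace B hq hx)

end Over

theorem finrank_cuspDiv {m : ℕ} (hm : gF ≤ m) :
    (Module.finrank K (riemannRochSpace (B.cuspDiv m)) : ℤ) = 2 * m + 1 - gF := by
  rw [B.rrF.finrank_eq _ (by rw [degree_cuspDiv]; omega), degree_cuspDiv]

end FLTA.BadRed.BadFibre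

end
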