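import Fermat.Agent.PlaceRed.Defs
import Fermat.Prelude.Def_AlgebraicCurve_Correspondence
import Fermat.Prelude.Def_AlgebraicCurve_BaseChangeGalois
import Fermat.Prelude.Def_ModularCurve_X0
import Fermat.Prelude.Def_ModularCurve_LaurentCoeff

/-!
# Setting for the bad reduction of `X₀(q N')` at `q`

`BadFibre A π q F F' Fk g gF`: a curve `F/K` (level `q N'`) with two expansions `e 0`, `e 1`
exchanged by an involution `w`, over a curve `F'/K` (level `N'`) with good reduction `Fk/k`.
The field `k` has characteristic `q`; `frobq` is the coefficientwise Frobenius of `Fk` and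
`iota` is the substitution `t ↦ t ^ q`.
-/

set_option autoImplicit false

noncomputable section

open AlgebraicCurve

namespace FLTA.BadRed

variable {K : Type*} [Field K] (A : ValuationSubring K) {k : Type*} [Field k] (π : A →+* k)

/-- All coefficients lie in `A`. -/
def IntSeries (y : LaurentSeries K) : Prop := ∀ i : ℤ, y.coeff i ∈ A

open Classical in
/-- The reduction of a coefficient, junk `0` outside `A`. -/
def redCoeff (c : K) : k := if h : c ∈ A then π ⟨c, h⟩ else 0

/-- Coefficientwise reduction. -/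
def redSeries (y : LaurentSeries K) : LaurentSeries k where
  coeff i := redCoeff A π (y.coeff i)
  isPWO_support' := y.isPWO_support'.mono fun i hi h0 => hi (by
    show redCoeff A π (y.coeff i) = 0
    rw [redCoeff]
    split_ifs with h
    · exact (congrArg π (Subtype.ext h0)).trans (map_zero π)
    · rfl)

@[simp]
theorem redSeries_coeff (y : LaurentSeries K) (i : ℤ) :
    (redSeries A π y).coeff i = redCoeff A π (y.coeff i) := rfl

theorem redCoeff_coe (c : A) : redCoeff A π (c : K) = π c := by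
  rw [redCoeff, dif_pos c.2]

/-- The two integral expansions of a pair, reduced. -/
def redPair (y : Fin 2 → LaurentSeries K) : Fin 2 → LaurentSeries k := fun i => redSeries A π (y i)

/-- Every bounded subset of `L` has an element of largest valuation. -/
def IsDiscreteOn (L : Subfield K) : Prop :=
  ∀ X : Set K, (∀ x ∈ X, x ∈ L) → (∃ x ∈ X, x ≠ 0) → (∃ b : K, b ≠ 0 ∧ ∀ x ∈ X, x / b ∈ A) →
    ∃ x₀ ∈ X, x₀ ≠ 0 ∧ ∀ x ∈ X, x / x₀ ∈ A

/-- A pair is integral. -/
def IntPair (y : Fin 2 → LaurentSeries K) : Prop := ∀ i, IntSeries A (y i)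

/-- Data: see the file header. -/
structure BadFibre (q : ℕ) [NeZero q] (F : Type*) [Field F] [Algebra K F] (F' : Type*) [Field F']
    [Algebra K F'] (Fk : Type*) [Field Fk] [Algebra k Fk] (g gF : ℕ) where
  /-- the degeneracy map -/
  a : F' →ₐ[K] F
  /-- the Atkin-Lehner involution -/
  w : F →ₐ[K] F
  w_w : ∀ x : F, w (w x) = x
  finrank_a : finrankAlong K a = q + 1
  finite_a : FiniteAlong K a
  /-- the expansion at infinity -/
  ex : F →ₐ[K] LaurentSeries K
  ex_w_a : ∀ x : F', ex (w (a x)) = ModularCurve.qExpand K q (ex (a x))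
  /-- the coefficients of an expansion generate a finitely generated field -/
  coeff_fg : ∀ x : F, ∃ s : Finset K, ∀ i : ℤ, (ex x).coeff i ∈ Subfield.closure (s : Set K)
  /-- finitely generated subfields are discretely valued -/
  discrete : ∀ s : Finset K, IsDiscreteOn A (Subfield.closure (s : Set K))
  rrF : FLTA.PlaceRed.RRCurve K F gF
  /-- the cusps `∞` and `0` -/
  P : Fin 2 → Place K F
  ord_P_zero : ∀ x : F, x ≠ 0 → (P 0).ord x = (ex x).order
  ord_P_one : ∀ x : F, x ≠ 0 → (P 1).ord x = (ex (w x)).order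
  /-- the expansion of the reduced curve -/
  exk : Fk →ₐ[k] LaurentSeries k
  /-- substitution `t ↦ t ^ q` -/
  iota : Fk →ₐ[k] Fk
  exk_iota : ∀ x : Fk, exk (iota x) = ModularCurve.qExpand k q (exk x)
  /-- coefficientwise Frobenius -/
  frobq : SemilinearAut k Fk
  baseAut_frobq : ∀ c : k, SemilinearAut.baseAut frobq c = c ^ q
  /-- functions with poles only at the two cusps have bounded expansions -/
  bdd_cusp : ∀ (m : ℕ),
    ∀ x ∈ riemannRochSpace (Finsupp.single (P 0) (m : ℤ) + Finsupp.single (P 1) (m : ℤ)),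
      ∃ c : K, c ≠ 0 ∧ IntSeries A (c • ex x)
  exk_frobq : ∀ (x : Fk) (i : ℤ), (exk (frobq • x)).coeff i = (exk x).coeff i ^ q
  /-- the good reduction of level `N'` -/
  R : FLTA.PlaceRed.ConstRed A π F' Fk
  red_of_int : ∀ x : F', IntSeries A (ex (a x)) →
    ∃ hx : x ∈ R.O, exk (R.red ⟨x, hx⟩) = redSeries A π (ex (a x))
  rr' : FLTA.PlaceRed.RRCurve K F' g
  rrk : FLTA.PlaceRed.RRCurve k Fk g
  inf : Place K F'
  infk : Place k Fk
  ord_inf : ∀ x : F', x ≠ 0 → inf.ord x = (ex (a x)).order
  ord_infk : ∀ x : Fk, x ≠ 0 → infk.ord x = (exk x).order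
  reduces_inf : ∀ m : ℕ, 2 * g ≤ m →
    R.Reduces (Finsupp.single inf (m : ℤ)) (Finsupp.single infk (m : ℤ))

namespace BadFibre

variable {A π} {q : ℕ} [NeZero q] {F : Type*} [Field F] [Algebra K F] {F' : Type*} [Field F']
  [Algebra K F'] {Fk : Type*} [Field Fk] [Algebra k Fk] {g gF : ℕ}
  (B : BadFibre A π q F F' Fk g gF)

/-- The expansions at the two cusps. -/
def e : Fin 2 → (F →ₐ[K] LaurentSeries K) := ![B.ex, B.ex.comp B.w]

@[simp] theorem e_zero : B.e 0 = B.ex := rfl

@[simp] theorem e_one_apply (x : F) : B.e 1 x = B.ex (B.w x) := rfl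

theorem ord_P (i : Fin 2) {x : F} (hx : x ≠ 0) : (B.P i).ord x = (B.e i x).order := by
  fin_cases i
  · exact B.ord_P_zero x hx
  · exact B.ord_P_one x hx

/-- Both expansions, as a linear map. -/
def pair : F →ₗ[K] (Fin 2 → LaurentSeries K) where
  toFun x i := B.e i x
  map_add' x y := funext fun i => map_add (B.e i) x y
  map_smul' c x := funext fun i => by
    show B.e i (c • x) = c • B.e i x
    rw [Algebra.smul_def, map_mul, AlgHom.commutes,
      ModularCurve.algebraMap_laurentSeries_eq_single]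
    ext j
    simp

@[simp] theorem pair_apply (x : F) (i : Fin 2) : B.pair x i = B.e i x := rfl

/-- The divisor `m (∞ + 0)`. -/
def cuspDiv (m : ℕ) : Divisor K F :=
  Finsupp.single (B.P 0) (m : ℤ) + Finsupp.single (B.P 1) (m : ℤ)

/-- `p` is the reduction of the integral element `G`. -/
def IsRed (G : F) (p : Fin 2 → Fk) : Prop :=
  IntPair A (B.pair G) ∧ ∀ i, B.exk (p i) = redSeries A π (B.e i G)

/-- The reductions of `L(m (∞ + 0))`. -/
def fibreSections (m : ℕ) : Set (Fin 2 → Fk) :=
  {p | ∃ G ∈ riemannRochSpace (B.cuspDiv m), B.IsRed G p}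

open Classical in
/-- The value of `x` at the place `Q`, junk `0` at poles. -/
def placeVal (Q : Place k Fk) (x : Fk) : k :=
  if h : ∃ c : k, x = algebraMap k Fk c ∨ 0 < Q.ord (x - algebraMap k Fk c) then h.choose else 0

/-- `S` describes the special fibre of level `q N'`: the sections reduce exactly onto the pairs
glued along the pairs of points `(Q, frobq • Q)`, `Q ∈ S`. -/
structure IsGluing (S : Finset (Place k Fk)) (m₀ : ℕ) : Prop where
  infk_notMem : B.infk ∉ S
  frobq_sq : ∀ Q ∈ S, B.frobq • B.frobq • Q = Q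
  smul_ne : ∀ Q ∈ S, B.frobq • Q ≠ B.infk
  mem_iff : ∀ m, m₀ ≤ m → ∀ p : Fin 2 → Fk, p ∈ B.fibreSections m ↔
    (∀ i, p i ∈ riemannRochSpace (Finsupp.single B.infk (m : ℤ))) ∧
      ∀ Q ∈ S, placeVal Q (p 0) = placeVal (B.frobq • Q) (p 1)
  card_eq : (S.card : ℤ) + 2 * g = gF + 1

/-- `x` reduces to `p` on the component `i`: it is a quotient of integral series. -/
def HasRed (i : Fin 2) (x : F) (p : Fk) : Prop :=
  ∃ g h : F, IntSeries A (B.e i g) ∧ IntSeries A (B.e i h) ∧ redSeries A π (B.e i h) ≠ 0 ∧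
    x * h = g ∧ B.exk p * redSeries A π (B.e i h) = redSeries A π (B.e i g)

/-- `f` reduces, after scaling, to an `n`-th power on both components. -/
def ReducesToPow (n : ℕ) (f : F) : Prop :=
  ∀ i, ∃ (c : K) (η : Fk), c ≠ 0 ∧ η ≠ 0 ∧ B.HasRed i (c • f) (η ^ n)

/-- A class killed by `n` is toric if its Kummer function reduces to `n`-th powers. -/
def IsToric (n : ℕ) (x : Pic0 K F) : Prop :=
  ∃ (D : Divisor.degZero (K := K) (F := F)) (f : F), f ≠ 0 ∧ Pic0.mk D = x ∧
    (∀ P : Place K F, (n : ℤ) * (D : Divisor K F) P = P.ord f) ∧ B.ReducesToPow n f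

/-- The norm along `a`. -/
def normA (f : F) : F' :=
  letI := algebraAlong B.a
  Algebra.norm F' f

/-- Both pushforwards of the class vanish: both norms of a Kummer function are constant multiples
of `n`-th powers. -/
def NormsTrivial (n : ℕ) (x : Pic0 K F) : Prop :=
  ∃ (D : Divisor.degZero (K := K) (F := F)) (f : F), f ≠ 0 ∧ Pic0.mk D = x ∧
    (∀ P : Place K F, (n : ℤ) * (D : Divisor K F) P = P.ord f) ∧
    (∃ (c : K) (h : F'), B.normA f = c • h ^ n) ∧
    (∃ (c : K) (h : F'), B.normA (B.w f) = c • h ^ n)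

/-- A symmetry of the situation: an automorphism of `K` preserving `A`, acting on coefficients. -/
structure Sym where
  /-- on the upper curve -/
  σ : SemilinearAut K F
  /-- on the reduced curve -/
  σk : SemilinearAut k Fk
  mem_iff : ∀ c : K, SemilinearAut.baseAut σ c ∈ A ↔ c ∈ A
  π_comm : ∀ c : A, π ⟨SemilinearAut.baseAut σ c, (mem_iff c).2 c.2⟩ = SemilinearAut.baseAut σk (π c)
  ex_σ : ∀ (x : F) (i : ℤ), (B.ex (σ • x)).coeff i = SemilinearAut.baseAut σ ((B.ex x).coeff i)
  exk_σk : ∀ (x : Fk) (i : ℤ),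
    (B.exk (σk • x)).coeff i = SemilinearAut.baseAut σk ((B.exk x).coeff i)
  w_σ : ∀ x : F, B.w (σ • x) = σ • B.w x

/-- The symmetry is trivial on the residue field. -/
def Sym.IsInertia {B : BadFibre A π q F F' Fk g gF} (s : B.Sym) : Prop :=
  ∀ c : k, SemilinearAut.baseAut s.σk c = c

/-- The symmetry is the Frobenius on the residue field. -/
def Sym.IsFrob {B : BadFibre A π q F F' Fk g gF} (s : B.Sym) : Prop :=
  ∀ c : k, SemilinearAut.baseAut s.σk c = c ^ q

end BadFibre

end FLTA.BadRed

end
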