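import Fermat.Agent.Congruence.NormCongr
import Fermat.Agent.Congruence.AtkinLehner
import Fermat.Agent.Curves.BasicModular

/-!
# The Atkin-Lehner involution at `ℓ ∤ N` on the function field of level `N * ℓ`

The embeddings of the level `N * ℓ` field over the level `N` field into series in `t`,
`t ^ ℓ = q`, correspond to the `ℓ + 1` substitutions `conjSubst`.  The one belonging to `t ↦ t`
has the level `N * ℓ` field as its image; it exchanges the two degeneracy maps.
-/

set_option autoImplicit false

noncomputable section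

open AlgebraicCurve ModularCurve FLTA.Congruence IntermediateField

namespace FLTA.BadRed

local notation "Qb" => AlgebraicClosure ℚ

section Induction

variable {L : Type*} [Field L] [Algebra ℚ L] (N q : ℕ) [NeZero N] [NeZero q] [hq : Fact q.Prime]

/-- The level `N q` field is generated by the two images of the level `N` field. -/
theorem bar_induction {P : laurentBaseChange L (modularFunctionFieldFull (N * q)) → Prop}
    (hC : ∀ c : L, P (algebraMap L _ c))
    (hadd : ∀ x y, P x → P y → P (x + y)) (hneg : ∀ x, P x → P (-x))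
    (hmul : ∀ x y, P x → P y → P (x * y)) (hinv : ∀ x, P x → P x⁻¹)
    (ha : ∀ y, P (heckeAlphaBar L N q y)) (hb : ∀ y, P (heckeBetaBar L N q y))
    (x : laurentBaseChange L (modularFunctionFieldFull (N * q))) : P x := by
  obtain ⟨x, hx⟩ := x
  have hx' : x ∈ modularFunctionFieldFullC L (N * q) := by
    rwa [← FLTA.Curves.laurentBaseChange_full_eq]
  induction hx' using IntermediateField.adjoin_induction with
  | mem z hz =>
    obtain ⟨d, hd, hdN, rfl⟩ := hz
    by_cases hdq : d ∣ N
    · have hm : qExpand L d (jqModC L) ∈ laurentBaseChange L (modularFunctionFieldFull N) := by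
        show _ ∈ laurentBaseChange L (modularFunctionFieldFull N)
        rw [FLTA.Curves.laurentBaseChange_full_eq]
        exact jqModCd_mem_full L N hdq
      exact (show (⟨_, hx⟩ : laurentBaseChange L (modularFunctionFieldFull (N * q))) = heckeAlphaBar L N q ⟨_, hm⟩ from
        Subtype.ext (coe_heckeAlphaBar (L := L) N q ⟨_, hm⟩).symm) ▸ ha _
    · have hqd : q ∣ d := by
        by_contra hc
        exact hdq (((hq.out.coprime_iff_not_dvd.mpr hc).symm).dvd_of_dvd_mul_right hdN)
      obtain ⟨e, rfl⟩ := hqd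
      haveI : NeZero e := ⟨fun h => hd.out (by rw [h, mul_zero])⟩
      have heN : e ∣ N := by
        rw [mul_comm N q] at hdN
        exact Nat.dvd_of_mul_dvd_mul_left hq.out.pos hdN
      have hm : qExpand L e (jqModC L) ∈ laurentBaseChange L (modularFunctionFieldFull N) := by
        show _ ∈ laurentBaseChange L (modularFunctionFieldFull N)
        rw [FLTA.Curves.laurentBaseChange_full_eq]
        exact jqModCd_mem_full L N heN
      refine (show (⟨_, hx⟩ : laurentBaseChange L (modularFunctionFieldFull (N * q))) = heckeBetaBar L N q ⟨_, hm⟩ from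
        Subtype.ext ?_) ▸ hb _
      rw [coe_heckeBetaBar, qExpand_qExpand]
  | algebraMap c => exact hC c
  | add y z hy hz ihy ihz =>
    have hy' : y ∈ laurentBaseChange L (modularFunctionFieldFull (N * q)) := by
      show y ∈ laurentBaseChange L (modularFunctionFieldFull (N * q))
      rwa [FLTA.Curves.laurentBaseChange_full_eq]
    have hz' : z ∈ laurentBaseChange L (modularFunctionFieldFull (N * q)) := by
      show z ∈ laurentBaseChange L (modularFunctionFieldFull (N * q))
      rwa [FLTA.Curves.laurentBaseChange_full_eq]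
    exact hadd ⟨y, hy'⟩ ⟨z, hz'⟩ (ihy hy') (ihz hz')
  | inv y hy ihy =>
    have hy' : y ∈ laurentBaseChange L (modularFunctionFieldFull (N * q)) := by
      show y ∈ laurentBaseChange L (modularFunctionFieldFull (N * q))
      rwa [FLTA.Curves.laurentBaseChange_full_eq]
    exact hinv ⟨y, hy'⟩ (ihy hy')
  | mul y z hy hz ihy ihz =>
    have hy' : y ∈ laurentBaseChange L (modularFunctionFieldFull (N * q)) := by
      show y ∈ laurentBaseChange L (modularFunctionFieldFull (N * q))
      rwa [FLTA.Curves.laurentBaseChange_full_eq]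
    have hz' : z ∈ laurentBaseChange L (modularFunctionFieldFull (N * q)) := by
      show z ∈ laurentBaseChange L (modularFunctionFieldFull (N * q))
      rwa [FLTA.Curves.laurentBaseChange_full_eq]
    exact hmul ⟨y, hy'⟩ ⟨z, hz'⟩ (ihy hy') (ihz hz')

end Induction

section Embedding

variable {L : Type*} [Field L] [Algebra ℚ L] [IsAlgClosed L]

/-- The embedding of the level `N * ℓ` field belonging to `t ↦ t`. -/
theorem exists_embedding_swap (N ℓ : ℕ) [NeZero N] [NeZero ℓ] (hℓ : ℓ.Prime) (hℓN : ¬ ℓ ∣ N)
    (hΦ : ModPolyExists L) (hdeg : finrankAlong L (heckeAlphaBar L N ℓ) = ℓ + 1) :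
    ∃ (σ : laurentBaseChange L (modularFunctionFieldFull (N * ℓ)) →+*
      AlgebraicClosure (LaurentSeries L)),
      (∀ x, σ (heckeAlphaBar L N ℓ x) = algebraMap (LaurentSeries L) _
        (qExpand L ℓ (x : LaurentSeries L))) ∧
      (∀ x, σ (heckeBetaBar L N ℓ x) = algebraMap (LaurentSeries L) _ (x : LaurentSeries L)) := by
  classical
  haveI : CharZero L := charZero_of_injective_algebraMap (algebraMap ℚ L).injective
  obtain ⟨ζ, hζ⟩ := exists_isPrimitiveRoot_units L ℓ
  letI aF := algebraAlong (heckeAlphaBar L N ℓ)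
  change Module.finrank (laurentBaseChange L (modularFunctionFieldFull N))
    (laurentBaseChange L (modularFunctionFieldFull (N * ℓ))) = ℓ + 1 at hdeg
  haveI : FiniteDimensional (laurentBaseChange L (modularFunctionFieldFull N))
      (laurentBaseChange L (modularFunctionFieldFull (N * ℓ))) :=
    Module.finite_of_finrank_eq_succ hdeg
  haveI : CharZero (laurentBaseChange L (modularFunctionFieldFull N)) :=
    charZero_of_injective_algebraMap (algebraMap L _).injective
  set E := AlgebraicClosure (LaurentSeries L)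
  set ι : LaurentSeries L →+* E := algebraMap (LaurentSeries L) E with hι
  letI aE : Algebra (laurentBaseChange L (modularFunctionFieldFull N)) E :=
    ((ι.comp (qExpand L ℓ)).comp
      (laurentBaseChange L (modularFunctionFieldFull N)).toSubfield.subtype).toAlgebra
  have hσ : ∀ (σ : laurentBaseChange L (modularFunctionFieldFull (N * ℓ))
      →ₐ[laurentBaseChange L (modularFunctionFieldFull N)] E) x,
      σ.toRingHom (heckeAlphaBar L N ℓ x) = ι (qExpand L ℓ (x : LaurentSeries L)) :=
    fun σ x => σ.commutes x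
  choose label hlabel using fun σ : laurentBaseChange L (modularFunctionFieldFull (N * ℓ))
      →ₐ[laurentBaseChange L (modularFunctionFieldFull N)] E =>
    exists_conjSubst_of_root ℓ N hℓ hℓN hΦ hζ ι σ.toRingHom (hσ σ)
  have hinj : Function.Injective label := fun σ τ h => by
    apply AlgHom.coe_ringHom_injective
    refine ringHom_ext_alpha_beta ℓ N hℓ (fun x => ?_) (fun x => ?_)
    · exact (hσ σ x).trans (hσ τ x).symm
    · exact (hlabel σ x).trans (by rw [h]; exact (hlabel τ x).symm)
  have hbij : Function.Bijective label := (Fintype.bijective_iff_injective_and_card label).mpr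
    ⟨hinj, by rw [AlgHom.card, hdeg, Fintype.card_option, Fintype.card_fin]⟩
  obtain ⟨σ, hσ0⟩ := hbij.2 (some ⟨0, hℓ.pos⟩)
  refine ⟨σ.toRingHom, hσ σ, fun x => ?_⟩
  rw [hlabel σ x, hσ0]
  show ι (scaleHom (ζ ^ 0) (x : LaurentSeries L)) = ι x
  rw [pow_zero, scaleHom_one]

/-- A map into the image of `K` in a larger field comes from an endomorphism of `K`. -/
theorem exists_endo_of_range {S E : Type*} [Field S] [Field E] (K : Subfield S) (ι : S →+* E)
    (σ : K →+* E) (h : ∀ x, σ x ∈ K.map ι) : ∃ w : K →+* K, ∀ x, ι (w x) = σ x := by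
  choose f hf hfσ using fun x => h x
  have hi := ι.injective
  refine ⟨{ toFun := fun x => ⟨f x, hf x⟩
            map_one' := Subtype.ext (hi (by rw [hfσ, map_one, OneMemClass.coe_one, map_one]))
            map_zero' := Subtype.ext (hi (by rw [hfσ, map_zero, ZeroMemClass.coe_zero, map_zero]))
            map_add' := fun x y => Subtype.ext (hi (by
              rw [hfσ, map_add, AddMemClass.coe_add, map_add, hfσ, hfσ]))
            map_mul' := fun x y => Subtype.ext (hi (by
              rw [hfσ, map_mul, MulMemClass.coe_mul, map_mul, hfσ, hfσ])) }, fun x => hfσ x⟩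

/-- `exists_endo_of_range` for intermediate fields, as a map of algebras. -/
theorem exists_algEnd_of_range {k S E : Type*} [Field k] [Field S] [Field E] [Algebra k S]
    (K : IntermediateField k S) (ι : S →+* E) (σ : K →+* E)
    (hc : ∀ c : k, σ (algebraMap k K c) = ι (algebraMap k S c))
    (h : ∀ x, σ x ∈ K.toSubfield.map ι) : ∃ w : K →ₐ[k] K, ∀ x, ι (w x : S) = σ x := by
  obtain ⟨w, hw⟩ := exists_endo_of_range K.toSubfield ι σ h
  exact ⟨{ (w : K →+* K) with
    commutes' := fun c => Subtype.ext (ι.injective ((hw _).trans (hc c))) }, hw⟩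

/-- Membership in the image of the level `N * ℓ` field, from membership on the two images. -/
theorem mem_map_of_swap (N ℓ : ℕ) [NeZero N] [NeZero ℓ] [Fact ℓ.Prime] {E : Type*} [Field E]
    (ι : LaurentSeries L →+* E)
    (σ : laurentBaseChange L (modularFunctionFieldFull (N * ℓ)) →+* E)
    (hσ : ∀ y, σ (heckeAlphaBar L N ℓ y) = ι (qExpand L ℓ (y : LaurentSeries L)))
    (hβ : ∀ y, σ (heckeBetaBar L N ℓ y) = ι (y : LaurentSeries L))
    (x : laurentBaseChange L (modularFunctionFieldFull (N * ℓ))) :
    σ x ∈ (laurentBaseChange L (modularFunctionFieldFull (N * ℓ))).toSubfield.map ι := by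
  have hα' : ∀ y, σ (heckeAlphaBar L N ℓ y) ∈
      (laurentBaseChange L (modularFunctionFieldFull (N * ℓ))).toSubfield.map ι := fun y => by
    rw [hσ, ← coe_heckeBetaBar (L := L) N ℓ y]
    exact Subfield.mem_map.mpr ⟨_, (heckeBetaBar L N ℓ y).2, rfl⟩
  have hβ' : ∀ y, σ (heckeBetaBar L N ℓ y) ∈
      (laurentBaseChange L (modularFunctionFieldFull (N * ℓ))).toSubfield.map ι := fun y => by
    rw [hβ, ← coe_heckeAlphaBar (L := L) N ℓ y]
    exact Subfield.mem_map.mpr ⟨_, (heckeAlphaBar L N ℓ y).2, rfl⟩
  refine bar_induction N ℓ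
    (P := fun x => σ x ∈ (laurentBaseChange L (modularFunctionFieldFull (N * ℓ))).toSubfield.map ι)
    (fun c => ?_) (fun x y hx hy => ?_) (fun x hx => ?_) (fun x y hx hy => ?_) (fun x hx => ?_)
    hα' hβ' x
  · have h := hα' (algebraMap L _ c)
    rwa [AlgHom.commutes] at h
  · rw [map_add]; exact Subfield.add_mem _ hx hy
  · rw [map_neg]; exact Subfield.neg_mem _ hx
  · rw [map_mul]; exact Subfield.mul_mem _ hx hy
  · rw [map_inv₀]; exact Subfield.inv_mem _ hx

/-- The involution exchanging the two degeneracy maps, over any field. -/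
theorem exists_atkinSwap' (N ℓ : ℕ) [NeZero N] [NeZero ℓ] (hℓ : ℓ.Prime) (hℓN : ¬ ℓ ∣ N)
    (hΦ : ModPolyExists L) (hdeg : finrankAlong L (heckeAlphaBar L N ℓ) = ℓ + 1) :
    ∃ w : laurentBaseChange L (modularFunctionFieldFull (N * ℓ)) →ₐ[L]
        laurentBaseChange L (modularFunctionFieldFull (N * ℓ)),
      w.comp (heckeAlphaBar L N ℓ) = heckeBetaBar L N ℓ ∧
      w.comp (heckeBetaBar L N ℓ) = heckeAlphaBar L N ℓ := by
  haveI : Fact ℓ.Prime := ⟨hℓ⟩
  obtain ⟨σ, hσ, hβ⟩ := exists_embedding_swap N ℓ hℓ hℓN hΦ hdeg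
  have hc : ∀ c : L, σ (algebraMap L _ c) = algebraMap (LaurentSeries L) _
      (algebraMap L (LaurentSeries L) c) := fun c => by
    have h := hβ (algebraMap L _ c)
    rw [AlgHom.commutes] at h
    exact h
  obtain ⟨w, hw⟩ := exists_algEnd_of_range _ _ σ hc (mem_map_of_swap N ℓ _ σ hσ hβ)
  have hι := (algebraMap (LaurentSeries L) (AlgebraicClosure (LaurentSeries L))).injective
  refine ⟨w, AlgHom.ext fun x => Subtype.ext (hι ?_), AlgHom.ext fun x => Subtype.ext (hι ?_)⟩
  · rw [AlgHom.comp_apply, hw, hσ, coe_heckeBetaBar]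
  · rw [AlgHom.comp_apply, hw, hβ, coe_heckeAlphaBar]

end Embedding

theorem exists_atkinSwap (N ℓ : ℕ) [NeZero N] [NeZero ℓ] (hℓ : ℓ.Prime) (hℓN : ¬ ℓ ∣ N) :
    ∃ w : modularFunctionFieldBar (N * ℓ) →ₐ[Qb] modularFunctionFieldBar (N * ℓ),
      w.comp (heckeAlphaBar Qb N ℓ) = heckeBetaBar Qb N ℓ ∧
      w.comp (heckeBetaBar Qb N ℓ) = heckeAlphaBar Qb N ℓ :=
  exists_atkinSwap' N ℓ hℓ hℓN modPolyExists_algebraicClosure
    (finrankAlong_heckeAlphaBar N ℓ hℓ hℓN)

end FLTA.BadRed

end
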