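import Fermat.Agent.BadRed.ModularFibre
import Fermat.Agent.BadRed.Swap
import Fermat.Agent.BadRed.Setup
import Fermat.Agent.Galois.Places
import Fermat.Agent.Congruence.FrobeniusField
import Fermat.Prelude.Thm_ModularCurve_coeffMap_qExpand

/-!
# The decomposition group acting on `X₀(N q)` at `q`

Coefficientwise action of an element `σ` of the decomposition group of `A` on the level `N q`
field and of its residual automorphism on the reduced level `N` field.  `symOfData` turns such a
pair into a symmetry of any `BadFibre` built on these fields with the natural expansions.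
-/

set_option autoImplicit false
set_option synthInstance.maxHeartbeats 400000
set_option maxHeartbeats 2000000

noncomputable section

open AlgebraicCurve ModularCurve IsLocalRing

namespace FLTA.BadRed

local notation "Qb" => AlgebraicClosure ℚ

section Equivariant

variable (N q : ℕ) [NeZero N] [NeZero q]

theorem galois_smul_alpha (σ : Qb ≃ₐ[ℚ] Qb)
    (y : laurentBaseChange Qb (modularFunctionFieldFull N)) :
    arithmeticGalois (modularFunctionFieldFull (N * q)) σ • heckeAlphaBar Qb N q y =
      heckeAlphaBar Qb N q (arithmeticGalois (modularFunctionFieldFull N) σ • y) :=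
  Subtype.ext (by
    rw [coe_arithmeticGalois_smul, coe_heckeAlphaBar, coe_heckeAlphaBar, coe_arithmeticGalois_smul])

theorem galois_smul_beta (σ : Qb ≃ₐ[ℚ] Qb)
    (y : laurentBaseChange Qb (modularFunctionFieldFull N)) :
    arithmeticGalois (modularFunctionFieldFull (N * q)) σ • heckeBetaBar Qb N q y =
      heckeBetaBar Qb N q (arithmeticGalois (modularFunctionFieldFull N) σ • y) :=
  Subtype.ext (by
    rw [coe_arithmeticGalois_smul, coe_heckeBetaBar, coe_heckeBetaBar, coe_arithmeticGalois_smul,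
      coeffMap_qExpand])

variable [hq : Fact q.Prime]

/-- A swap of the two degeneracy maps commutes with Galois. -/
theorem galois_smul_swap
    (w : modularFunctionFieldBar (N * q) →ₐ[Qb] modularFunctionFieldBar (N * q))
    (h₁ : w.comp (heckeAlphaBar Qb N q) = heckeBetaBar Qb N q)
    (h₂ : w.comp (heckeBetaBar Qb N q) = heckeAlphaBar Qb N q) (σ : Qb ≃ₐ[ℚ] Qb)
    (x : modularFunctionFieldBar (N * q)) :
    w (arithmeticGalois (modularFunctionFieldFull (N * q)) σ • x) =
      arithmeticGalois (modularFunctionFieldFull (N * q)) σ • w x := by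
  have ha : ∀ y, w (heckeAlphaBar Qb N q y) = heckeBetaBar Qb N q y := DFunLike.congr_fun h₁
  have hb : ∀ y, w (heckeBetaBar Qb N q y) = heckeAlphaBar Qb N q y := DFunLike.congr_fun h₂
  refine bar_induction N q (P := fun x => w (arithmeticGalois _ σ • x) = arithmeticGalois _ σ • w x)
    (fun c => ?_) (fun x y hx hy => ?_) (fun x hx => ?_) (fun x y hx hy => ?_) (fun x hx => ?_)
    (fun y => ?_) (fun y => ?_) x
  · rw [SemilinearAut.smul_algebraMap, AlgHom.commutes, AlgHom.commutes,
      SemilinearAut.smul_algebraMap]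
  · rw [smul_add, map_add, map_add, smul_add, hx, hy]
  · rw [smul_neg, map_neg, map_neg, smul_neg, hx]
  · rw [smul_mul', map_mul, map_mul, smul_mul', hx, hy]
  · rw [smul_inv'', map_inv₀, map_inv₀, smul_inv'', hx]
  · rw [galois_smul_alpha, ha, ha, galois_smul_beta]
  · rw [galois_smul_beta, hb, hb, galois_smul_alpha]

end Equivariant

section Residual

variable {A : ValuationSubring Qb} {σ : Qb ≃ₐ[ℚ] Qb}

/-- The residual automorphism of an element of the decomposition group. -/
def residualAut (hσ : σ ∈ A.decompositionSubgroup ℚ) : ResidueField A ≃+* ResidueField A :=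
  MulSemiringAction.toRingEquiv _ (ResidueField A) (⟨σ, hσ⟩ : A.decompositionSubgroup ℚ)

theorem residualAut_residue (hσ : σ ∈ A.decompositionSubgroup ℚ) (a : A) :
    residualAut hσ (residue A a) =
      residue A ⟨σ a, FLTA.Galois.apply_mem_of_mem_decompositionSubgroup hσ a.2⟩ := rfl

theorem residualAut_of_inertia (hσ : σ ∈ A.inertiaSubgroupIn ℚ) (c : ResidueField A) :
    residualAut (FLTA.Galois.inertiaSubgroupIn_le_decompositionSubgroup hσ) c = c := by
  obtain ⟨a, rfl⟩ := IsLocalRing.residue_surjective c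
  rw [residualAut_residue, FLTA.Galois.residue_eq_iff_sub_mem_nonunits]
  exact (FLTA.Galois.mem_inertiaSubgroupIn_iff.mp hσ).2 _ a.2

theorem residualAut_of_frobenius {q : ℕ} (h : A.IsFrobeniusAt σ q) (c : ResidueField A) :
    residualAut (FLTA.Galois.isFrobeniusAt_iff.mp h).1 c = c ^ q := by
  obtain ⟨a, rfl⟩ := IsLocalRing.residue_surjective c
  rw [residualAut_residue, ← map_pow, FLTA.Galois.residue_eq_iff_sub_mem_nonunits]
  simpa using (FLTA.Galois.isFrobeniusAt_iff.mp h).2 _ a.2

end Residual

section Sym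

variable {N q : ℕ} [NeZero N] [NeZero q] [Fact q.Prime] {A : ValuationSubring Qb} {g gF : ℕ}
  (B : BadFibre A (residue A) q (modularFunctionFieldBar (N * q)) (modularFunctionFieldBar N)
    (modularFunctionFieldFullC (ResidueField A) N) g gF)
  (hex : ∀ x : modularFunctionFieldBar (N * q), B.ex x = (x : LaurentSeries Qb))
  (hexk : ∀ x : modularFunctionFieldFullC (ResidueField A) N,
    B.exk x = (x : LaurentSeries (ResidueField A)))
  (hw₁ : B.w.comp (heckeAlphaBar Qb N q) = heckeBetaBar Qb N q)
  (hw₂ : B.w.comp (heckeBetaBar Qb N q) = heckeAlphaBar Qb N q)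

/-- The symmetry of an element of the decomposition group. -/
def symOfData {σ : Qb ≃ₐ[ℚ] Qb} (hσ : σ ∈ A.decompositionSubgroup ℚ) : B.Sym where
  σ := arithmeticGalois (modularFunctionFieldFull (N * q)) σ
  σk := FLTA.Congruence.coeffSemilinear N (residualAut hσ)
  mem_iff c := FLTA.Galois.mem_decompositionSubgroup_iff.mp hσ c
  π_comm c := (residualAut_residue hσ c).symm
  ex_σ x i := by
    rw [hex, hex, coe_arithmeticGalois_smul, coeffMap_coeff]
    rfl
  exk_σk x i := by
    rw [hexk, hexk, FLTA.Congruence.coe_coeffSemilinear_smul, coeffMap_coeff]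
    rfl
  w_σ x := galois_smul_swap N q B.w hw₁ hw₂ σ x

theorem symOfData_σ {σ : Qb ≃ₐ[ℚ] Qb} (hσ : σ ∈ A.decompositionSubgroup ℚ) :
    (symOfData B hex hexk hw₁ hw₂ hσ).σ =
      arithmeticGalois (modularFunctionFieldFull (N * q)) σ := rfl

theorem symOfData_isInertia {σ : Qb ≃ₐ[ℚ] Qb} (hσ : σ ∈ A.inertiaSubgroupIn ℚ) :
    (symOfData B hex hexk hw₁ hw₂
      (FLTA.Galois.inertiaSubgroupIn_le_decompositionSubgroup hσ)).IsInertia :=
  fun c => residualAut_of_inertia hσ c

theorem symOfData_isFrob {σ : Qb ≃ₐ[ℚ] Qb} (h : A.IsFrobeniusAt σ q) :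
    (symOfData B hex hexk hw₁ hw₂ (FLTA.Galois.isFrobeniusAt_iff.mp h).1).IsFrob :=
  fun c => residualAut_of_frobenius h c

/-- The symmetry acts on classes as Galois. -/
theorem symOfData_smul {σ : Qb ≃ₐ[ℚ] Qb} (hσ : σ ∈ A.decompositionSubgroup ℚ)
    (x : Pic0 Qb (modularFunctionFieldBar (N * q))) :
    (symOfData B hex hexk hw₁ hw₂ hσ).σ • x = σ • x :=
  (galois_smul_pic0_def (modularFunctionFieldFull (N * q)) σ x).symm

end Sym

section Fibre

variable (N q : ℕ) [NeZero N] [NeZero q] [hq : Fact q.Prime]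
variable (A : ValuationSubring (AlgebraicClosure ℚ)) (hA : A.LiesOverPrime q) (hqN : ¬ q ∣ N)

variable [CharP (ResidueField A) q] [PerfectRing (ResidueField A) q]

/-- An element of the decomposition group acts on the fibre. -/
theorem exists_sym {σ : Qb ≃ₐ[ℚ] Qb} (hσ : σ ∈ A.decompositionSubgroup ℚ) :
    ∃ s : (badFibre N q A hA hqN).Sym,
      s.σ = arithmeticGalois (modularFunctionFieldFull (N * q)) σ ∧
      ∀ c : ResidueField A, SemilinearAut.baseAut s.σk c = (⟨σ, hσ⟩ : A.decompositionSubgroup ℚ) • c :=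
  ⟨symOfData (badFibre N q A hA hqN) (fun _ => rfl) (fun _ => rfl) (swapBar_alpha N q hqN)
    (swapBar_beta N q hqN) hσ, rfl, fun _ => rfl⟩

/-- Inertia elements act through inertia symmetries. -/
theorem exists_inertiaSym {σ : Qb ≃ₐ[ℚ] Qb} (hσ : σ ∈ A.inertiaSubgroupIn ℚ) :
    ∃ s : (badFibre N q A hA hqN).Sym,
      s.σ = arithmeticGalois (modularFunctionFieldFull (N * q)) σ ∧ s.IsInertia :=
  ⟨_, rfl, symOfData_isInertia (badFibre N q A hA hqN) (fun _ => rfl) (fun _ => rfl)
    (swapBar_alpha N q hqN) (swapBar_beta N q hqN) hσ⟩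

/-- Frobenius elements act through Frobenius symmetries. -/
theorem exists_frobSym {σ : Qb ≃ₐ[ℚ] Qb} (hσ : A.IsFrobeniusAt σ q) :
    ∃ s : (badFibre N q A hA hqN).Sym,
      s.σ = arithmeticGalois (modularFunctionFieldFull (N * q)) σ ∧ s.IsFrob :=
  ⟨_, rfl, symOfData_isFrob (badFibre N q A hA hqN) (fun _ => rfl) (fun _ => rfl)
    (swapBar_alpha N q hqN) (swapBar_beta N q hqN) hσ⟩

end Fibre

end FLTA.BadRed

end
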