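import Fermat.Agent.BadRed.Kummer
import Fermat.Agent.BadRed.ModularSym
import Fermat.Agent.Carayol.Pushforward

/-!
# Inertia and Frobenius at `q` on the torsion of `J₀(N q)`, `q ∤ N`
-/

set_option autoImplicit false
set_option synthInstance.maxHeartbeats 400000

noncomputable section

open AlgebraicCurve ModularCurve

namespace FLTA.BadRed

local notation "Γ" => AlgebraicClosure ℚ ≃ₐ[ℚ] AlgebraicClosure ℚ

variable (N q : ℕ) [NeZero N] [NeZero q] [hq : Fact q.Prime] (hqN : ¬ q ∣ N)
  {A : ValuationSubring (AlgebraicClosure ℚ)} (hA : A.LiesOverPrime q)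

/-- Equal maps push forward equally. -/
theorem pushforwardAlong_mem_principal_congr {K F F' : Type*} [Field K] [Field F] [Field F']
    [Algebra K F] [Algebra K F'] {φ ψ : F →ₐ[K] F'} (h : φ = ψ) (hφ : φ.toRingHom.IsIntegral)
    (hψ : ψ.toRingHom.IsIntegral) {D : Divisor K F'}
    (hD : Divisor.pushforwardAlong ψ hψ D ∈ Divisor.principal (K := K) (F := F)) :
    Divisor.pushforwardAlong φ hφ D ∈ Divisor.principal (K := K) (F := F) := by
  subst h
  exact hD

include hqN hA

/-- `(τ - 1)(σ - 1) = 0` for inertia elements on the prime-to-`q` torsion. -/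
theorem inertia_unipotent_JZero {σ τ : Γ} (hσ : σ ∈ A.inertiaSubgroupIn ℚ)
    (hτ : τ ∈ A.inertiaSubgroupIn ℚ) {n : ℕ} (hn : ¬ q ∣ n) {x : JZero (N * q)}
    (hx : n • x = 0) : τ • (σ • x - x) = σ • x - x := by
  haveI := FLTA.Galois.charP_residueField hq.out hA
  haveI := FLTA.Galois.isAlgClosed_residueField A
  haveI : ExpChar (IsLocalRing.ResidueField A) q := ExpChar.prime hq.out
  haveI : PerfectRing (IsLocalRing.ResidueField A) q := PerfectField.toPerfectRing q
  obtain ⟨s, hs, hsI⟩ := exists_inertiaSym N q A hA hqN hσ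
  obtain ⟨t, ht, htI⟩ := exists_inertiaSym N q A hA hqN hτ
  have hn' : (n : IsLocalRing.ResidueField A) ≠ 0 := by
    rwa [Ne, CharP.cast_eq_zero_iff (IsLocalRing.ResidueField A) q]
  have h := (badFibre N q A hA hqN).inertia_unipotent hn' s t hsI htI hx
  rw [hs, ht] at h
  simpa only [galois_smul_pic0_def] using h

/-- `(φ² - q²)(φ² - 1) = 0` on prime-to-`q` torsion classes killed by both pushforwards. -/
theorem frob_quartic_JZero {σ : Γ} (hσ : A.IsFrobeniusAt σ q) {n : ℕ} (hn : ¬ q ∣ n)
    {x : JZero (N * q)} (hx : n • x = 0) (hα : Carayol.pushAlpha N q x = 0)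
    (hβ : Carayol.pushBeta N q x = 0) :
    σ • σ • (σ • σ • x - x) = (q ^ 2) • (σ • σ • x - x) := by
  haveI := FLTA.Galois.charP_residueField hq.out hA
  haveI := FLTA.Galois.isAlgClosed_residueField A
  haveI : ExpChar (IsLocalRing.ResidueField A) q := ExpChar.prime hq.out
  haveI : PerfectRing (IsLocalRing.ResidueField A) q := PerfectField.toPerfectRing q
  obtain ⟨s, hs, hsF⟩ := exists_frobSym N q A hA hqN hσ
  have hn' : (n : IsLocalRing.ResidueField A) ≠ 0 := by
    rwa [Ne, CharP.cast_eq_zero_iff (IsLocalRing.ResidueField A) q]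
  obtain ⟨D, rfl⟩ := Pic0.mk_surjective x
  rw [Carayol.pushAlpha, Carayol.pushPic_mk_eq_zero_iff] at hα
  rw [Carayol.pushBeta, Carayol.pushPic_mk_eq_zero_iff] at hβ
  have hN : (badFibre N q A hA hqN).NormsTrivial n (Pic0.mk D) :=
    (badFibre N q A hA hqN).normsTrivial_of_pushforward (Curves.isIntegral_of_algHom _)
      (Curves.isIntegral_of_algHom _) (Curves.finiteAlong _)
      (Curves.normFormulaAlong _ _ (Curves.separableAlong_of_charZero _))
      (Curves.normFormulaAlong _ _ (Curves.separableAlong_of_charZero _)) hx hα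
      (pushforwardAlong_mem_principal_congr (swapBar_alpha N q hqN) _ _ hβ)
  have h := (badFibre N q A hA hqN).frob_quartic hn' s hsF hN
  rw [hs] at h
  simpa only [galois_smul_pic0_def] using h

end FLTA.BadRed

end
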