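import Fermat.Agent.BadRed.SeriesCalc
import Fermat.Prelude.Thm_ModularCurve_coeffMap_qExpand

/-!
# More arithmetic of integral series: substitution `t ↦ t^n`, scalings
-/

set_option autoImplicit false

noncomputable section

namespace FLTA.BadRed

variable {K : Type*} [Field K] {A : ValuationSubring K} {k : Type*} [Field k] {π : A →+* k}

theorem IntSeries.qExpand (n : ℕ) [NeZero n] {x : LaurentSeries K} (hx : IntSeries A x) :
    IntSeries A (ModularCurve.qExpand K n x) := by
  obtain ⟨z, rfl⟩ := exists_coeffMap_eq hx
  rw [← ModularCurve.coeffMap_qExpand]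
  exact intSeries_coeffMap _

theorem redSeries_sub {x y : LaurentSeries K} (hx : IntSeries A x) (hy : IntSeries A y) :
    redSeries A π (x - y) = redSeries A π x - redSeries A π y := by
  obtain ⟨a, rfl⟩ := exists_coeffMap_eq hx
  obtain ⟨b, rfl⟩ := exists_coeffMap_eq hy
  simp only [← map_sub, redSeries_coeffMap]

theorem redSeries_sum {ι : Type*} {s : Finset ι} {f : ι → LaurentSeries K}
    (h : ∀ j ∈ s, IntSeries A (f j)) :
    redSeries A π (∑ j ∈ s, f j) = ∑ j ∈ s, redSeries A π (f j) := by
  classical
  induction s using Finset.induction_on with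
  | empty => simp
  | insert j s hj ih =>
    rw [Finset.sum_insert hj, Finset.sum_insert hj,
      redSeries_add (h j (Finset.mem_insert_self _ _))
        (IntSeries.sum _ _ fun i hi => h i (Finset.mem_insert_of_mem hi)),
      ih fun i hi => h i (Finset.mem_insert_of_mem hi)]

theorem redSeries_qExpand (n : ℕ) [NeZero n] {x : LaurentSeries K} (hx : IntSeries A x) :
    redSeries A π (ModularCurve.qExpand K n x) = ModularCurve.qExpand k n (redSeries A π x) := by
  obtain ⟨z, rfl⟩ := exists_coeffMap_eq hx
  rw [← ModularCurve.coeffMap_qExpand, redSeries_coeffMap, redSeries_coeffMap,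
    ModularCurve.coeffMap_qExpand]

theorem coeff_eq_zero_of_redSeries {x : LaurentSeries K} {m : ℤ}
    (h : ∀ i, i < m → x.coeff i = 0) : ∀ i, i < m → (redSeries A π x).coeff i = 0 := by
  intro i hi
  rw [redSeries_coeff, h i hi, show (0 : K) = ((0 : A) : K) from rfl, redCoeff_coe, map_zero]

theorem order_le_order_redSeries {x : LaurentSeries K} (hy : redSeries A π x ≠ 0) :
    x.order ≤ (redSeries A π x).order :=
  (HahnSeries.le_order_iff_forall hy).2 fun _ hi =>
    coeff_eq_zero_of_redSeries (fun _ hj => HahnSeries.coeff_eq_zero_of_lt_order hj) _ hi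

end FLTA.BadRed
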