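import Fermat.Agent.BadRed.SeriesCalc
import Mathlib.LinearAlgebra.Dimension.Finrank

/-!
# Gauss lattices in finite dimensional spaces of series
-/

set_option autoImplicit false
set_option linter.style.haveILetI false

noncomputable section

namespace FLTA.BadRed

variable {K : Type*} [Field K] {A : ValuationSubring K} {k : Type*} [Field k] {π : A →+* k}
variable {ι : Type*} [Fintype ι]

/-- Every nonzero vector can be scaled to an integral one with nonzero reduction. -/
def Scalable (π : A →+* k) (V : Submodule K (ι → LaurentSeries K)) : Prop :=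
  ∀ y ∈ V, y ≠ 0 → ∃ c : K, c ≠ 0 ∧ (∀ i, IntSeries A (c • y i)) ∧
    ∃ i, redSeries A π (c • y i) ≠ 0

/-- The reductions of the integral vectors. -/
def redSet (π : A →+* k) (V : Submodule K (ι → LaurentSeries K)) : Set (ι → LaurentSeries k) :=
  {p | ∃ y ∈ V, (∀ i, IntSeries A (y i)) ∧ ∀ i, p i = redSeries A π (y i)}

/-- The coordinate functional at a coefficient. -/
def seriesCoord (p : ι × ℤ) : (ι → LaurentSeries K) →ₗ[K] K where
  toFun y := (y p.1).coeff p.2
  map_add' y z := by simp
  map_smul' c y := by simp

omit [Fintype ι] in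
@[simp]
theorem seriesCoord_apply (p : ι × ℤ) (y : ι → LaurentSeries K) :
    seriesCoord p y = (y p.1).coeff p.2 := rfl

omit [Fintype ι] in
/-- Integral vectors of `V`, the identity on pivot coefficients, spanning `V`. -/
theorem exists_pivot_family (hπ : Function.Surjective π)
    (V : Submodule K (ι → LaurentSeries K)) [FiniteDimensional K V] (hV : Scalable π V) :
    ∃ (d : ℕ) (p : Fin d → ι × ℤ) (b : Fin d → (ι → LaurentSeries K)),
      (∀ j, seriesCoord (p j) (b j) = 1) ∧ (∀ j l, j ≠ l → seriesCoord (p l) (b j) = 0) ∧
      (∀ j, b j ∈ V ∧ ∀ i, IntSeries A (b j i)) ∧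
      ∀ y ∈ V, y = ∑ j, seriesCoord (p j) y • b j := by
  classical
  induction hn : Module.finrank K V using Nat.strong_induction_on generalizing V with
  | _ n IH =>
    rcases eq_or_ne V ⊥ with rfl | hne
    · exact ⟨0, Fin.elim0, Fin.elim0, fun j => j.elim0, fun j => j.elim0, fun j => j.elim0,
        fun y hy => by simpa using hy⟩
    obtain ⟨y, hyV, hy⟩ := Submodule.exists_mem_ne_zero_of_ne_bot hne
    obtain ⟨c, hc, hint, i, hred⟩ := hV y hyV hy
    obtain ⟨e, he⟩ : ∃ e, redCoeff A π ((c • y i).coeff e) ≠ 0 := by
      by_contra h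
      push Not at h
      exact hred (HahnSeries.ext (funext h))
    set u : K := (c • y i).coeff e with hu
    have huA : u ∈ A := hint i e
    rw [redCoeff, dif_pos huA] at he
    have hu0 : u ≠ 0 := fun h => he (by
      rw [show (⟨u, huA⟩ : A) = 0 from Subtype.ext h, map_zero])
    have huinv : u⁻¹ ∈ A := by
      by_contra h
      exact he (residue_eq_zero_of_inv_notMem hπ huA h)
    let w₀ : ι → LaurentSeries K := u⁻¹ • c • y
    have hw₀int : ∀ l, IntSeries A (w₀ l) := fun l => IntSeries.smul huinv (hint l)
    have hw₀V : w₀ ∈ V := V.smul_mem _ (V.smul_mem _ hyV)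
    have hw₀e : seriesCoord (i, e) w₀ = 1 := by
      show (u⁻¹ • (c • y i)).coeff e = 1
      rw [HahnSeries.coeff_smul, smul_eq_mul, ← hu, inv_mul_cancel₀ hu0]
    let V' : Submodule K (ι → LaurentSeries K) := V ⊓ LinearMap.ker (seriesCoord (i, e))
    haveI : FiniteDimensional K V' := Submodule.finiteDimensional_of_le inf_le_left
    have hlt : V' < V := by
      refine lt_of_le_of_ne inf_le_left fun h => ?_
      have hmem : w₀ ∈ V' := h.symm ▸ hw₀V
      have := LinearMap.mem_ker.mp (Submodule.mem_inf.mp hmem).2
      rw [hw₀e] at this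
      exact one_ne_zero this
    obtain ⟨d, p, b, hb1, hb0, hbV, hexp⟩ :=
      IH _ (hn ▸ Submodule.finrank_lt_finrank_of_lt hlt) V'
        (fun z hz => hV z (Submodule.mem_inf.mp hz).1) rfl
    have hbi : ∀ j, seriesCoord (i, e) (b j) = 0 := fun j =>
      LinearMap.mem_ker.mp (Submodule.mem_inf.mp (hbV j).1).2
    let w : ι → LaurentSeries K := w₀ - ∑ j, seriesCoord (p j) w₀ • b j
    have hwint : ∀ l, IntSeries A (w l) := fun l => by
      simp only [w, Pi.sub_apply, Finset.sum_apply, Pi.smul_apply]
      exact IntSeries.sub (hw₀int l) (IntSeries.sum _ _ fun j _ =>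
        IntSeries.smul (hw₀int _ _) ((hbV j).2 l))
    have hwV : w ∈ V := sub_mem hw₀V (sum_mem fun j _ =>
      V.smul_mem _ (Submodule.mem_inf.mp (hbV j).1).1)
    have hwe : seriesCoord (i, e) w = 1 := by
      simp only [w, map_sub, map_sum, map_smul, hbi, smul_zero, Finset.sum_const_zero, sub_zero,
        hw₀e]
    have hwp : ∀ j, seriesCoord (p j) w = 0 := fun j => by
      simp only [w, map_sub, map_sum, map_smul, smul_eq_mul]
      rw [Finset.sum_eq_single j (fun l _ hl => by rw [hb0 l j hl, mul_zero])
        (fun h => absurd (Finset.mem_univ j) h), hb1, mul_one, sub_self]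
    refine ⟨d + 1, Fin.cons (i, e) p, Fin.cons w b, ?_, ?_, ?_, ?_⟩
    · refine Fin.cases ?_ ?_
      · simpa using hwe
      · intro j; simpa using hb1 j
    · refine Fin.cases ?_ ?_
      · refine Fin.cases ?_ ?_
        · exact fun h => absurd rfl h
        · intro l _; simpa using hwp l
      · intro j
        refine Fin.cases ?_ ?_
        · intro _; simpa using hbi j
        · intro l hl; simpa using hb0 j l fun h => hl (congrArg Fin.succ h)
    · refine Fin.cases ?_ ?_
      · simpa using And.intro hwV hwint
      · intro j; simpa using And.intro (Submodule.mem_inf.mp (hbV j).1).1 (hbV j).2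
    · intro v hv
      have hv' : v - seriesCoord (i, e) v • w ∈ V' :=
        ⟨V.sub_mem hv (V.smul_mem _ hwV), LinearMap.mem_ker.mpr
          (by rw [map_sub, map_smul, hwe, smul_eq_mul, mul_one, sub_self])⟩
      have h := hexp _ hv'
      simp only [map_sub, map_smul, hwp, smul_zero, sub_zero] at h
      rw [Fin.sum_univ_succ]
      simp only [Fin.cons_zero, Fin.cons_succ]
      rw [← h, add_sub_cancel]

omit [Fintype ι] in
theorem linearIndependent_pivot_family {d : ℕ} (p : Fin d → ι × ℤ)
    (b : Fin d → (ι → LaurentSeries K)) (hb1 : ∀ j, seriesCoord (p j) (b j) = 1)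
    (hb0 : ∀ j l, j ≠ l → seriesCoord (p l) (b j) = 0) :
    LinearIndependent K b ∧
      LinearIndependent k (fun j => fun i => redSeries A π (b j i)) := by
  classical
  constructor
  · rw [Fintype.linearIndependent_iff]
    intro g hg j
    have h := congrArg (seriesCoord (p j)) hg
    rw [map_sum, map_zero] at h
    simp only [map_smul, smul_eq_mul] at h
    rwa [Finset.sum_eq_single j (fun l _ hl => by rw [hb0 l j hl, mul_zero])
      (fun h' => absurd (Finset.mem_univ j) h'), hb1, mul_one] at h
  · rw [Fintype.linearIndependent_iff]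
    intro g hg j
    have h := congrArg (seriesCoord (K := k) (p j)) hg
    rw [map_sum, map_zero] at h
    simp only [map_smul, smul_eq_mul, seriesCoord_apply, redSeries_coeff] at h
    rw [Finset.sum_eq_single j (fun l _ hl => by
      have := hb0 l j hl
      rw [seriesCoord_apply] at this
      rw [this, show (0 : K) = ((0 : A) : K) from rfl, redCoeff_coe, map_zero, mul_zero])
      (fun h' => absurd (Finset.mem_univ j) h')] at h
    have := hb1 j
    rw [seriesCoord_apply] at this
    rwa [this, show (1 : K) = ((1 : A) : K) from rfl, redCoeff_coe, map_one, mul_one] at h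

omit [Fintype ι] in
/-- A basis with independent reductions, spanning exactly the integral vectors. -/
theorem exists_redBasis (hπ : Function.Surjective π)
    (V : Submodule K (ι → LaurentSeries K)) [FiniteDimensional K V] (hV : Scalable π V) :
    ∃ b : Fin (Module.finrank K V) → (ι → LaurentSeries K),
      (∀ j, b j ∈ V ∧ ∀ i, IntSeries A (b j i)) ∧
      LinearIndependent k (fun j => fun i => redSeries A π (b j i)) ∧
      ∀ y ∈ V, (∀ i, IntSeries A (y i)) →
        ∃ c : Fin (Module.finrank K V) → A, y = ∑ j, (c j : K) • b j := by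
  classical
  obtain ⟨d, p, b, hb1, hb0, hbV, hexp⟩ := exists_pivot_family hπ V hV
  obtain ⟨hli, hlired⟩ := linearIndependent_pivot_family (A := A) (π := π) p b hb1 hb0
  have hd : Module.finrank K V = d := by
    have hspan : V = Submodule.span K (Set.range b) := le_antisymm
      (fun y hy => by
        rw [hexp y hy]
        exact sum_mem fun j _ => Submodule.smul_mem _ _ (Submodule.subset_span ⟨j, rfl⟩))
      (Submodule.span_le.mpr (by rintro _ ⟨j, rfl⟩; exact (hbV j).1))
    rw [hspan, finrank_span_eq_card hli, Fintype.card_fin]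
  subst hd
  exact ⟨b, hbV, hlired, fun y hy hyint =>
    ⟨fun j => ⟨seriesCoord (p j) y, hyint _ _⟩, hexp y hy⟩⟩

omit [Fintype ι] in
/-- The reduction of a finite dimensional space has the same dimension. -/
theorem finrank_span_redSet (hπ : Function.Surjective π)
    (V : Submodule K (ι → LaurentSeries K)) [FiniteDimensional K V] (hV : Scalable π V) :
    (Submodule.span k (redSet π V) : Set (ι → LaurentSeries k)) = redSet π V ∧
      FiniteDimensional k (Submodule.span k (redSet π V)) ∧
      Module.finrank k (Submodule.span k (redSet π V)) = Module.finrank K V := by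
  classical
  obtain ⟨b, hbV, hli, hexp⟩ := exists_redBasis hπ V hV
  set rb : Fin (Module.finrank K V) → (ι → LaurentSeries k) :=
    fun j => fun i => redSeries A π (b j i) with hrb
  have key : ∀ c : Fin (Module.finrank K V) → A, (∑ j, π (c j) • rb j) ∈ redSet π V := by
    intro c
    refine ⟨∑ j, (c j : K) • b j, sum_mem fun j _ => V.smul_mem _ (hbV j).1, fun i => ?_,
      fun i => ?_⟩
    · rw [Finset.sum_apply]
      exact IntSeries.sum _ _ fun j _ => IntSeries.smul (c j).2 ((hbV j).2 i)
    · ext e
      simp only [Finset.sum_apply, Pi.smul_apply, HahnSeries.coeff_sum, HahnSeries.coeff_smul,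
        smul_eq_mul, redSeries_coeff, hrb]
      rw [show (∑ j, (c j : K) * (b j i).coeff e) =
        ((∑ j, c j * ⟨(b j i).coeff e, (hbV j).2 i e⟩ : A) : K) by push_cast; rfl,
        redCoeff_coe, map_sum]
      refine Finset.sum_congr rfl fun j _ => ?_
      rw [map_mul, redCoeff, dif_pos ((hbV j).2 i e)]
  have hset : redSet π V = (Submodule.span k (Set.range rb) : Set (ι → LaurentSeries k)) := by
    refine Set.Subset.antisymm ?_ ?_
    · rintro q ⟨y, hy, hyint, hq⟩
      obtain ⟨c, rfl⟩ := hexp y hy hyint
      obtain ⟨z, hz, -, hz'⟩ := key c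
      have e1 : q = ∑ j, π (c j) • rb j := by
        funext i
        rw [hq i]
        ext e
        simp only [Finset.sum_apply, Pi.smul_apply, HahnSeries.coeff_sum, HahnSeries.coeff_smul,
          smul_eq_mul, redSeries_coeff, hrb]
        rw [show (∑ j, (c j : K) * (b j i).coeff e) =
          ((∑ j, c j * ⟨(b j i).coeff e, (hbV j).2 i e⟩ : A) : K) by push_cast; rfl,
          redCoeff_coe, map_sum]
        refine Finset.sum_congr rfl fun j _ => ?_
        rw [map_mul, redCoeff, dif_pos ((hbV j).2 i e)]
      rw [e1]
      exact sum_mem fun j _ => Submodule.smul_mem _ _ (Submodule.subset_span ⟨j, rfl⟩)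
    · intro q hq
      obtain ⟨a, rfl⟩ := (Submodule.mem_span_range_iff_exists_fun _).mp hq
      choose c hc using fun j => hπ (a j)
      have := key c
      simpa only [hc] using this
  have hspan : Submodule.span k (redSet π V) = Submodule.span k (Set.range rb) := by
    rw [hset, Submodule.span_eq]
  refine ⟨by rw [hspan, hset], ?_, ?_⟩
  · rw [hspan]
    exact FiniteDimensional.span_of_finite k (Set.finite_range _)
  · rw [hspan, finrank_span_eq_card hli, Fintype.card_fin]

end FLTA.BadRed

end
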