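import Mathlib

/-!
# Twisted gluing spaces

`L₀, L₁` are the spaces of functions on the two components, `ev₀, ev₁` their evaluations at the
glued points.  A subspace whose pairs satisfy `α a^n = β b^n` at every glued pair lies in a unique
twisted gluing space `a = ζ b`, and equals it as soon as it has the right dimension.
-/

set_option autoImplicit false

noncomputable section

namespace FLTA.BadRed

variable {k : Type*} [Field k] {ι : Type*} [Fintype ι]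
variable {L₀ L₁ : Type*} [AddCommGroup L₀] [Module k L₀] [AddCommGroup L₁] [Module k L₁]

/-- The defining map of a twisted gluing space. -/
def glueMap (ev₀ : L₀ →ₗ[k] (ι → k)) (ev₁ : L₁ →ₗ[k] (ι → k)) (ζ : ι → k) :
    L₀ × L₁ →ₗ[k] (ι → k) :=
  ev₀.comp (LinearMap.fst k L₀ L₁) -
    (LinearMap.pi fun i => ζ i • LinearMap.proj i).comp (ev₁.comp (LinearMap.snd k L₀ L₁))

/-- The twisted gluing space. -/
def glueSpace (ev₀ : L₀ →ₗ[k] (ι → k)) (ev₁ : L₁ →ₗ[k] (ι → k)) (ζ : ι → k) :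
    Submodule k (L₀ × L₁) :=
  (glueMap ev₀ ev₁ ζ).ker

theorem mem_glueSpace {ev₀ : L₀ →ₗ[k] (ι → k)} {ev₁ : L₁ →ₗ[k] (ι → k)} {ζ : ι → k}
    {g : L₀ × L₁} : g ∈ glueSpace ev₀ ev₁ ζ ↔ ∀ i, ev₀ g.1 i = ζ i * ev₁ g.2 i := by
  simp [glueSpace, glueMap, funext_iff, sub_eq_zero]

theorem finrank_glueSpace [FiniteDimensional k L₀] [FiniteDimensional k L₁]
    {ev₀ : L₀ →ₗ[k] (ι → k)} (ev₁ : L₁ →ₗ[k] (ι → k)) (h₀ : Function.Surjective ev₀) (ζ : ι → k) :
    Module.finrank k (glueSpace ev₀ ev₁ ζ) + Fintype.card ι =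
      Module.finrank k L₀ + Module.finrank k L₁ := by
  have hs : Function.Surjective (glueMap ev₀ ev₁ ζ) := fun v => by
    obtain ⟨a, ha⟩ := h₀ v
    exact ⟨(a, 0), by simp [glueMap, ha]⟩
  have h := (glueMap ev₀ ev₁ ζ).finrank_range_add_finrank_ker
  rw [LinearMap.range_eq_top.mpr hs, finrank_top, Module.finrank_pi, Module.finrank_prod] at h
  show Module.finrank k (glueMap ev₀ ev₁ ζ).ker + _ = _
  omega

/-- The twisting parameter of a gluing space is unique. -/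
theorem eq_of_glueSpace_le {ev₀ : L₀ →ₗ[k] (ι → k)} {ev₁ : L₁ →ₗ[k] (ι → k)}
    (h₀ : Function.Surjective ev₀) (h₁ : Function.Surjective ev₁) {ζ ζ' : ι → k}
    (h : glueSpace ev₀ ev₁ ζ ≤ glueSpace ev₀ ev₁ ζ') : ζ = ζ' := by
  obtain ⟨b, hb⟩ := h₁ 1
  obtain ⟨a, ha⟩ := h₀ ζ
  have hmem : (a, b) ∈ glueSpace ev₀ ev₁ ζ := mem_glueSpace.mpr fun i => by simp [ha, hb]
  funext i
  simpa [ha, hb] using mem_glueSpace.mp (h hmem) i

/-- A space of pairs of values with `α a^n = β b^n` lies on one line `a = ζ b`, with `α ζ^n = β`. -/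
theorem exists_ratio [IsAlgClosed k] {n : ℕ} (hn : 0 < n) {α β : k} (hα : α ≠ 0) (hβ : β ≠ 0)
    (W : Submodule k (k × k)) (h : ∀ w ∈ W, α * w.1 ^ n = β * w.2 ^ n) :
    ∃ ζ : k, ζ ≠ 0 ∧ α * ζ ^ n = β ∧ ∀ w ∈ W, w.1 = ζ * w.2 := by
  classical
  by_cases hW : ∃ w ∈ W, w.2 ≠ 0
  · obtain ⟨w1, hw1, hb1⟩ := hW
    have hζn : α * (w1.1 / w1.2) ^ n = β := by
      rw [div_pow, ← mul_div_assoc, h w1 hw1, mul_div_assoc, div_self (pow_ne_zero _ hb1), mul_one]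
    refine ⟨w1.1 / w1.2, ?_, hζn, fun w hw => ?_⟩
    · intro h0
      rw [h0, zero_pow hn.ne', mul_zero] at hζn
      exact hβ hζn.symm
    · have hmem := W.sub_mem hw (W.smul_mem (w.2 / w1.2) hw1)
      have h' := h _ hmem
      simp only [Prod.fst_sub, Prod.snd_sub, Prod.smul_fst, Prod.smul_snd, smul_eq_mul,
        div_mul_cancel₀ _ hb1, sub_self, zero_pow hn.ne', mul_zero] at h'
      have h'' := pow_eq_zero_iff hn.ne' |>.mp ((mul_eq_zero_iff_left hα).mp h')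
      rw [sub_eq_zero] at h''
      rw [h'']
      ring
  · push Not at hW
    obtain ⟨ζ, hζ⟩ := IsAlgClosed.exists_pow_nat_eq (β / α) hn
    refine ⟨ζ, ?_, ?_, fun w hw => ?_⟩
    · intro h0
      rw [h0, zero_pow hn.ne'] at hζ
      exact div_ne_zero hβ hα hζ.symm
    · rw [hζ]; field_simp
    · have h' := h w hw
      rw [hW w hw, zero_pow hn.ne', mul_zero] at h'
      rw [hW w hw, mul_zero]
      exact pow_eq_zero_iff hn.ne' |>.mp ((mul_eq_zero_iff_left hα).mp h')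

/-- **Twist existence.**  A subspace of pairs with `α a(i)^n = β b(i)^n` at all glued pairs and
of the dimension of a gluing space is a twisted gluing space with `α ζᵢ^n = β`. -/
theorem exists_eq_glueSpace [IsAlgClosed k] [FiniteDimensional k L₀] [FiniteDimensional k L₁]
    {n : ℕ} (hn : 0 < n) {α β : k} (hα : α ≠ 0) (hβ : β ≠ 0)
    {ev₀ : L₀ →ₗ[k] (ι → k)} (ev₁ : L₁ →ₗ[k] (ι → k)) (h₀ : Function.Surjective ev₀)
    (M : Submodule k (L₀ × L₁))
    (h : ∀ g ∈ M, ∀ i, α * ev₀ g.1 i ^ n = β * ev₁ g.2 i ^ n)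
    (hdim : Module.finrank k L₀ + Module.finrank k L₁ ≤ Module.finrank k M + Fintype.card ι) :
    ∃ ζ : ι → k, (∀ i, ζ i ≠ 0) ∧ (∀ i, α * ζ i ^ n = β) ∧ M = glueSpace ev₀ ev₁ ζ := by
  have : ∀ i, ∃ ζ : k, ζ ≠ 0 ∧ α * ζ ^ n = β ∧ ∀ g ∈ M, ev₀ g.1 i = ζ * ev₁ g.2 i := fun i => by
    obtain ⟨ζ, h1, h2, h3⟩ := exists_ratio hn hα hβ
      (M.map (((LinearMap.proj i).comp ev₀).prodMap ((LinearMap.proj i).comp ev₁)))
      (by rintro _ ⟨g, hg, rfl⟩; exact h g hg i)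
    exact ⟨ζ, h1, h2, fun g hg => h3 _ ⟨g, hg, rfl⟩⟩
  choose ζ h1 h2 h3 using this
  refine ⟨ζ, h1, h2, Submodule.eq_of_le_of_finrank_le (fun g hg => mem_glueSpace.mpr fun i =>
    h3 i g hg) ?_⟩
  have := finrank_glueSpace ev₁ h₀ ζ
  omega

end FLTA.BadRed
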