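import Fermat.Agent.BadRed.Residue
import Fermat.Agent.BadRed.Fibre.Sections
import Fermat.Agent.BadRed.GlueSpace

/-!
# The special fibre: two copies of the reduced curve glued at finitely many points

The glueing points are the common zeros of the ideal of those functions `c` for which `(c, 0)` is
a reduced section.
-/

set_option autoImplicit false

noncomputable section

open AlgebraicCurve FLTA.Curves

namespace FLTA.BadRed.BadFibre

variable {K : Type*} [Field K] [IsAlgClosed K] [CharZero K] {A : ValuationSubring K}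
  {k : Type*} [Field k] [IsAlgClosed k] {π : A →+* k}
  {q : ℕ} [NeZero q] [Fact q.Prime] [CharP k q]
  {F : Type*} [Field F] [Algebra K F] {F' : Type*} [Field F'] [Algebra K F']
  {Fk : Type*} [Field Fk] [Algebra k Fk] {g gF : ℕ} (B : BadFibre A π q F F' Fk g gF)

/-- Pairs that are reduced sections of some level. -/
def InBar (p : Fin 2 → Fk) : Prop := ∃ m, p ∈ B.secs m

omit [IsAlgClosed K] [CharZero K] [IsAlgClosed k] [Fact q.Prime] [CharP k q] in
theorem InBar.add {p r : Fin 2 → Fk} (hp : B.InBar p) (hr : B.InBar r) : B.InBar (p + r) := by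
  obtain ⟨m, hp⟩ := hp
  obtain ⟨l, hr⟩ := hr
  exact ⟨m + l, add_mem (B.secs_mono (Nat.le_add_right m l) hp)
    (B.secs_mono (Nat.le_add_left l m) hr)⟩

omit [IsAlgClosed K] [CharZero K] [IsAlgClosed k] [Fact q.Prime] [CharP k q] in
theorem InBar.sub {p r : Fin 2 → Fk} (hp : B.InBar p) (hr : B.InBar r) : B.InBar (p - r) := by
  obtain ⟨m, hp⟩ := hp
  obtain ⟨l, hr⟩ := hr
  exact ⟨m + l, sub_mem (B.secs_mono (Nat.le_add_right m l) hp)
    (B.secs_mono (Nat.le_add_left l m) hr)⟩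

omit [IsAlgClosed K] [CharZero K] [IsAlgClosed k] [Fact q.Prime] [CharP k q] in
theorem InBar.mul {p r : Fin 2 → Fk} (hp : B.InBar p) (hr : B.InBar r) : B.InBar (p * r) := by
  obtain ⟨m, hp⟩ := hp
  obtain ⟨l, hr⟩ := hr
  exact ⟨m + l, B.mul_mem_secs hp hr⟩

omit [IsAlgClosed K] [IsAlgClosed k] in
theorem inBar_iota {b : Fk} (hb : b ∈ B.regFk) : B.InBar ![b, B.iota b] := by
  obtain ⟨m, hm⟩ := B.exists_mem_single hb
  exact ⟨_, B.iota_pair_mem_secs (l := m + 2 * g) (by omega)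
    (riemannRochSpace_mono (Finsupp.single_le_single.mpr (by omega)) hm)⟩

omit [IsAlgClosed K] [IsAlgClosed k] in
theorem inBar_iota' {b : Fk} (hb : b ∈ B.regFk) : B.InBar ![B.iota b, b] := by
  obtain ⟨m, hm⟩ := B.inBar_iota hb
  exact ⟨m, B.swap_mem_secs hm⟩

/-- The functions `c` with `(c, 0)` a reduced section. -/
def conductor : Ideal B.regFk where
  carrier := {c | B.InBar ![(c : Fk), 0]}
  add_mem' := by
    intro c d hc hd
    have e : ![((c + d : B.regFk) : Fk), 0] = ![(c : Fk), 0] + ![(d : Fk), 0] :=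
      funext (Fin.forall_fin_two.mpr ⟨rfl, (add_zero 0).symm⟩)
    show B.InBar _
    rw [e]
    exact hc.add B hd
  zero_mem' := ⟨0, by
    have e : ![((0 : B.regFk) : Fk), 0] = 0 := funext (Fin.forall_fin_two.mpr ⟨rfl, rfl⟩)
    rw [e]
    exact zero_mem _⟩
  smul_mem' := by
    intro x c hc
    have e : ![((x • c : B.regFk) : Fk), 0] = ![(x : Fk), B.iota x] * ![(c : Fk), 0] :=
      funext (Fin.forall_fin_two.mpr ⟨rfl, (mul_zero _).symm⟩)
    show B.InBar _
    rw [e]
    exact (B.inBar_iota x.2).mul B hc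

omit [IsAlgClosed K] [IsAlgClosed k] in
theorem mem_conductor {c : B.regFk} : c ∈ B.conductor ↔ B.InBar ![(c : Fk), 0] := Iff.rfl

omit [IsAlgClosed K] [IsAlgClosed k] in
/-- A pair is a reduced section iff `p 0 - iota (p 1)` lies in the conductor. -/
theorem inBar_iff {p : Fin 2 → Fk} (hp : ∀ i, p i ∈ B.regFk) :
    B.InBar p ↔
      (⟨p 0 - B.iota (p 1), sub_mem (hp 0) (B.iota_mem_regFk (hp 1))⟩ : B.regFk) ∈ B.conductor := by
  have e : ![p 0 - B.iota (p 1), 0] = p - ![B.iota (p 1), p 1] :=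
    funext (Fin.forall_fin_two.mpr ⟨rfl, (sub_self _).symm⟩)
  rw [mem_conductor, e]
  refine ⟨fun h => h.sub B (B.inBar_iota' (hp 1)), fun h => ?_⟩
  have h' := h.add B (B.inBar_iota' (hp 1))
  rwa [sub_add_cancel] at h'

omit [IsAlgClosed K] [IsAlgClosed k] in
/-- `iota (iota b) - b` lies in the conductor. -/
theorem iota_iota_sub_mem {b : Fk} (hb : b ∈ B.regFk) :
    (⟨B.iota (B.iota b) - b, sub_mem (B.iota_mem_regFk (B.iota_mem_regFk hb)) hb⟩ : B.regFk) ∈
      B.conductor := by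
  rw [mem_conductor]
  have e : ![B.iota (B.iota b) - b, 0] = ![B.iota (B.iota b), B.iota b] - ![b, B.iota b] :=
    funext (Fin.forall_fin_two.mpr ⟨rfl, (sub_self _).symm⟩)
  rw [e]
  exact (B.inBar_iota' (B.iota_mem_regFk hb)).sub B (B.inBar_iota hb)

omit [IsAlgClosed K] [IsAlgClosed k] in
theorem exists_mem_conductor_ne_zero : ∃ e ∈ B.conductor, e ≠ 0 := by
  obtain ⟨b, hb, hb0, hord⟩ := B.exists_exact_pole (u := 2 * g + 1) le_rfl
  refine ⟨_, B.iota_iota_sub_mem (B.mem_regFk_of_mem hb), fun h => ?_⟩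
  have h' : B.iota (B.iota b) = b := sub_eq_zero.mp (congrArg Subtype.val h)
  have h2 := congrArg B.infk.ord h'
  rw [B.ord_iota, B.frobq_smul_infk_eq, B.ord_iota, B.frobq_smul_infk_eq, hord] at h2
  have hq : (2 : ℤ) ≤ q := by exact_mod_cast Nat.Prime.two_le Fact.out
  have h4 : (4 : ℤ) ≤ q * q := by nlinarith
  push_cast at h2
  nlinarith

omit [IsAlgClosed K] [IsAlgClosed k] in
/-- The common zeros of the conductor are fixed by `frobq ^ 2`. -/
theorem frobq_sq_of_vanish {Q : Place k Fk} (hQ : Q ≠ B.infk)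
    (hv : ∀ c ∈ B.conductor, placeVal Q (c : Fk) = 0) : B.frobq • B.frobq • Q = Q := by
  by_contra hne
  have hQ1 := B.frobq_smul_ne_infk hQ
  have hQ2 := B.frobq_smul_ne_infk hQ1
  obtain ⟨b, hb, h1, h0⟩ := B.exists_separate hQ2 hQ hne
  have h := hv _ (B.iota_iota_sub_mem hb)
  have hdeg := B.rrk.deg_eq_one Q
  have hib := B.iota_mem_regFk (B.iota_mem_regFk hb) Q hQ
  have h2 := placeVal_add hdeg hib (neg_mem (hb Q hQ))
  have hneg : placeVal Q (-b) = 0 := by
    rw [← neg_one_smul k b, placeVal_smul hdeg _ (hb Q hQ), h0, mul_zero]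
  rw [← sub_eq_add_neg, hneg, B.placeVal_iota hQ (B.iota_mem_regFk hb), B.placeVal_iota hQ1 hb,
    h1] at h2
  change placeVal Q (B.iota (B.iota b) - b) = 0 at h
  rw [h] at h2
  simp at h2

omit [IsAlgClosed K] in
/-- A function vanishing at all common zeros of the conductor lies in it. -/
theorem mem_conductor_of_vanish {c : B.regFk}
    (hc : ∀ Q : Place k Fk, Q ≠ B.infk → (∀ d ∈ B.conductor, placeVal Q (d : Fk) = 0) →
      placeVal Q (c : Fk) = 0) : c ∈ B.conductor := by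
  classical
  rcases eq_or_ne c 0 with rfl | hc0
  · exact zero_mem _
  have hc0' : (c : Fk) ≠ 0 := fun h => hc0 (Subtype.ext h)
  let J : Ideal B.regFk :=
    { carrier := {x | x * c ∈ B.conductor}
      add_mem' := fun {x y} hx hy => by
        show (x + y) * c ∈ B.conductor
        rw [add_mul]
        exact add_mem hx hy
      zero_mem' := by
        show (0 : B.regFk) * c ∈ B.conductor
        rw [zero_mul]
        exact zero_mem _
      smul_mem' := fun x y hy => by
        show x * y * c ∈ B.conductor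
        rw [mul_assoc]
        exact B.conductor.mul_mem_left x hy }
  obtain ⟨e0, he0, he0ne⟩ := B.exists_mem_conductor_ne_zero
  suffices h : (1 : B.regFk) ∈ J by simpa [J] using h
  refine B.one_mem_of_no_zero J (c₀ := e0) (B.conductor.mul_mem_right c he0) he0ne fun Q hQ => ?_
  by_cases hQS : ∀ d ∈ B.conductor, placeVal Q (d : Fk) = 0
  swap
  · push Not at hQS
    obtain ⟨d, hd, hdQ⟩ := hQS
    exact ⟨d, B.conductor.mul_mem_right c hd, hdQ⟩
  have hg2 := B.frobq_sq_of_vanish hQ hQS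
  have hdeg := B.rrk.deg_eq_one Q
  obtain ⟨b, hb, hb0, hb1⟩ := B.exists_ord_one hQ
  set e : B.regFk :=
    ⟨B.iota (B.iota b) - b, sub_mem (B.iota_mem_regFk (B.iota_mem_regFk hb)) hb⟩ with he
  have hemem : e ∈ B.conductor := B.iota_iota_sub_mem hb
  have hi0 : B.iota (B.iota b) ≠ 0 := (map_ne_zero B.iota).mpr ((map_ne_zero B.iota).mpr hb0)
  have hlt : Q.ord (-b) < Q.ord (B.iota (B.iota b)) := by
    rw [ord_neg, B.ord_iota, B.ord_iota, hg2, hb1]
    have hq : (2 : ℤ) ≤ q := by exact_mod_cast Nat.Prime.two_le Fact.out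
    nlinarith
  have he1 : Q.ord (e : Fk) = 1 := by
    show Q.ord (B.iota (B.iota b) - b) = 1
    rw [sub_eq_neg_add, ord_add_eq_of_lt Q (neg_ne_zero.mpr hb0) hi0 hlt, ord_neg, hb1]
  have he0' : (e : Fk) ≠ 0 := fun h => by rw [h, Place.ord_zero] at he1; omega
  set Z : Finset (Place k Fk) := ((B.finite_zeros he0').toFinset.erase B.infk).erase Q with hZ
  have hsep : ∀ Q' ∈ Z, ∃ s ∈ B.regFk, placeVal Q s = 1 ∧ placeVal Q' s = 0 := fun Q' hQ' =>
    B.exists_separate hQ (Finset.ne_of_mem_erase (Finset.mem_of_mem_erase hQ'))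
      (Finset.ne_of_mem_erase hQ').symm
  choose s hs hsQ hsQ' using hsep
  let sv : Place k Fk → Fk := fun Q' => if h : Q' ∈ Z then s Q' h else 1
  have hsv : ∀ Q', sv Q' ∈ B.regFk := fun Q' => by
    by_cases h : Q' ∈ Z <;> simp [sv, h, hs, B.regFk.one_mem]
  have hsvQ : ∀ Q' ∈ Z, placeVal Q (sv Q') = 1 := fun Q' h => by simp [sv, h, hsQ]
  set x : Fk := ∏ Q' ∈ Z, sv Q' ^ (Q'.ord (e : Fk)).toNat with hx
  have hxmem : x ∈ B.regFk := prod_mem fun Q' _ => pow_mem (hsv Q') _
  have hxQ : placeVal Q x = 1 := by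
    have : ∀ T ⊆ Z, placeVal Q (∏ Q' ∈ T, sv Q' ^ (Q'.ord (e : Fk)).toNat) = 1 := by
      intro T
      induction T using Finset.induction_on with
      | empty => exact fun _ => by simp [placeVal_one hdeg]
      | insert a T ha ih =>
        intro hsub
        rw [Finset.prod_insert ha, placeVal_mul hdeg (pow_mem (hsv a Q hQ) _)
          ((prod_mem fun Q' _ => pow_mem (hsv Q') _ : _ ∈ B.regFk) Q hQ),
          placeVal_pow hdeg (hsv a Q hQ), hsvQ a (hsub (Finset.mem_insert_self a T)), one_pow,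
          ih ((Finset.subset_insert _ _).trans hsub), one_mul]
    exact this Z subset_rfl
  have hdiv : x * (c : Fk) / (e : Fk) ∈ B.regFk := by
    intro Q' hQ'
    rcases eq_or_ne x 0 with hx0 | hx0
    · rw [hx0, zero_mul, zero_div]; exact zero_mem _
    refine (mem_iff_ord_nonneg _ (div_ne_zero (mul_ne_zero hx0 hc0') he0')).mpr ?_
    rw [div_eq_mul_inv, Q'.ord_mul (mul_ne_zero hx0 hc0') (inv_ne_zero he0'),
      Q'.ord_mul hx0 hc0', Q'.ord_inv]
    have hxnn := ord_nonneg_of_mem _ (hxmem Q' hQ')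
    have hcnn := ord_nonneg_of_mem _ (c.2 Q' hQ')
    by_cases hQQ : Q' = Q
    · subst hQQ
      have := ((placeVal_eq_zero_iff hdeg (c.2 Q' hQ')).mp (hc Q' hQ' hQS)).resolve_left hc0'
      omega
    by_cases hz : Q'.ord (e : Fk) = 0
    · omega
    have hmemZ : Q' ∈ Z := Finset.mem_erase.mpr ⟨hQQ, Finset.mem_erase.mpr ⟨hQ', by simpa using hz⟩⟩
    have hne : ∀ a ∈ Z, sv a ^ (a.ord (e : Fk)).toNat ≠ 0 := fun a ha h =>
      hx0 (Finset.prod_eq_zero ha h)
    have h1 : (Q'.ord (e : Fk)).toNat ≤ Q'.ord x := by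
      rw [hx, ord_prod Q' _ _ hne]
      refine le_trans ?_ (Finset.single_le_sum (fun a _ =>
        ord_nonneg_of_mem _ (pow_mem (hsv a Q' hQ') _)) hmemZ)
      have hmem := hsv Q' Q' hQ'
      have hz' : placeVal Q' (sv Q') = 0 := by simp [sv, hmemZ, hsQ']
      have hne' : sv Q' ≠ 0 := fun h0 => by
        have h1 := hsvQ Q' hmemZ
        rw [h0, placeVal_zero hdeg] at h1
        exact zero_ne_one h1
      have hpos := ((placeVal_eq_zero_iff (B.rrk.deg_eq_one Q') hmem).mp hz').resolve_left hne'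
      rw [ord_pow]
      nlinarith
    omega
  refine ⟨⟨x, hxmem⟩, ?_, by rw [hxQ]; exact one_ne_zero⟩
  show (⟨x, hxmem⟩ : B.regFk) * c ∈ B.conductor
  rw [show (⟨x, hxmem⟩ : B.regFk) * c = ⟨_, hdiv⟩ * e from
    Subtype.ext (div_mul_cancel₀ _ he0').symm]
  exact B.conductor.mul_mem_left _ hemem

/-- The special fibre is two copies of the reduced curve glued at finitely many points. -/
theorem exists_isGluing : ∃ (S : Finset (Place k Fk)) (m₀ : ℕ), B.IsGluing S m₀ := by
  classical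
  obtain ⟨e0, he0, he0ne⟩ := B.exists_mem_conductor_ne_zero
  have he0' : (e0 : Fk) ≠ 0 := fun h => he0ne (Subtype.ext h)
  set S : Finset (Place k Fk) := (B.finite_zeros he0').toFinset.filter
    (fun Q => Q ≠ B.infk ∧ ∀ c ∈ B.conductor, placeVal Q (c : Fk) = 0) with hSdef
  have hmemS : ∀ {Q}, Q ∈ S ↔ Q ≠ B.infk ∧ ∀ c ∈ B.conductor, placeVal Q (c : Fk) = 0 := by
    intro Q
    rw [hSdef, Finset.mem_filter]
    refine ⟨fun h => h.2, fun h => ⟨?_, h⟩⟩
    have := ((placeVal_eq_zero_iff (B.rrk.deg_eq_one Q) (e0.2 Q h.1)).mp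
      (h.2 e0 he0)).resolve_left he0'
    simpa using this.ne'
  set m₁ : ℕ := 2 * g + 1 + q * (2 * g + q + 1) + gF with hm₁
  have hne0 : ∀ Q : S, (Q : Place k Fk) ≠ B.infk := fun Q => (hmemS.mp Q.2).1
  have hne1 : ∀ Q : S, B.frobq • (Q : Place k Fk) ≠ B.infk := fun Q =>
    B.frobq_smul_ne_infk (hne0 Q)
  have key : ∀ m, m₁ ≤ m → ∀ p : Fin 2 → Fk, p ∈ B.fibreSections m ↔
      (∀ i, p i ∈ riemannRochSpace (Finsupp.single B.infk (m : ℤ))) ∧
        ∀ Q ∈ S, placeVal Q (p 0) = placeVal (B.frobq • Q) (p 1) := by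
    intro m hm p
    constructor
    · intro hp
      have hL := B.secs_le_pairsLE m hp
      refine ⟨hL, fun Q hQ => ?_⟩
      obtain ⟨hQi, hQv⟩ := hmemS.mp hQ
      have hreg : ∀ i, p i ∈ B.regFk := fun i => B.mem_regFk_of_mem (hL i)
      have h := hQv _ ((B.inBar_iff hreg).mp ⟨m, hp⟩)
      change placeVal Q (p 0 - B.iota (p 1)) = 0 at h
      have hiota := B.iota_mem_regFk (hreg 1) Q hQi
      have h2 := placeVal_add (B.rrk.deg_eq_one Q) (sub_mem (hreg 0 Q hQi) hiota) hiota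
      rwa [sub_add_cancel, h, zero_add, B.placeVal_iota hQi (hreg 1)] at h2
    · rintro ⟨hL, hS⟩
      have hreg : ∀ i, p i ∈ B.regFk := fun i => B.mem_regFk_of_mem (hL i)
      obtain ⟨l, hl⟩ := (B.inBar_iff hreg).mpr (B.mem_conductor_of_vanish fun Q hQi hQv => by
        have hiota := B.iota_mem_regFk (hreg 1) Q hQi
        have h2 := placeVal_add (B.rrk.deg_eq_one Q) (sub_mem (hreg 0 Q hQi) hiota) hiota
        rw [sub_add_cancel, B.placeVal_iota hQi (hreg 1), ← hS Q (hmemS.mpr ⟨hQi, hQv⟩)] at h2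
        show placeVal Q (p 0 - B.iota (p 1)) = 0
        linear_combination -h2)
      exact B.mem_secs_of_mem_pairsLE hm hl hL
  refine ⟨S, m₁, ⟨fun h => (hmemS.mp h).1 rfl,
    fun Q hQ => B.frobq_sq_of_vanish (hmemS.mp hQ).1 (hmemS.mp hQ).2,
    fun Q hQ => B.frobq_smul_ne_infk (hmemS.mp hQ).1, key, ?_⟩⟩
  -- counting
  set m : ℕ := m₁ + S.card + 2 * g with hm
  haveI := B.rrk.finiteDimensional (Finsupp.single B.infk (m : ℤ))
  let ev₀ := evalMap B.rrk (P := B.infk) (fun Q : S => (Q : Place k Fk)) hne0 m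
  let ev₁ := evalMap B.rrk (P := B.infk) (fun Q : S => B.frobq • (Q : Place k Fk)) hne1 m
  have hsurj : Function.Surjective ev₀ :=
    evalMap_surjective B.rrk _ hne0 Subtype.val_injective (by rw [Fintype.card_coe]; omega)
  have hG := finrank_glueSpace ev₁ hsurj (fun _ => (1 : k))
  have heq : (B.secs m).comap (B.pairsLE m).subtype =
      (glueSpace ev₀ ev₁ (fun _ => (1 : k))).comap (B.pairsEquiv m).toLinearMap := by
    ext p
    rw [Submodule.mem_comap, Submodule.mem_comap, mem_glueSpace, B.mem_secs, key m (by omega)]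
    simp only [one_mul, Submodule.subtype_apply]
    exact ⟨fun h Q => h.2 Q Q.2, fun h => ⟨p.2, fun Q hQ => h ⟨Q, hQ⟩⟩⟩
  have h1 : Module.finrank k ((B.secs m).comap (B.pairsLE m).subtype) =
      Module.finrank k (B.secs m) :=
    (Submodule.comapSubtypeEquivOfLe (B.secs_le_pairsLE m)).finrank_eq
  have h2 : Module.finrank k ((glueSpace ev₀ ev₁ (fun _ => (1 : k))).comap
      (B.pairsEquiv m).toLinearMap) = Module.finrank k (glueSpace ev₀ ev₁ (fun _ => (1 : k))) := by
    rw [Submodule.comap_equiv_eq_map_symm]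
    exact LinearEquiv.finrank_map_eq _ _
  rw [heq, h2] at h1
  rw [h1, Fintype.card_coe] at hG
  have h3 := B.finrank_secs (m := m) (by omega)
  have h4 := finrank_riemannRochSpace_single B.rrk (P := B.infk) (m := m) (by omega)
  omega

end FLTA.BadRed.BadFibre

end
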