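import Fermat.Agent.BadRed.Toric.Bounded
import Fermat.Agent.PlaceRed.Along
import Fermat.Agent.BadRed.IntSeries

/-!
# The reduction of the cusp at infinity is the cusp at infinity
-/

set_option autoImplicit false

noncomputable section

open AlgebraicCurve ModularCurve HahnSeries

namespace FLTA.BadRed

open FLTA.PlaceRed

variable {L : Type*} [Field L] [Algebra ℚ L] [IsAlgClosed L] {A : ValuationSubring L}
  {k : Type*} [Field k] [IsAlgClosed k] {π : A →+* k} {N : ℕ}
  {R : ConstRed A π (laurentBaseChange L (modularFunctionFieldFull N))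
      (modularFunctionFieldFullC k N)} {g : ℕ}

/-- An element of `R.O` with bounded expansion over a discretely valued field is integral and
reduces coefficientwise. -/
theorem intSeries_of_mem_O (h : IsGauss R)
    (hdisc : ∀ s : Finset L, IsDiscreteOn A (Subfield.closure (s : Set L)))
    (f : R.O) (hf : R.red f ≠ 0)
    (hbd : BddSeries A ((f : laurentBaseChange L (modularFunctionFieldFull N)) : LaurentSeries L))
    (hfg : FgSeries ((f : laurentBaseChange L (modularFunctionFieldFull N)) : LaurentSeries L)) :
    IntSeries A ((f : laurentBaseChange L (modularFunctionFieldFull N)) : LaurentSeries L) ∧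
      (R.red f : LaurentSeries k) = redSeries A π
        ((f : laurentBaseChange L (modularFunctionFieldFull N)) : LaurentSeries L) := by
  set Z := ((f : laurentBaseChange L (modularFunctionFieldFull N)) : LaurentSeries L) with hZdef
  obtain ⟨a, b, ha, hb, ha0, hb0, heq⟩ := h.exists_frac f hf
  have hfb : Z * coeffMap A.subtype b = coeffMap A.subtype a := congrArg Subtype.val heq
  have hra : redSeries A π (coeffMap A.subtype a) ≠ 0 := by rwa [redSeries_coeffMap]
  have hrb : redSeries A π (coeffMap A.subtype b) ≠ 0 := by rwa [redSeries_coeffMap]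
  have hne : Z ≠ 0 := by
    intro h0
    rw [h0, zero_mul] at hfb
    exact hra (by rw [← hfb, redSeries_zero])
  have hint := (intSeries_of_mul_eq R.π_surjective
    (exists_primitive_multiple_one hdisc hne hbd hfg)
    (intSeries_coeffMap a) (intSeries_coeffMap b) hra hrb hfb).1
  obtain ⟨y, hy⟩ := exists_coeffMap_eq hint
  refine ⟨hint, ?_⟩
  have hy' : coeffMap A.subtype y ∈ laurentBaseChange L (modularFunctionFieldFull N) :=
    hy.symm ▸ SetLike.coe_mem _
  have hfy : f = ⟨⟨coeffMap A.subtype y, hy'⟩, h.mem y hy'⟩ :=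
    Subtype.ext (Subtype.ext hy.symm)
  rw [hfy, h.red_eq y hy', ← hy, redSeries_coeffMap]

/-- The place at infinity reduces to the place at infinity. -/
theorem placeMap_inf_eq (h : IsGauss R)
    (hF : RRCurve L (laurentBaseChange L (modularFunctionFieldFull N)) g)
    (hF' : RRCurve k (modularFunctionFieldFullC k N) g)
    (hdisc : ∀ s : Finset L, IsDiscreteOn A (Subfield.closure (s : Set L)))
    (hfg : ∀ x : laurentBaseChange L (modularFunctionFieldFull N),
      FgSeries (x : LaurentSeries L))
    (inf : Place L (laurentBaseChange L (modularFunctionFieldFull N)))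
    (infk : Place k (modularFunctionFieldFullC k N))
    (hinf : ∀ x : laurentBaseChange L (modularFunctionFieldFull N), x ≠ 0 →
      inf.ord x = (x : LaurentSeries L).order)
    (hinfk : ∀ x : modularFunctionFieldFullC k N, x ≠ 0 →
      infk.ord x = (x : LaurentSeries k).order)
    (J : R.O) (hJ : inf.ord (J : laurentBaseChange L (modularFunctionFieldFull N)) = -1)
    (hJk : infk.ord (R.red J) < 0)
    (hbd : ∀ x : laurentBaseChange L (modularFunctionFieldFull N),
      (∀ v : Place L (laurentBaseChange L (modularFunctionFieldFull N)),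
        0 ≤ v.ord (J : laurentBaseChange L (modularFunctionFieldFull N)) → 0 ≤ v.ord x) →
      BddSeries A (x : LaurentSeries L)) :
    R.placeMap hF hF' inf = infk := by
  classical
  by_contra hne
  set r := R.placeMap hF hF' with hr
  set D₀ := hF.poleDiv (J : laurentBaseChange L (modularFunctionFieldFull N)) with hD₀
  set M : ℕ := 2 * g + 1 with hM
  set D := (M : ℤ) • D₀ - Finsupp.single inf 1 with hD
  have h0 : 0 ≤ D₀ := hF.poleDiv_nonneg _
  have hJ0 : R.red J ≠ 0 := fun h0 => by simp [h0] at hJk
  have hD₀inf : D₀ inf = 1 := by rw [hD₀, RRCurve.poleDiv_apply, hJ]; rfl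
  have hrD₀ : 1 ≤ Finsupp.mapDomain r D₀ infk := by
    have e := R.isPlaceMap_placeMap hF hF' J hJ0 (hF.divisorOf _)
      (fun P => hF.divisorOf_apply _ P) infk
    have hnn : 0 ≤ hF.divisorOf (J : laurentBaseChange L (modularFunctionFieldFull N)) + D₀ :=
      Finsupp.le_def.mpr fun P => by
        simp only [Finsupp.coe_add, Pi.add_apply, Finsupp.coe_zero, Pi.zero_apply, hD₀,
          RRCurve.poleDiv_apply, RRCurve.divisorOf_apply]
        omega
    have h2 := Finsupp.le_def.mp (mapDomain_nonneg r hnn) infk
    rw [Finsupp.mapDomain_add, Finsupp.add_apply, e, Finsupp.zero_apply] at h2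
    omega
  have hdeg₀ : 1 ≤ Divisor.degree D₀ := by
    have := hF.degree_mono (show Finsupp.single inf 1 ≤ D₀ from
      Finsupp.le_def.mpr fun P => by
        rcases eq_or_ne inf P with rfl | hP
        · simp [hD₀inf]
        · rw [Finsupp.single_eq_of_ne (Ne.symm hP)]
          exact Finsupp.le_def.mp h0 P)
    rwa [hF.degree_single_eq] at this
  have hdeg : 2 * (g : ℤ) ≤ Divisor.degree D := by
    rw [hD, map_sub, map_zsmul, hF.degree_single_eq, smul_eq_mul]
    nlinarith
  have hred := R.reduces_mapDomain_placeMap hF hF' D hdeg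
  obtain ⟨f', hf'0, hf'mem, hf'ord⟩ := hF'.exists_ord_eq_neg
    (D := Finsupp.mapDomain r D) (by rw [hred.degree_eq]; exact hdeg) infk
  obtain ⟨f, hfmem, hff'⟩ := hred.surj f' hf'mem
  have hf0 : (f : laurentBaseChange L (modularFunctionFieldFull N)) ≠ 0 :=
    R.coe_ne_zero (by rw [hff']; exact hf'0)
  have hfD := (RRCurve.mem_iff hf0).mp hfmem
  have hpole : ∀ v : Place L (laurentBaseChange L (modularFunctionFieldFull N)),
      0 ≤ v.ord (J : laurentBaseChange L (modularFunctionFieldFull N)) →
      0 ≤ v.ord (f : laurentBaseChange L (modularFunctionFieldFull N)) := by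
    intro v hv
    have h1 := hfD v
    have h2 : D₀ v = 0 := by rw [hD₀, RRCurve.poleDiv_apply]; omega
    have h3 : 0 ≤ Finsupp.single inf (1 : ℤ) v := by
      rw [Finsupp.single_apply]; split_ifs <;> simp
    simp only [hD, Finsupp.sub_apply, Finsupp.smul_apply, h2, smul_zero, zero_sub] at h1
    omega
  obtain ⟨-, hredf⟩ := intSeries_of_mem_O h hdisc f (by rw [hff']; exact hf'0)
    (hbd _ hpole) (hfg _)
  have hle : inf.ord (f : laurentBaseChange L (modularFunctionFieldFull N)) ≤ infk.ord f' := by
    rw [hinf _ hf0, hinfk _ hf'0, ← hff', hredf]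
    refine order_le_order_redSeries ?_
    rw [← hredf, hff']
    exact fun hz => hf'0 (Subtype.ext hz)
  have h1 := hfD inf
  simp only [hD, Finsupp.sub_apply, Finsupp.smul_apply, hD₀inf, Finsupp.single_eq_same,
    smul_eq_mul, mul_one] at h1
  have hrDinf : (M : ℤ) ≤ Finsupp.mapDomain r D infk := by
    rw [hD, sub_eq_add_neg, ← Finsupp.single_neg, Finsupp.mapDomain_add,
      Finsupp.mapDomain_smul, Finsupp.mapDomain_single, Finsupp.add_apply, Finsupp.smul_apply,
      Finsupp.single_eq_of_ne (Ne.symm hne), smul_eq_mul, add_zero]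
    nlinarith
  omega

end FLTA.BadRed

end
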