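import Fermat.Agent.BadRed.Setup

/-!
# Calculus of integral series and their reductions
-/

set_option autoImplicit false

noncomputable section

open HahnSeries ModularCurve

namespace FLTA.BadRed

variable {K : Type*} [Field K] {A : ValuationSubring K} {k : Type*} [Field k] {π : A →+* k}

theorem intSeries_coeffMap (z : LaurentSeries A) : IntSeries A (coeffMap A.subtype z) :=
  fun i => (z.coeff i).2

theorem exists_coeffMap_eq {y : LaurentSeries K} (hy : IntSeries A y) :
    ∃ z : LaurentSeries A, coeffMap A.subtype z = y :=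
  ⟨{ coeff := fun i => ⟨y.coeff i, hy i⟩
     isPWO_support' := y.isPWO_support'.mono fun i hi h0 => hi (Subtype.ext h0) },
    by ext i; rfl⟩

theorem redSeries_coeffMap (z : LaurentSeries A) :
    redSeries A π (coeffMap A.subtype z) = coeffMap π z := by
  ext i
  rw [redSeries_coeff, coeffMap_coeff, coeffMap_coeff]
  exact redCoeff_coe A π (z.coeff i)

theorem smul_coeffMap (c : A) (z : LaurentSeries A) :
    (c : K) • coeffMap A.subtype z = coeffMap A.subtype (c • z) := by
  ext i; rfl

namespace IntSeries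

theorem zero : IntSeries A (0 : LaurentSeries K) := fun _ => A.zero_mem

theorem one : IntSeries A (1 : LaurentSeries K) := by
  simpa using intSeries_coeffMap (A := A) 1

theorem add {y z : LaurentSeries K} (hy : IntSeries A y) (hz : IntSeries A z) :
    IntSeries A (y + z) := fun i => A.add_mem _ _ (hy i) (hz i)

theorem neg {y : LaurentSeries K} (hy : IntSeries A y) : IntSeries A (-y) :=
  fun i => A.neg_mem _ (hy i)

theorem sub {y z : LaurentSeries K} (hy : IntSeries A y) (hz : IntSeries A z) :
    IntSeries A (y - z) := by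
  simpa [sub_eq_add_neg] using hy.add hz.neg

theorem mul {y z : LaurentSeries K} (hy : IntSeries A y) (hz : IntSeries A z) :
    IntSeries A (y * z) := by
  obtain ⟨a, rfl⟩ := exists_coeffMap_eq hy
  obtain ⟨b, rfl⟩ := exists_coeffMap_eq hz
  rw [← map_mul]
  exact intSeries_coeffMap _

theorem pow {y : LaurentSeries K} (hy : IntSeries A y) (n : ℕ) : IntSeries A (y ^ n) := by
  induction n with
  | zero => simpa using IntSeries.one
  | succ n ih => rw [pow_succ]; exact ih.mul hy

theorem smul {c : K} (hc : c ∈ A) {y : LaurentSeries K} (hy : IntSeries A y) :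
    IntSeries A (c • y) := fun i => A.mul_mem _ _ hc (hy i)

theorem sum {ι : Type*} (s : Finset ι) (y : ι → LaurentSeries K)
    (hy : ∀ j ∈ s, IntSeries A (y j)) : IntSeries A (∑ j ∈ s, y j) := by
  classical
  induction s using Finset.induction_on with
  | empty => simpa using IntSeries.zero
  | insert j s hj ih =>
    rw [Finset.sum_insert hj]
    exact (hy j (Finset.mem_insert_self _ _)).add (ih fun i hi => hy i (Finset.mem_insert_of_mem hi))

end IntSeries

@[simp]
theorem redSeries_zero : redSeries A π (0 : LaurentSeries K) = 0 := by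
  simpa using redSeries_coeffMap (π := π) (0 : LaurentSeries A)

@[simp]
theorem redSeries_one : redSeries A π (1 : LaurentSeries K) = 1 := by
  simpa using redSeries_coeffMap (π := π) (1 : LaurentSeries A)

theorem redSeries_add {y z : LaurentSeries K} (hy : IntSeries A y) (hz : IntSeries A z) :
    redSeries A π (y + z) = redSeries A π y + redSeries A π z := by
  obtain ⟨a, rfl⟩ := exists_coeffMap_eq hy
  obtain ⟨b, rfl⟩ := exists_coeffMap_eq hz
  simp only [← map_add, redSeries_coeffMap]

theorem redSeries_mul {y z : LaurentSeries K} (hy : IntSeries A y) (hz : IntSeries A z) :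
    redSeries A π (y * z) = redSeries A π y * redSeries A π z := by
  obtain ⟨a, rfl⟩ := exists_coeffMap_eq hy
  obtain ⟨b, rfl⟩ := exists_coeffMap_eq hz
  simp only [← map_mul, redSeries_coeffMap]

theorem redSeries_pow {y : LaurentSeries K} (hy : IntSeries A y) (n : ℕ) :
    redSeries A π (y ^ n) = redSeries A π y ^ n := by
  obtain ⟨a, rfl⟩ := exists_coeffMap_eq hy
  simp only [← map_pow, redSeries_coeffMap]

theorem redSeries_smul {c : K} (hc : c ∈ A) {y : LaurentSeries K} (hy : IntSeries A y) :
    redSeries A π (c • y) = π ⟨c, hc⟩ • redSeries A π y := by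
  obtain ⟨a, rfl⟩ := exists_coeffMap_eq hy
  have e : c • coeffMap A.subtype a = coeffMap A.subtype ((⟨c, hc⟩ : A) • a) := smul_coeffMap ⟨c, hc⟩ a
  rw [e, redSeries_coeffMap, redSeries_coeffMap]
  ext i
  show π ((⟨c, hc⟩ : A) • a.coeff i) = π ⟨c, hc⟩ • π (a.coeff i)
  rw [smul_eq_mul, map_mul, smul_eq_mul]

/-- An element with non-zero residue is a unit. -/
theorem isUnit_of_residue_ne_zero (hπ : Function.Surjective π) {a : A} (ha : π a ≠ 0) :
    IsUnit a := by
  by_contra h
  have hk : RingHom.ker π = IsLocalRing.maximalIdeal A :=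
    IsLocalRing.eq_maximalIdeal (RingHom.ker_isMaximal_of_surjective π hπ)
  exact ha ((RingHom.mem_ker).mp (hk ▸ (IsLocalRing.mem_maximalIdeal a).mpr h))

theorem residue_eq_zero_of_inv_notMem (hπ : Function.Surjective π) {c : K} (hc : c ∈ A)
    (hinv : c⁻¹ ∉ A) : π ⟨c, hc⟩ = 0 := by
  by_contra h
  obtain ⟨b, hb⟩ := isUnit_iff_exists_inv.mp (isUnit_of_residue_ne_zero hπ h)
  exact hinv (by rw [inv_eq_of_mul_eq_one_right (congrArg Subtype.val hb)]; exact b.2)

/-- A scalable quotient of integral series with non-zero reductions is integral. -/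
theorem intSeries_of_mul_eq (hπ : Function.Surjective π) {Z y₁ y₂ : LaurentSeries K}
    (hZ : ∃ c : K, c ≠ 0 ∧ IntSeries A (c • Z) ∧ redSeries A π (c • Z) ≠ 0)
    (h₁ : IntSeries A y₁) (h₂ : IntSeries A y₂) (hr₁ : redSeries A π y₁ ≠ 0)
    (hr₂ : redSeries A π y₂ ≠ 0) (h : Z * y₂ = y₁) :
    IntSeries A Z ∧ redSeries A π Z * redSeries A π y₂ = redSeries A π y₁ := by
  obtain ⟨c, hc0, hcZ, hne⟩ := hZ
  have hprod : (c • Z) * y₂ = c • y₁ := by
    rw [← C_mul_eq_smul, ← C_mul_eq_smul, mul_assoc, h]
  have hne' : redSeries A π (c • y₁) ≠ 0 := by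
    rw [← hprod, redSeries_mul hcZ h₂]; exact mul_ne_zero hne hr₂
  have hcinv : c⁻¹ ∈ A := by
    by_contra hci
    have hc : c ∈ A := (A.mem_or_inv_mem c).resolve_right hci
    rw [redSeries_smul hc h₁, residue_eq_zero_of_inv_notMem hπ hc hci, zero_smul] at hne'
    exact hne' rfl
  have hc : c ∈ A := by
    by_contra hc
    apply hr₁
    rw [← inv_smul_smul₀ hc0 y₁, ← hprod, redSeries_smul hcinv (hcZ.mul h₂),
      residue_eq_zero_of_inv_notMem hπ hcinv (by rwa [inv_inv]), zero_smul]
  have hZi : IntSeries A Z := by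
    rw [← inv_smul_smul₀ hc0 Z]; exact hcZ.smul hcinv
  exact ⟨hZi, by rw [← redSeries_mul hZi h₂, h]⟩

end FLTA.BadRed

end
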