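import Fermat.Agent.BadRed.Toric
import Fermat.Agent.BadRed.SeriesCalc
import Fermat.Agent.Curves.BasicOrd

/-!
# The action of the decomposition group on torsion

Inertia and the square of Frobenius move a torsion class by toric classes only.
-/

set_option autoImplicit false

noncomputable section

open AlgebraicCurve

namespace FLTA.BadRed.BadFibre

variable {K : Type*} [Field K] [IsAlgClosed K] [CharZero K] {A : ValuationSubring K}
  {k : Type*} [Field k] [IsAlgClosed k] {π : A →+* k}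
  {q : ℕ} [NeZero q] [Fact q.Prime] [CharP k q]
  {F : Type*} [Field F] [Algebra K F] {F' : Type*} [Field F'] [Algebra K F']
  {Fk : Type*} [Field Fk] [Algebra k Fk] {g gF : ℕ} (B : BadFibre A π q F F' Fk g gF)
  {n : ℕ}

section HasRedCalculus

omit [IsAlgClosed K] [CharZero K] [IsAlgClosed k] [Fact q.Prime] [CharP k q]

theorem algHom_smul_series {X : Type*} [Field X] [Algebra K X] (φ : X →ₐ[K] LaurentSeries K)
    (c : K) (x : X) : φ (c • x) = c • φ x := by
  rw [Algebra.smul_def, map_mul, AlgHom.commutes,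
    ModularCurve.algebraMap_laurentSeries_eq_single]
  ext j
  simp

variable {B} {i : Fin 2} {x y : F} {p r : Fk}

theorem HasRed.ne_zero (hx : B.HasRed i x p) (hp : p ≠ 0) : x ≠ 0 := by
  obtain ⟨g, h, -, -, hh, hgh, hpr⟩ := hx
  intro h0
  refine mul_ne_zero ((map_ne_zero B.exk).mpr hp) hh ?_
  rw [hpr, ← hgh, h0, zero_mul, map_zero, redSeries_zero]

theorem HasRed.mul (hx : B.HasRed i x p) (hy : B.HasRed i y r) :
    B.HasRed i (x * y) (p * r) := by
  obtain ⟨g, h, hg, hh, hh0, hgh, hp⟩ := hx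
  obtain ⟨g', h', hg', hh', hh0', hgh', hr⟩ := hy
  refine ⟨g * g', h * h', ?_, ?_, ?_, ?_, ?_⟩
  · rw [map_mul]; exact hg.mul hg'
  · rw [map_mul]; exact hh.mul hh'
  · rw [map_mul, redSeries_mul hh hh']; exact mul_ne_zero hh0 hh0'
  · rw [mul_mul_mul_comm, hgh, hgh']
  · rw [map_mul B.exk, map_mul (B.e i) h, map_mul (B.e i) g, redSeries_mul hh hh',
      redSeries_mul hg hg', mul_mul_mul_comm, hp, hr]

theorem HasRed.inv (hx : B.HasRed i x p) (hp0 : p ≠ 0) : B.HasRed i x⁻¹ p⁻¹ := by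
  obtain ⟨g, h, hg, hh, hh0, hgh, hp⟩ := hx
  have hx0 : x ≠ 0 := HasRed.ne_zero ⟨g, h, hg, hh, hh0, hgh, hp⟩ hp0
  refine ⟨h, g, hh, hg, ?_, by rw [← hgh, inv_mul_cancel_left₀ hx0], ?_⟩
  · rw [← hp]; exact mul_ne_zero ((map_ne_zero B.exk).mpr hp0) hh0
  · rw [← hp, map_inv₀, inv_mul_cancel_left₀ ((map_ne_zero B.exk).mpr hp0)]

theorem HasRed.smul (hx : B.HasRed i x p) (c : A) : B.HasRed i ((c : K) • x) (π c • p) := by
  obtain ⟨g, h, hg, hh, hh0, hgh, hp⟩ := hx
  refine ⟨(c : K) • g, h, ?_, hh, hh0, by rw [smul_mul_assoc, hgh], ?_⟩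
  · rw [algHom_smul_series]; exact hg.smul c.2
  · rw [algHom_smul_series (B.e i), redSeries_smul c.2 hg, Algebra.smul_def, map_mul, mul_assoc,
      hp, AlgHom.commutes, ModularCurve.algebraMap_laurentSeries_eq_single, ← HahnSeries.C_apply,
      HahnSeries.C_mul_eq_smul]

variable (B)

variable {B}

/-- Conjugation of reductions. -/
theorem HasRed.sym (hx : B.HasRed i x p) (s : B.Sym) : B.HasRed i (s.σ • x) (s.σk • p) := by
  obtain ⟨g, h, hg, hh, hh0, hgh, hp⟩ := hx
  refine ⟨s.σ • g, s.σ • h, ?_, ?_, ?_, by rw [← smul_mul', hgh], ?_⟩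
  · rw [B.e_conj]; exact (B.redSeries_conj s hg).1
  · rw [B.e_conj]; exact (B.redSeries_conj s hh).1
  · rw [B.e_conj, (B.redSeries_conj s hh).2]
    intro h0
    apply hh0
    ext j
    exact (map_eq_zero (SemilinearAut.baseAut s.σk).toRingHom).mp
      (congrArg (fun z : LaurentSeries k => z.coeff j) h0)
  · rw [B.e_conj, B.e_conj, (B.redSeries_conj s hh).2, (B.redSeries_conj s hg).2, B.exk_smul,
      ← map_mul, hp]

variable (B)

/-- The Kummer function of `g • x - x`. -/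
theorem mk_smul_sub (g : SemilinearAut K F) {D : Divisor.degZero (K := K) (F := F)} {f : F}
    (hf : f ≠ 0) (hD : ∀ P : Place K F, (n : ℤ) * (D : Divisor K F) P = P.ord f) :
    ∃ D' : Divisor.degZero (K := K) (F := F), Pic0.mk D' = g • Pic0.mk D - Pic0.mk D ∧
      ∀ P : Place K F, (n : ℤ) * (D' : Divisor K F) P = P.ord ((g • f) * f⁻¹) := by
  refine ⟨SemilinearAut.degZeroSMulHom g D - D, rfl, fun P => ?_⟩
  have hgf : g • f ≠ 0 := (smul_ne_zero_iff_ne g).mpr hf
  rw [AddSubgroupClass.coe_sub, Finsupp.sub_apply, SemilinearAut.coe_degZeroSMulHom,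
    SemilinearAut.divisor_smul_apply, mul_sub, hD, hD, P.ord_mul hgf (inv_ne_zero hf), P.ord_inv]
  have h := SemilinearAut.ord_smul g (g⁻¹ • P) f
  rw [smul_inv_smul] at h
  omega

/-- The quotient of two scaled functions. -/
theorem smul_mul_inv_smul (c d : K) (u v : F) :
    (c • u) * (d • v)⁻¹ = (c / d) • (u * v⁻¹) := by
  simp only [Algebra.smul_def, mul_inv, div_eq_mul_inv, map_mul, map_inv₀]
  ring

theorem semilinear_smul_smul (g : SemilinearAut K F) (c : K) (u : F) :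
    g • (c • u) = SemilinearAut.baseAut g c • (g • u) := by
  rw [Algebra.smul_def, smul_mul', SemilinearAut.smul_algebraMap, Algebra.smul_def]

/-- Twisting by the involution exchanges the norms along `a` and along `w ∘ a`. -/
theorem normA_w (f : F) :
    B.normA (B.w f) = (letI := algebraAlong (B.w.comp B.a); Algebra.norm F' f) := by
  let e : F ≃+* F :=
    { toFun := B.w, invFun := B.w, left_inv := B.w_w, right_inv := B.w_w,
      map_mul' := map_mul B.w, map_add' := map_add B.w }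
  exact (@Algebra.norm_eq_of_equiv_equiv F' F F' F _ _ _ _ (algebraAlong (B.w.comp B.a))
    (algebraAlong B.a) (RingEquiv.refl F') e (RingHom.ext fun b => (B.w_w (B.a b)).symm) f).symm

/-- The two sides are exchanged by the involution. -/
theorem hasRed_w_iff {i j : Fin 2} (hij : i ≠ j) {x : F} {p : Fk} (hx : B.HasRed i x p) :
    B.HasRed j (B.w x) p := by
  obtain ⟨g, h, hg, hh, hh0, hgh, hp⟩ := hx
  have he : ∀ y : F, B.e j (B.w y) = B.e i y := fun y => by
    fin_cases i <;> fin_cases j <;> first | exact absurd rfl hij | skip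
    · show B.ex (B.w (B.w y)) = B.ex y
      rw [B.w_w]
    · rfl
  exact ⟨B.w g, B.w h, by rwa [he], by rwa [he], by rwa [he], by rw [← map_mul, hgh], by rwa [he, he]⟩

include B in
/-- An element of the level `N'` field can be scaled to have a non-zero reduction. -/
theorem exists_smul_red_ne_zero {h : F'} (hh : h ≠ 0) :
    ∃ (d : K) (H : B.R.O), d ≠ 0 ∧ (H : F') = d • h ∧ B.R.red H ≠ 0 := by
  obtain ⟨m, b, hspan, hli⟩ := B.R.lattice (Submodule.span K {h}) inferInstance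
  rcases m with _ | m
  · exfalso
    have hmem : h ∈ Submodule.span K ({h} : Set F') := Submodule.mem_span_singleton_self h
    rw [← hspan, Set.range_eq_empty, Submodule.span_empty] at hmem
    exact hh hmem
  have hb : (b 0 : F') ∈ Submodule.span K ({h} : Set F') :=
    hspan ▸ Submodule.subset_span ⟨0, rfl⟩
  obtain ⟨d, hd⟩ := Submodule.mem_span_singleton.mp hb
  refine ⟨d, b 0, fun h0 => hli.ne_zero 0 ?_, hd.symm, hli.ne_zero 0⟩
  rw [show b 0 = 0 from Subtype.ext (by rw [← hd, h0, zero_smul]; rfl), map_zero]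

end HasRedCalculus

section Norm

omit [IsAlgClosed k] [CharZero K] [Fact q.Prime] [CharP k q]

include B in
/-- Functions without zeros and poles are constant. -/
theorem exists_eq_algebraMap {u : F'} (h : ∀ v : Place K F', v.ord u = 0) :
    ∃ c : K, u = algebraMap K F' c := by
  haveI := B.rr'.finiteDimensional 0
  have hmem : ∀ m : ℕ, u ^ m ∈ riemannRochSpace (0 : Divisor K F') := fun m => by
    rw [mem_riemannRochSpace_iff]
    exact fun v => Or.inr (by rw [FLTA.Curves.ord_pow, h v, mul_zero]; simp)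
  have halg : IsAlgebraic K u := by
    by_contra htr
    have hrange : ∀ P : Polynomial K,
        Polynomial.aeval u P ∈ riemannRochSpace (0 : Divisor K F') := fun P => by
      rw [Polynomial.aeval_eq_sum_range]
      exact Submodule.sum_mem _ fun m _ => Submodule.smul_mem _ _ (hmem m)
    haveI : Module.Finite K (Polynomial K) := Module.Finite.of_injective
      ((Polynomial.aeval u).toLinearMap.codRestrict _ hrange)
      (fun x y hxy => transcendental_iff_injective.mp htr (congrArg Subtype.val hxy))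
    exact Polynomial.not_finite (R := K) inferInstance
  obtain ⟨c, hc⟩ := minpoly.mem_range_of_degree_eq_one K u
    (IsAlgClosed.degree_eq_one_of_irreducible K (minpoly.irreducible halg.isIntegral))
  exact ⟨c, hc.symm⟩

include B in
/-- A principal pushforward makes the norm a constant times an `n`-th power. -/
theorem norm_eq_pow (φ : F' →ₐ[K] F) (hfin : FiniteAlong K φ) (hint : φ.toRingHom.IsIntegral)
    (hN : NormFormulaAlong K φ hfin) {D : Divisor K F} {f : F} (hf : f ≠ 0)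
    (hD : ∀ P : Place K F, (n • D) P = P.ord f)
    (h₀ : AlgebraicCurve.Divisor.pushforwardAlong φ hint D ∈
      Divisor.principal (K := K) (F := F')) :
    ∃ (c : K) (h : F'), (letI := algebraAlong φ; Algebra.norm F' f) = c • h ^ n := by
  letI := algebraAlong φ
  haveI := isScalarTower_along φ
  haveI := isIntegral_along φ hint
  haveI : Module.Finite F' F := hfin
  obtain ⟨g, hg, hgD⟩ := h₀
  have hNf : Algebra.norm F' f ≠ 0 := Algebra.norm_ne_zero_iff.mpr hf
  have key : ∀ v : Place K F', v.ord (Algebra.norm F' f * (g ^ n)⁻¹) = 0 := fun v => by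
    rw [v.ord_mul hNf (inv_ne_zero (pow_ne_zero _ hg)), v.ord_inv, FLTA.Curves.ord_pow,
      ← hN f hf (n • D) hD v, map_nsmul, Finsupp.smul_apply, nsmul_eq_mul,
      show AlgebraicCurve.Divisor.pushforward F' D = AlgebraicCurve.Divisor.pushforwardAlong φ hint D
        from rfl, hgD v]
    omega
  obtain ⟨c, hc⟩ := B.exists_eq_algebraMap key
  exact ⟨c, g, by rw [Algebra.smul_def, ← hc, inv_mul_cancel_right₀ (pow_ne_zero _ hg)]⟩

end Norm

/-- The relation between the two reductions given by a trivial norm. -/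
theorem norm_relation {f : F} {cN : K} {h : F'} (hN : B.normA f = cN • h ^ n) {c₀ c₁ : K}
    {p₀ p₁ : Fk} (h₀ : B.HasRed 0 (c₀ • f) p₀) (h₁ : B.HasRed 1 (c₁ • f) p₁)
    (hne₀ : p₀ ≠ 0) (hne₁ : p₁ ≠ 0) :
    ∃ (μ : k) (η : Fk), μ ≠ 0 ∧ η ≠ 0 ∧
      p₀ * (B.frobq • p₁) = algebraMap k Fk μ * η ^ n := by
  obtain ⟨hx, hred⟩ := B.hasRed_normA h₀ h₁ hne₀ hne₁
  have hprod : p₀ * (B.frobq • p₁) ≠ 0 :=
    mul_ne_zero hne₀ ((smul_ne_zero_iff_ne _).mpr hne₁)
  have hπ := B.R.π_surjective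
  obtain ⟨d, H, hd0, hH, hH0⟩ : ∃ (d : K) (H : B.R.O),
      d ≠ 0 ∧ (H : F') ^ n = d • h ^ n ∧ B.R.red H ≠ 0 := by
    rcases Nat.eq_zero_or_pos n with rfl | hn
    · exact ⟨1, 1, one_ne_zero, by simp, by simp⟩
    · have hh : h ≠ 0 := fun h0 => by
        apply hprod
        have hz : (⟨(c₀ * c₁ ^ q) • B.normA f, hx⟩ : B.R.O) = 0 :=
          Subtype.ext (show (c₀ * c₁ ^ q) • B.normA f = 0 by
            rw [hN, h0, zero_pow hn.ne', smul_zero, smul_zero])
        rw [← hred, hz, map_zero]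
      obtain ⟨d, H, hd0, hH, hH0⟩ := B.exists_smul_red_ne_zero hh
      exact ⟨d ^ n, H, pow_ne_zero _ hd0, by rw [hH, smul_pow], hH0⟩
  set t := c₀ * c₁ ^ q * cN / d with ht_def
  have hxt : (c₀ * c₁ ^ q) • B.normA f = t • (H : F') ^ n := by
    rw [hN, hH, smul_smul, smul_smul, ht_def, div_mul_cancel₀ _ hd0]
  have ht : t ∈ A := by
    by_contra ht
    have htinv : t⁻¹ ∈ A := (A.mem_or_inv_mem t).resolve_left ht
    have ht0 : t ≠ 0 := fun h0 => ht (h0 ▸ A.zero_mem)
    have hz : π ⟨t⁻¹, htinv⟩ = 0 := by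
      by_contra hne
      exact hne (residue_eq_zero_of_inv_notMem hπ htinv (by rwa [inv_inv]))
    apply pow_ne_zero n hH0
    have e : H ^ n = ⟨algebraMap K F' ((⟨t⁻¹, htinv⟩ : A) : K), B.R.algebraMap_mem _⟩ *
        (⟨(c₀ * c₁ ^ q) • B.normA f, hx⟩ : B.R.O) := Subtype.ext (by
      show (H : F') ^ n = algebraMap K F' t⁻¹ * ((c₀ * c₁ ^ q) • B.normA f)
      rw [hxt, ← Algebra.smul_def, inv_smul_smul₀ ht0])
    rw [← map_pow, e, map_mul, B.R.red_algebraMap, hz, map_zero, zero_mul]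
  have e : (⟨(c₀ * c₁ ^ q) • B.normA f, hx⟩ : B.R.O) =
      ⟨algebraMap K F' ((⟨t, ht⟩ : A) : K), B.R.algebraMap_mem _⟩ * H ^ n := Subtype.ext (by
    show (c₀ * c₁ ^ q) • B.normA f = algebraMap K F' t * (H : F') ^ n
    rw [hxt, Algebra.smul_def])
  rw [e, map_mul, B.R.red_algebraMap, map_pow] at hred
  exact ⟨π ⟨t, ht⟩, B.R.red H,
    fun h0 => hprod (by rw [← hred, h0, map_zero, zero_mul]), hH0, hred.symm⟩

theorem isToric_inertia_smul_sub (s : B.Sym) (hs : s.IsInertia) {x : Pic0 K F}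
    (hx : n • x = 0) : B.IsToric n (s.σ • x - x) := by
  obtain ⟨D, rfl⟩ := Pic0.mk_surjective x
  have hnD : n • D ∈ (Divisor.principal (K := K) (F := F)).addSubgroupOf _ :=
    (QuotientAddGroup.eq_zero_iff _).mp hx
  obtain ⟨f, hf, hfD⟩ := hnD
  have hD : ∀ P : Place K F, (n : ℤ) * (D : Divisor K F) P = P.ord f := fun P => by
    have h := hfD P
    rwa [AddSubgroup.coe_subtype, AddSubgroupClass.coe_nsmul, Finsupp.smul_apply,
      nsmul_eq_mul] at h
  obtain ⟨D', hD', hD''⟩ := mk_smul_sub s.σ hf hD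
  refine ⟨D', _, mul_ne_zero ((smul_ne_zero_iff_ne s.σ).mpr hf) (inv_ne_zero hf), hD', hD'',
    fun i => ?_⟩
  obtain ⟨c, p, hc, hp0, hp⟩ := B.exists_hasRed_smul i hf
  have h := (hp.sym s).mul (hp.inv hp0)
  rw [B.inertia_smul_fk s hs, mul_inv_cancel₀ hp0, semilinear_smul_smul, smul_mul_inv_smul] at h
  exact ⟨_, 1, div_ne_zero ((map_ne_zero _).mpr hc) hc, one_ne_zero, by rw [one_pow]; exact h⟩

theorem isToric_frob_sq_smul_sub (s : B.Sym) (hs : s.IsFrob) {x : Pic0 K F}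
    (hx : B.NormsTrivial n x) : B.IsToric n (s.σ • s.σ • x - x) := by
  obtain ⟨D, f, hf, rfl, hD, ⟨cN, h, hN⟩, ⟨cN', h', hN'⟩⟩ := hx
  rw [← mul_smul]
  obtain ⟨D', hD', hD''⟩ := mk_smul_sub (s.σ * s.σ) hf hD
  rw [mul_smul s.σ s.σ f] at hD''
  have hsf : s.σ • s.σ • f ≠ 0 :=
    (smul_ne_zero_iff_ne s.σ).mpr ((smul_ne_zero_iff_ne s.σ).mpr hf)
  refine ⟨D', _, mul_ne_zero hsf (inv_ne_zero hf), hD', hD'', ?_⟩
  obtain ⟨c₀, p₀, hc₀, hp₀, h₀⟩ := B.exists_hasRed_smul 0 hf
  obtain ⟨c₁, p₁, hc₁, hp₁, h₁⟩ := B.exists_hasRed_smul 1 hf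
  have h₁w : B.HasRed 0 (c₁ • B.w f) p₁ := by
    rw [← map_smul]; exact B.hasRed_w_iff (by decide) h₁
  have h₀w : B.HasRed 1 (c₀ • B.w f) p₀ := by
    rw [← map_smul]; exact B.hasRed_w_iff (by decide) h₀
  obtain ⟨μ, η, hμ, hη, e0⟩ := B.norm_relation hN h₀ h₁ hp₀ hp₁
  obtain ⟨μ', η', hμ', hη', e1⟩ := B.norm_relation hN' h₁w h₀w hp₁ hp₀
  have key : ∀ (x y : Fk) (a b : k) (u v : Fk), a ≠ 0 → b ≠ 0 → u ≠ 0 → v ≠ 0 → x ≠ 0 →
      x * (B.frobq • y) = algebraMap k Fk a * u ^ n →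
      y * (B.frobq • x) = algebraMap k Fk b * v ^ n →
      ∃ (μ : k) (η : Fk), μ ≠ 0 ∧ η ≠ 0 ∧
        B.frobq • B.frobq • x = algebraMap k Fk μ * η ^ n * x := by
    intro x y a b u v ha hb hu hv hx hxy hyx
    refine ⟨b ^ q / a, (B.frobq • v) / u, div_ne_zero (pow_ne_zero _ hb) ha,
      div_ne_zero ((smul_ne_zero_iff_ne _).mpr hv) hu, ?_⟩
    have h2 := congrArg (B.frobq • ·) hyx
    simp only [smul_mul', smul_pow', SemilinearAut.smul_algebraMap, B.baseAut_frobq] at h2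
    have hy : B.frobq • y = algebraMap k Fk a * u ^ n / x := by
      rw [eq_div_iff hx, mul_comm, hxy]
    rw [hy] at h2
    have ha' : algebraMap k Fk a ≠ 0 := (map_ne_zero _).mpr ha
    rw [map_div₀, div_pow]
    field_simp at h2 ⊢
    linear_combination h2
  have hex : ∀ i, ∃ (c : K) (p : Fk) (μ : k) (η : Fk), c ≠ 0 ∧ p ≠ 0 ∧ μ ≠ 0 ∧ η ≠ 0 ∧
      B.HasRed i (c • f) p ∧ B.frobq • B.frobq • p = algebraMap k Fk μ * η ^ n * p := fun i => by
    fin_cases i
    · obtain ⟨a, b, ha, hb, e⟩ := key _ _ _ _ _ _ hμ hμ' hη hη' hp₀ e0 e1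
      exact ⟨c₀, p₀, a, b, hc₀, hp₀, ha, hb, h₀, e⟩
    · obtain ⟨a, b, ha, hb, e⟩ := key _ _ _ _ _ _ hμ' hμ hη' hη hp₁ e1 e0
      exact ⟨c₁, p₁, a, b, hc₁, hp₁, ha, hb, h₁, e⟩
  intro i
  obtain ⟨c, p, a, b, hc, hp0, ha, hb, hp, e⟩ := hex i
  have hr := ((hp.sym s).sym s).mul (hp.inv hp0)
  rw [B.frob_smul_fk s hs, B.frob_smul_fk s hs, e, mul_inv_cancel_right₀ hp0,
    semilinear_smul_smul, semilinear_smul_smul, smul_mul_inv_smul] at hr
  obtain ⟨m, hm⟩ := B.R.π_surjective a⁻¹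
  have hr' := hr.smul m
  rw [hm, smul_smul, Algebra.smul_def a⁻¹, ← mul_assoc, ← map_mul, inv_mul_cancel₀ ha,
    map_one, one_mul] at hr'
  refine ⟨_, b, mul_ne_zero ?_ (div_ne_zero ((map_ne_zero _).mpr ((map_ne_zero _).mpr hc)) hc),
    hb, hr'⟩
  intro hm0
  rw [show m = 0 from Subtype.ext hm0, map_zero] at hm
  exact inv_ne_zero ha hm.symm

/-- Classes killed by both pushforwards satisfy `NormsTrivial`. -/
theorem normsTrivial_of_pushforward [HasPrincipalDivisors K F] [HasPrincipalDivisors K F']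
    (hint : B.a.toRingHom.IsIntegral) (hint' : (B.w.comp B.a).toRingHom.IsIntegral)
    (hfin' : FiniteAlong K (B.w.comp B.a))
    (hN : NormFormulaAlong K B.a B.finite_a) (hN' : NormFormulaAlong K (B.w.comp B.a) hfin')
    {D : Divisor.degZero (K := K) (F := F)} (hx : n • Pic0.mk D = 0)
    (h₀ : AlgebraicCurve.Divisor.pushforwardAlong B.a hint (D : Divisor K F) ∈ Divisor.principal (K := K) (F := F'))
    (h₁ : AlgebraicCurve.Divisor.pushforwardAlong (B.w.comp B.a) hint' (D : Divisor K F) ∈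
      Divisor.principal (K := K) (F := F')) :
    B.NormsTrivial n (Pic0.mk D) := by
  have hnD : n • D ∈ (Divisor.principal (K := K) (F := F)).addSubgroupOf _ :=
    (QuotientAddGroup.eq_zero_iff _).mp hx
  obtain ⟨f, hf, hfD⟩ := hnD
  have hD : ∀ P : Place K F, ((n • (D : Divisor K F) : Divisor K F)) P = P.ord f := fun P => by
    have h := hfD P
    rwa [AddSubgroup.coe_subtype, AddSubgroupClass.coe_nsmul] at h
  refine ⟨D, f, hf, rfl, fun P => ?_, ?_, ?_⟩
  · rw [← hD P, Finsupp.smul_apply, nsmul_eq_mul]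
  · exact B.norm_eq_pow B.a B.finite_a hint hN hf hD h₀
  · obtain ⟨c, h, hh⟩ := B.norm_eq_pow (B.w.comp B.a) hfin' hint' hN' hf hD h₁
    exact ⟨c, h, by rw [← hh, B.normA_w]⟩

/-- Inertia acts unipotently on torsion prime to the residue characteristic. -/
theorem inertia_unipotent (hn : (n : k) ≠ 0) (s t : B.Sym) (hs : s.IsInertia) (ht : t.IsInertia)
    {x : Pic0 K F} (hx : n • x = 0) : t.σ • (s.σ • x - x) = s.σ • x - x :=
  B.inertia_smul_of_isToric hn t ht (B.isToric_inertia_smul_sub s hs hx)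

/-- On classes killed by both pushforwards, `(φ² - q²)(φ² - 1) = 0`. -/
theorem frob_quartic (hn : (n : k) ≠ 0) (s : B.Sym) (hs : s.IsFrob) {x : Pic0 K F}
    (hx : B.NormsTrivial n x) :
    s.σ • s.σ • (s.σ • s.σ • x - x) = (q ^ 2) • (s.σ • s.σ • x - x) :=
  B.frob_sq_smul_of_isToric hn s hs (B.isToric_frob_sq_smul_sub s hs hx)

end FLTA.BadRed.BadFibre

end
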