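/-
Gauss scaling of Laurent series with algebraic coefficients: rank one, number fields of
coefficients, fraction form, and boundedness of integral elements.
-/
import Fermat.Agent.BadRed.Setup
import Fermat.Agent.BadRed.IntSeries
import Fermat.Agent.Curves.BasicModular

set_option autoImplicit false

noncomputable section

open ModularCurve

namespace FLTA.BadRed.Series

variable {K : Type*} [Field K] {A : ValuationSubring K}

section Ring

variable (A)

/-- The integral series form a subring. -/
def intSubring : Subring (LaurentSeries K) := (coeffMap A.subtype).range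

variable {A}

theorem mem_intSubring {y : LaurentSeries K} : y ∈ intSubring A ↔ IntSeries A y := by
  constructor
  · rintro ⟨z, rfl⟩ i
    exact (z.coeff i).2
  · intro h
    refine ⟨⟨fun i => ⟨y.coeff i, h i⟩, y.isPWO_support'.mono fun i hi h0 => hi (Subtype.ext h0)⟩, ?_⟩
    ext i
    rfl

theorem intSeries_algebraMap {c : K} (hc : c ∈ A) :
    IntSeries A (algebraMap K (LaurentSeries K) c) := fun i => by
  rw [algebraMap_laurentSeries_eq_single, HahnSeries.coeff_single]
  split_ifs
  exacts [hc, A.zero_mem]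

theorem smul_eq_algebraMap_mul (c : K) (y : LaurentSeries K) :
    c • y = algebraMap K (LaurentSeries K) c * y := by
  rw [algebraMap_laurentSeries_eq_single, ← HahnSeries.C_apply, HahnSeries.C_mul_eq_smul]

end Ring

section RankOne

variable (A)

/-- The value group has rank one (complete integral closedness). -/
def RankOne : Prop := ∀ r c : K, r ≠ 0 → (∀ m : ℕ, r * c ^ m ∈ A) → c ∈ A

variable {A}

/-- A series almost integral over the integral series is integral. -/
theorem intSeries_of_almost_integral (hA : RankOne A) {r y : LaurentSeries K} (hr : r ≠ 0)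
    (h : ∀ m : ℕ, IntSeries A (r * y ^ m)) : IntSeries A y := by
  classical
  by_contra hne
  set bad : Set ℤ := {i | y.coeff i ∉ A} with hbad
  have hsub : bad ⊆ y.support := fun i hi h0 => hi (by rw [h0]; exact A.zero_mem)
  have hnem : bad.Nonempty := by
    obtain ⟨i, hi⟩ := not_forall.mp hne
    exact ⟨i, hi⟩
  have hwf : bad.IsWF := (y.isPWO_support.mono hsub).isWF
  set d := hwf.min hnem with hd
  have hdbad : y.coeff d ∉ A := hwf.min_mem hnem
  have hlt : ∀ i < d, y.coeff i ∈ A := fun i hi => by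
    by_contra hmem
    exact hwf.not_lt_min hnem hmem hi
  let y0 : LaurentSeries K :=
    ⟨fun i => if i < d then y.coeff i else 0, y.isPWO_support.mono fun i hi => by
      simp only [Function.mem_support, ne_eq, ite_eq_right_iff, not_forall] at hi
      exact hi.2⟩
  have hy0 : IntSeries A y0 := fun i => by
    show (if i < d then y.coeff i else 0) ∈ A
    split_ifs with hi
    exacts [hlt i hi, A.zero_mem]
  set z := y - y0 with hz
  have hzcoeff : ∀ i, z.coeff i = if i < d then 0 else y.coeff i := fun i => by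
    rw [hz, HahnSeries.coeff_sub]
    show y.coeff i - (if i < d then y.coeff i else 0) = _
    split_ifs <;> simp
  have hzd : z.coeff d = y.coeff d := by rw [hzcoeff, if_neg (lt_irrefl d)]
  have hz0 : z ≠ 0 := fun h0 => by
    have := hzd
    rw [h0, HahnSeries.coeff_zero] at this
    exact hdbad (this ▸ A.zero_mem)
  have hord : z.order = d := by
    refine le_antisymm ?_ ?_
    · refine HahnSeries.order_le_of_coeff_ne_zero ?_
      rw [hzd]
      exact fun h0 => hdbad (h0 ▸ A.zero_mem)
    · by_contra hlt'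
      push Not at hlt'
      have := HahnSeries.coeff_order_eq_zero.not.mpr hz0
      rw [hzcoeff, if_pos hlt'] at this
      exact this rfl
  have hlead : z.leadingCoeff = y.coeff d := by
    rw [HahnSeries.leadingCoeff_eq, hord, hzd]
  have hrz : ∀ m : ℕ, IntSeries A (r * z ^ m) := fun m => by
    rw [hz, sub_eq_add_neg, add_pow, Finset.mul_sum]
    refine IntSeries.sum _ _ fun i _ => ?_
    rw [show r * (y ^ i * (-y0) ^ (m - i) * (m.choose i : LaurentSeries K)) =
      (r * y ^ i) * ((-y0) ^ (m - i) * (m.choose i : LaurentSeries K)) by ring]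
    exact IntSeries.mul (h i) (IntSeries.mul (IntSeries.pow (IntSeries.neg hy0) _)
      (mem_intSubring.mp (natCast_mem _ _)))
  refine hdbad (hA r.leadingCoeff (y.coeff d) (HahnSeries.leadingCoeff_ne_zero.mpr hr) fun m => ?_)
  have key : (r * z ^ m).leadingCoeff = r.leadingCoeff * y.coeff d ^ m := by
    induction m with
    | zero => simp
    | succ m ih => rw [pow_succ, ← mul_assoc, HahnSeries.leadingCoeff_mul, ih, hlead, pow_succ,
        mul_assoc]
  rw [← key, HahnSeries.leadingCoeff_eq]
  exact hrz m _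

/-- A series integral over the integral series and with an integral multiple is integral. -/
theorem intSeries_of_monic (hA : RankOne A) {y h : LaurentSeries K} (hh : h ≠ 0)
    (hint : IntSeries A h) (hhy : IntSeries A (h * y)) (p : Polynomial (LaurentSeries K))
    (hp : p.Monic) (hpc : ∀ i, IntSeries A (p.coeff i)) (hpy : p.eval y = 0) :
    IntSeries A y := by
  set n := p.natDegree with hn
  refine intSeries_of_almost_integral hA (pow_ne_zero n hh) fun m => ?_
  induction m using Nat.strong_induction_on with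
  | _ m ih =>
    rcases le_or_gt m n with hm | hm
    · rw [show h ^ n * y ^ m = h ^ (n - m) * (h * y) ^ m by
        rw [mul_pow, ← mul_assoc, ← pow_add, Nat.sub_add_cancel hm]]
      exact IntSeries.mul (IntSeries.pow hint _) (IntSeries.pow hhy _)
    · have he : y ^ n = -∑ i ∈ Finset.range n, p.coeff i * y ^ i := by
        rw [Polynomial.eval_eq_sum_range, Finset.sum_range_succ, hp.coeff_natDegree, one_mul] at hpy
        exact eq_neg_of_add_eq_zero_right hpy
      have : h ^ n * y ^ m = -∑ i ∈ Finset.range n, p.coeff i * (h ^ n * y ^ (m - n + i)) := by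
        conv_lhs => rw [show m = (m - n) + n from (Nat.sub_add_cancel hm.le).symm, pow_add, he]
        rw [mul_neg, mul_neg, Finset.mul_sum, Finset.mul_sum]
        refine congrArg _ (Finset.sum_congr rfl fun i _ => ?_)
        rw [pow_add]
        ring
      rw [this]
      refine IntSeries.neg (IntSeries.sum _ _ fun i hi => IntSeries.mul (hpc i) (ih _ ?_))
      have := Finset.mem_range.mp hi
      omega

end RankOne

section Algebraic

variable [CharZero K] {q : ℕ}

theorem valuation_intCast_eq_one (hq : q.Prime) (hA : (q : K) ∈ A.nonunits) {b : ℤ}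
    (hb : ¬ (q : ℤ) ∣ b) : A.valuation (b : K) = 1 := by
  have hle : ∀ c : ℤ, A.valuation (c : K) ≤ 1 := fun c =>
    (A.valuation_le_one_iff _).mpr (intCast_mem A c)
  refine le_antisymm (hle b) ?_
  by_contra hlt
  push Not at hlt
  obtain ⟨u, v, huv⟩ :=
    (Int.prime_iff_natAbs_prime.mpr (by simpa using hq)).coprime_iff_not_dvd.mpr hb
  have h1 : (1 : K) = (u : K) * (q : K) + (v : K) * (b : K) := by
    exact_mod_cast huv.symm
  have h2 : A.valuation ((u : K) * (q : K) + (v : K) * (b : K)) < 1 := by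
    refine A.valuation.map_add_lt ?_ ?_ <;> rw [map_mul]
    · exact lt_of_le_of_lt (mul_le_of_le_one_left' (hle u)) hA
    · exact lt_of_le_of_lt (mul_le_of_le_one_left' (hle v)) hlt
  rw [← h1, map_one] at h2
  exact lt_irrefl _ h2

theorem exists_valuation_intCast (hq : q.Prime) (hA : (q : K) ∈ A.nonunits) {b : ℤ} (hb : b ≠ 0) :
    ∃ e : ℕ, A.valuation (b : K) = A.valuation (q : K) ^ e := by
  induction hn : b.natAbs using Nat.strong_induction_on generalizing b with
  | _ n IH =>
    by_cases hd : (q : ℤ) ∣ b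
    · obtain ⟨c, rfl⟩ := hd
      have hc : c ≠ 0 := right_ne_zero_of_mul hb
      obtain ⟨e, he⟩ := IH c.natAbs (by
        rw [← hn, Int.natAbs_mul, Int.natAbs_natCast]
        exact lt_mul_left (Int.natAbs_pos.mpr hc) hq.one_lt) hc rfl
      exact ⟨e + 1, by push_cast; rw [map_mul, he, pow_succ']⟩
    · exact ⟨0, by rw [valuation_intCast_eq_one hq hA hd, pow_zero]⟩

theorem exists_valuation_ratCast (hq : q.Prime) (hA : (q : K) ∈ A.nonunits) {a : ℚ} (ha : a ≠ 0) :
    ∃ e : ℤ, A.valuation (a : K) = A.valuation (q : K) ^ e := by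
  obtain ⟨e₁, h₁⟩ := exists_valuation_intCast (A := A) hq hA (Rat.num_ne_zero.mpr ha)
  obtain ⟨e₂, h₂⟩ := exists_valuation_intCast (A := A) hq hA (b := (a.den : ℤ))
    (by exact_mod_cast a.den_ne_zero)
  refine ⟨(e₁ : ℤ) - e₂, ?_⟩
  rw [Rat.cast_def, map_div₀, h₁]
  push_cast at h₂
  rw [h₂, zpow_sub₀ ((map_ne_zero _).mpr (Nat.cast_ne_zero.mpr hq.ne_zero)), zpow_natCast,
    zpow_natCast]

variable [Algebra ℚ K]

/-- The value of a nonzero element algebraic of degree at most `n` is, up to the exponent `n!`,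
a power of the value of `q`. -/
theorem exists_valuation_pow_eq (hq : q.Prime) (hA : (q : K) ∈ A.nonunits) {x : K} (hx : x ≠ 0)
    (p : Polynomial ℚ) (hp : p ≠ 0) (hpx : Polynomial.aeval x p = 0) {n : ℕ}
    (hn : p.natDegree ≤ n) :
    ∃ e : ℤ, A.valuation x ^ n.factorial = A.valuation (q : K) ^ e := by
  classical
  have hq0 : A.valuation (q : K) ≠ 0 := (map_ne_zero _).mpr (Nat.cast_ne_zero.mpr hq.ne_zero)
  let f : ℕ → K := fun i => (p.coeff i : K) * x ^ i
  have hsum : ∑ i ∈ p.support, f i = 0 := by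
    rw [Polynomial.aeval_def, Polynomial.eval₂_eq_sum, Polynomial.sum_def] at hpx
    rw [← hpx]
    refine Finset.sum_congr rfl fun i _ => ?_
    rw [eq_ratCast]
  obtain ⟨i, hi, hmax⟩ := Finset.exists_max_image p.support (fun i => A.valuation (f i))
    (Polynomial.support_nonempty.mpr hp)
  have hfi : f i ≠ 0 := mul_ne_zero (Rat.cast_ne_zero.mpr (Polynomial.mem_support_iff.mp hi))
    (pow_ne_zero _ hx)
  obtain ⟨j, hj, hji, hjv⟩ : ∃ j ∈ p.support, j ≠ i ∧ A.valuation (f j) = A.valuation (f i) := by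
    by_contra hall
    push Not at hall
    have hlt : ∀ j ∈ p.support.erase i, A.valuation (f j) < A.valuation (f i) := fun j hj =>
      lt_of_le_of_ne (hmax j (Finset.mem_of_mem_erase hj))
        (hall j (Finset.mem_of_mem_erase hj) (Finset.ne_of_mem_erase hj))
    have h1 := A.valuation.map_sum_lt ((map_ne_zero _).mpr hfi) hlt
    rw [← Finset.add_sum_erase _ _ hi, add_eq_zero_iff_eq_neg] at hsum
    rw [← A.valuation.map_neg, ← hsum] at h1
    exact lt_irrefl _ h1
  obtain ⟨a, ha⟩ := exists_valuation_ratCast (A := A) hq hA (Polynomial.mem_support_iff.mp hi)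
  obtain ⟨b, hb⟩ := exists_valuation_ratCast (A := A) hq hA (Polynomial.mem_support_iff.mp hj)
  simp only [f, map_mul, map_pow, ha, hb] at hjv
  have hd : (j : ℤ) - i ≠ 0 := sub_ne_zero.mpr (by exact_mod_cast hji)
  have hvx : A.valuation x ≠ 0 := (map_ne_zero _).mpr hx
  have key : A.valuation x ^ ((j : ℤ) - i) = A.valuation (q : K) ^ (a - b) := by
    rw [zpow_sub₀ hvx, zpow_sub₀ hq0, zpow_natCast, zpow_natCast, div_eq_div_iff
      (pow_ne_zero _ hvx) (zpow_ne_zero _ hq0), mul_comm, hjv]
  have hdvd : ((j : ℤ) - i) ∣ (n.factorial : ℤ) := by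
    have hle : ((j : ℤ) - i).natAbs ≤ n := by
      have h1 := (Polynomial.le_natDegree_of_mem_supp i hi).trans hn
      have h2 := (Polynomial.le_natDegree_of_mem_supp j hj).trans hn
      omega
    exact Int.natAbs_dvd.mp
      (Int.natCast_dvd_natCast.mpr (Nat.dvd_factorial (Int.natAbs_pos.mpr hd) hle))
  obtain ⟨c, hc⟩ := hdvd
  exact ⟨(a - b) * c, by rw [← zpow_natCast, hc, zpow_mul, key, ← zpow_mul]⟩

/-- The valuation ring has rank one when all elements are algebraic. -/
theorem rankOne_of_isAlgebraic [Algebra.IsAlgebraic ℚ K] (hq : q.Prime)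
    (hA : (q : K) ∈ A.nonunits) : RankOne A := by
  intro r c hr hc
  by_contra hcA
  have hvc : 1 < A.valuation c := by
    by_contra h
    exact hcA ((A.valuation_le_one_iff c).mp (not_lt.mp h))
  have hvq : A.valuation (q : K) < 1 := hA
  have hq0 : A.valuation (q : K) ≠ 0 := (map_ne_zero _).mpr (Nat.cast_ne_zero.mpr hq.ne_zero)
  have hc0 : c ≠ 0 := fun h => hcA (h ▸ A.zero_mem)
  obtain ⟨pc, hpc, hpc0⟩ := Algebra.IsAlgebraic.isAlgebraic (R := ℚ) c
  obtain ⟨pr, hpr, hpr0⟩ := Algebra.IsAlgebraic.isAlgebraic (R := ℚ) r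
  obtain ⟨a, ha⟩ := exists_valuation_pow_eq (A := A) hq hA hc0 pc hpc hpc0
    (n := max pc.natDegree pr.natDegree) (le_max_left _ _)
  obtain ⟨b, hb⟩ := exists_valuation_pow_eq (A := A) hq hA hr pr hpr hpr0
    (n := max pc.natDegree pr.natDegree) (le_max_right _ _)
  set D := (max pc.natDegree pr.natDegree).factorial
  have hpos : 0 < A.valuation (q : K) := zero_lt_iff.mpr hq0
  have ha_neg : a < 0 := by
    by_contra hnn
    push Not at hnn
    have h1 : 1 < A.valuation c ^ D := one_lt_pow₀ hvc (Nat.factorial_pos _).ne'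
    rw [ha] at h1
    exact not_le.mpr h1 (zpow_le_one₀ hpos hvq.le hnn)
  obtain ⟨M, hM⟩ : ∃ M : ℕ, b + (M : ℤ) * a < 0 := by
    refine ⟨b.natAbs + 1, ?_⟩
    push_cast
    nlinarith [abs_nonneg b, le_abs_self b, Int.add_one_le_iff.mpr ha_neg]
  have h := (A.valuation_le_one_iff _).mpr (hc M)
  rw [map_mul, map_pow] at h
  have h' := pow_le_one₀ (n := D) zero_le h
  rw [mul_pow, ← pow_mul, mul_comm M D, pow_mul, hb, ha, ← zpow_natCast, ← zpow_mul,
    ← zpow_add₀ hq0] at h'
  exact not_le.mpr (one_lt_zpow_of_neg₀ hpos hvq (by linarith)) h'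

end Algebraic

section NumberField

variable [Algebra ℚ K]

/-- All coefficients lie in one number field. -/
def HasNumberField (y : LaurentSeries K) : Prop :=
  ∃ L : IntermediateField ℚ K, FiniteDimensional ℚ L ∧ ∀ i, y.coeff i ∈ L

theorem HasNumberField.exists_preimage {L : IntermediateField ℚ K} {y : LaurentSeries K}
    (h : ∀ i, y.coeff i ∈ L) : ∃ z : LaurentSeries L, coeffMap (L.val : L →+* K) z = y :=
  ⟨⟨fun i => ⟨y.coeff i, h i⟩, y.isPWO_support'.mono fun i hi h0 => hi (Subtype.ext h0)⟩,
    by ext i; rfl⟩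

theorem hasNumberField_coeffMap {L : IntermediateField ℚ K} [FiniteDimensional ℚ L]
    (z : LaurentSeries L) : HasNumberField (coeffMap (L.val : L →+* K) z) :=
  ⟨L, inferInstance, fun i => (z.coeff i).2⟩

theorem HasNumberField.map₂ {x y : LaurentSeries K} (hx : HasNumberField x)
    (hy : HasNumberField y) (F : ∀ {R : Type _} [Field R], LaurentSeries R → LaurentSeries R →
      LaurentSeries R)
    (hF : ∀ (L : IntermediateField ℚ K) (a b : LaurentSeries L),
      F (coeffMap (L.val : L →+* K) a) (coeffMap (L.val : L →+* K) b) =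
        coeffMap (L.val : L →+* K) (F a b)) :
    HasNumberField (F x y) := by
  obtain ⟨L₁, h₁, hx⟩ := hx
  obtain ⟨L₂, h₂, hy⟩ := hy
  obtain ⟨a, rfl⟩ := exists_preimage (L := L₁ ⊔ L₂) fun i =>
    (le_sup_left : L₁ ≤ L₁ ⊔ L₂) (hx i)
  obtain ⟨b, rfl⟩ := exists_preimage (L := L₁ ⊔ L₂) fun i =>
    (le_sup_right : L₂ ≤ L₁ ⊔ L₂) (hy i)
  rw [hF]
  exact hasNumberField_coeffMap _

theorem HasNumberField.mul {x y : LaurentSeries K} (hx : HasNumberField x)
    (hy : HasNumberField y) : HasNumberField (x * y) :=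
  hx.map₂ hy (fun a b => a * b) fun _ _ _ => (map_mul _ _ _).symm

theorem HasNumberField.add {x y : LaurentSeries K} (hx : HasNumberField x)
    (hy : HasNumberField y) : HasNumberField (x + y) :=
  hx.map₂ hy (fun a b => a + b) fun _ _ _ => (map_add _ _ _).symm

theorem HasNumberField.neg {x : LaurentSeries K} (hx : HasNumberField x) :
    HasNumberField (-x) :=
  hx.map₂ hx (fun a _ => -a) fun _ _ _ => (map_neg _ _).symm

theorem HasNumberField.inv {x : LaurentSeries K} (hx : HasNumberField x) :
    HasNumberField x⁻¹ :=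
  hx.map₂ hx (fun a _ => a⁻¹) fun _ _ _ => (map_inv₀ _ _).symm

theorem hasNumberField_coeffEmb (y : LaurentSeries ℚ) : HasNumberField (coeffEmb K y) :=
  ⟨⊥, inferInstance, fun i => IntermediateField.algebraMap_mem ⊥ (y.coeff i)⟩

theorem hasNumberField_algebraMap [Algebra.IsAlgebraic ℚ K] (c : K) :
    HasNumberField (algebraMap K (LaurentSeries K) c) := by
  refine ⟨IntermediateField.adjoin ℚ {c},
    IntermediateField.adjoin.finiteDimensional (Algebra.IsIntegral.isIntegral c), fun i => ?_⟩
  rw [algebraMap_laurentSeries_eq_single, HahnSeries.coeff_single]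
  split_ifs
  exacts [IntermediateField.mem_adjoin_simple_self ℚ c, zero_mem _]

/-- The series with coefficients in number fields form a subfield. -/
def numberFieldSeries [Algebra.IsAlgebraic ℚ K] : Subfield (LaurentSeries K) where
  carrier := {y | HasNumberField y}
  mul_mem' := HasNumberField.mul
  add_mem' := HasNumberField.add
  neg_mem' := HasNumberField.neg
  inv_mem' := fun _ => HasNumberField.inv
  zero_mem' := by simpa using hasNumberField_algebraMap (K := K) 0
  one_mem' := by simpa using hasNumberField_algebraMap (K := K) 1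

theorem hasNumberField_of_mem_laurentBaseChange [Algebra.IsAlgebraic ℚ K]
    {F₀ : IntermediateField ℚ (LaurentSeries ℚ)} {y : LaurentSeries K}
    (hy : y ∈ laurentBaseChange K F₀) : HasNumberField y := by
  have hle : Subfield.closure (Set.range (algebraMap K (LaurentSeries K)) ∪
      (⇑(coeffEmb K) '' (F₀ : Set (LaurentSeries ℚ)))) ≤ numberFieldSeries := by
    rw [Subfield.closure_le]
    rintro _ (⟨c, rfl⟩ | ⟨z, -, rfl⟩)
    exacts [hasNumberField_algebraMap c, hasNumberField_coeffEmb z]
  exact hle (mem_laurentBaseChange_iff.mp hy)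

variable [CharZero K] [Algebra.IsAlgebraic ℚ K] {q : ℕ}

/-- A bounded subset of a number field has an element of largest valuation. -/
theorem isDiscreteOn_of_finiteDimensional (hq : q.Prime) (hA : (q : K) ∈ A.nonunits)
    (L : IntermediateField ℚ K) [FiniteDimensional ℚ L] {L' : Subfield K}
    (hLL' : ∀ x ∈ L', x ∈ L) : IsDiscreteOn A L' := by
  classical
  intro X hX hne hbd
  have hq0 : A.valuation (q : K) ≠ 0 := (map_ne_zero _).mpr (Nat.cast_ne_zero.mpr hq.ne_zero)
  have hvq : A.valuation (q : K) < 1 := hA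
  have hpos : 0 < A.valuation (q : K) := zero_lt_iff.mpr hq0
  set n := Module.finrank ℚ L
  have key : ∀ x ∈ X, x ≠ 0 → ∃ e : ℤ,
      A.valuation x ^ n.factorial = A.valuation (q : K) ^ e := fun x hxX hx => by
    have : @Module.Finite ℚ L _ _ Algebra.toModule := by
      convert ‹FiniteDimensional ℚ L› using 1
      exact Subsingleton.elim _ _
    have halg : IsIntegral ℚ (⟨x, hLL' x (hX x hxX)⟩ : L) := IsIntegral.of_finite ℚ _
    refine exists_valuation_pow_eq (A := A) hq hA hx
      (minpoly ℚ (⟨x, hLL' x (hX x hxX)⟩ : L)) (minpoly.ne_zero halg) ?_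
      ((minpoly.natDegree_le _).trans_eq
        (congrArg (fun i => @Module.finrank ℚ L _ _ i) (Subsingleton.elim _ _)))
    have h := congrArg (L.val : L →+* K) (minpoly.aeval ℚ (⟨x, hLL' x (hX x hxX)⟩ : L))
    rw [Polynomial.aeval_def, Polynomial.hom_eval₂, map_zero,
      RingHom.ext_rat ((L.val : L →+* K).comp _) (algebraMap ℚ K)] at h
    exact h
  obtain ⟨x₁, hx₁X, hx₁⟩ := hne
  obtain ⟨c, hc, hcX⟩ := hbd
  set B : Set ℤ := {e | ∃ x ∈ X, x ≠ 0 ∧
    A.valuation x ^ n.factorial = A.valuation (q : K) ^ e}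
  have hBne : B.Nonempty := by
    obtain ⟨e, he⟩ := key x₁ hx₁X hx₁
    exact ⟨e, x₁, hx₁X, hx₁, he⟩
  obtain ⟨b, hb⟩ : ∃ b : ℤ, ∀ e ∈ B, b ≤ e := by
    obtain ⟨p₀, hp₀, hp₀c⟩ := Algebra.IsAlgebraic.isAlgebraic (R := ℚ) c
    obtain ⟨e₀, he₀⟩ := exists_valuation_pow_eq (A := A) hq hA hc p₀ hp₀ hp₀c le_rfl
    set d := p₀.natDegree.factorial
    have hd : (1 : ℤ) ≤ (d : ℤ) := by exact_mod_cast Nat.factorial_pos _
    refine ⟨-|e₀ * (n.factorial : ℤ)|, ?_⟩
    rintro e ⟨x, hxX, hx, he⟩
    have h1 : A.valuation x ≤ A.valuation c := by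
      have h := (A.valuation_le_one_iff _).mpr (hcX x hxX)
      rwa [map_div₀, div_le_one₀ (zero_lt_iff.mpr ((map_ne_zero _).mpr hc))] at h
    have h2 := pow_le_pow_left₀ zero_le h1 (n.factorial * d)
    rw [pow_mul, he, mul_comm n.factorial d, pow_mul, he₀, ← zpow_natCast, ← zpow_natCast,
      ← zpow_mul, ← zpow_mul] at h2
    have h3 : e₀ * (n.factorial : ℤ) ≤ e * (d : ℤ) := by
      by_contra hneg
      exact not_le.mpr (zpow_lt_zpow_right_of_lt_one₀ hpos hvq (not_le.mp hneg)) h2
    by_contra hlt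
    push Not at hlt
    nlinarith [neg_abs_le (e₀ * (n.factorial : ℤ)), abs_nonneg (e₀ * (n.factorial : ℤ))]
  obtain ⟨e, heB, hmin⟩ := Int.exists_least_of_bdd ⟨b, hb⟩ hBne
  obtain ⟨x₀, hx₀X, hx₀, hx₀e⟩ := heB
  refine ⟨x₀, hx₀X, hx₀, fun x hxX => ?_⟩
  rcases eq_or_ne x 0 with rfl | hx
  · rw [zero_div]; exact A.zero_mem
  obtain ⟨e', he'⟩ := key x hxX hx
  refine (A.valuation_le_one_iff _).mp ?_
  rw [map_div₀, div_le_one₀ (zero_lt_iff.mpr ((map_ne_zero _).mpr hx₀))]
  refine le_of_pow_le_pow_left₀ (Nat.factorial_pos n).ne' zero_le ?_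
  rw [hx₀e, he']
  exact zpow_le_zpow_right_of_le_one₀ hpos hvq.le (hmin e' ⟨x, hxX, hx, he'⟩)

/-- Finitely generated subfields are discretely valued. -/
theorem isDiscreteOn_closure (hq : q.Prime) (hA : (q : K) ∈ A.nonunits) (s : Finset K) :
    IsDiscreteOn A (Subfield.closure (s : Set K)) := by
  have : FiniteDimensional ℚ (IntermediateField.adjoin ℚ (s : Set K)) :=
    IntermediateField.finiteDimensional_adjoin fun x _ => Algebra.IsIntegral.isIntegral x
  refine isDiscreteOn_of_finiteDimensional hq hA (IntermediateField.adjoin ℚ (s : Set K))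
    fun x hx => ?_
  have hle : Subfield.closure (s : Set K) ≤
      (IntermediateField.adjoin ℚ (s : Set K)).toSubfield :=
    Subfield.closure_le.mpr (IntermediateField.subset_adjoin ℚ (s : Set K))
  exact hle hx

omit [CharZero K] [Algebra.IsAlgebraic ℚ K] in
/-- Coefficients in a number field generate a finitely generated field. -/
theorem HasNumberField.exists_finset [CharZero K] {y : LaurentSeries K} (hy : HasNumberField y) :
    ∃ s : Finset K, ∀ i, y.coeff i ∈ Subfield.closure (s : Set K) := by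
  classical
  obtain ⟨L, hL, hmem⟩ := hy
  have : FiniteDimensional ℚ L := hL
  let b := Module.finBasis ℚ L
  refine ⟨Finset.univ.image fun j => (b j : K), fun i => ?_⟩
  have h := congrArg (Subtype.val : L → K) (b.sum_repr ⟨y.coeff i, hmem i⟩)
  rw [AddSubmonoidClass.coe_finsetSum] at h
  rw [show y.coeff i = _ from h.symm]
  refine Subfield.sum_mem _ fun j _ => ?_
  rw [IntermediateField.coe_smul, Algebra.smul_def, eq_ratCast]
  exact mul_mem (SubfieldClass.ratCast_mem _ _) (Subfield.subset_closure (by simp))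

end NumberField

section Bounded

variable (A)

/-- `y` has a nonzero integral multiplier making it bounded. -/
def HasBoundedMultiple (y : LaurentSeries K) : Prop :=
  ∃ h : LaurentSeries K, h ≠ 0 ∧ IntSeries A h ∧ ∃ c : K, c ≠ 0 ∧ IntSeries A (c • (h * y))

variable {A}

/-- Every pair of nonzero scalars has a common nonzero multiplier into `A`. -/
theorem exists_common_scalar (c d : K) (hc : c ≠ 0) (hd : d ≠ 0) :
    ∃ e : K, e ≠ 0 ∧ e / c ∈ A ∧ e / d ∈ A := by
  rcases A.mem_or_inv_mem (c / d) with h | h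
  · exact ⟨c, hc, by rw [div_self hc]; exact A.one_mem, h⟩
  · exact ⟨d, hd, by rwa [inv_div] at h, by rw [div_self hd]; exact A.one_mem⟩

theorem hasBoundedMultiple_of_intSeries {y : LaurentSeries K} (hy : IntSeries A y) :
    HasBoundedMultiple A y :=
  ⟨1, one_ne_zero, IntSeries.one, 1, one_ne_zero, by rwa [one_smul, one_mul]⟩

theorem hasBoundedMultiple_algebraMap (a : K) :
    HasBoundedMultiple A (algebraMap K (LaurentSeries K) a) := by
  rcases A.mem_or_inv_mem a with h | h
  · exact hasBoundedMultiple_of_intSeries (intSeries_algebraMap h)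
  rcases eq_or_ne a 0 with rfl | ha
  · exact hasBoundedMultiple_of_intSeries (intSeries_algebraMap A.zero_mem)
  refine ⟨1, one_ne_zero, IntSeries.one, a⁻¹, inv_ne_zero ha, ?_⟩
  rw [one_mul, smul_eq_algebraMap_mul, ← map_mul, inv_mul_cancel₀ ha, map_one]
  exact IntSeries.one

theorem HasBoundedMultiple.mul {x y : LaurentSeries K} (hx : HasBoundedMultiple A x)
    (hy : HasBoundedMultiple A y) : HasBoundedMultiple A (x * y) := by
  obtain ⟨h, h0, hh, c, c0, hc⟩ := hx
  obtain ⟨g, g0, hg, d, d0, hd⟩ := hy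
  refine ⟨h * g, mul_ne_zero h0 g0, IntSeries.mul hh hg, c * d, mul_ne_zero c0 d0, ?_⟩
  rw [show (c * d) • (h * g * (x * y)) = (c • (h * x)) * (d • (g * y)) by
    simp only [smul_eq_algebraMap_mul, map_mul]; ring]
  exact IntSeries.mul hc hd

theorem HasBoundedMultiple.add {x y : LaurentSeries K} (hx : HasBoundedMultiple A x)
    (hy : HasBoundedMultiple A y) : HasBoundedMultiple A (x + y) := by
  obtain ⟨h, h0, hh, c, c0, hc⟩ := hx
  obtain ⟨g, g0, hg, d, d0, hd⟩ := hy
  obtain ⟨e, e0, hec, hed⟩ := exists_common_scalar (A := A) c d c0 d0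
  refine ⟨h * g, mul_ne_zero h0 g0, IntSeries.mul hh hg, e, e0, ?_⟩
  rw [show e • (h * g * (x + y)) = g * ((e / c) • (c • (h * x))) + h * ((e / d) • (d • (g * y))) by
    rw [smul_smul, smul_smul, div_mul_cancel₀ e c0, div_mul_cancel₀ e d0]
    simp only [smul_eq_algebraMap_mul]; ring]
  exact IntSeries.add (IntSeries.mul hg (IntSeries.smul hec hc))
    (IntSeries.mul hh (IntSeries.smul hed hd))

theorem HasBoundedMultiple.neg {x : LaurentSeries K} (hx : HasBoundedMultiple A x) :
    HasBoundedMultiple A (-x) := by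
  obtain ⟨h, h0, hh, c, c0, hc⟩ := hx
  exact ⟨h, h0, hh, c, c0, by rw [mul_neg, smul_neg]; exact IntSeries.neg hc⟩

theorem HasBoundedMultiple.inv {x : LaurentSeries K} (hx : HasBoundedMultiple A x) :
    HasBoundedMultiple A x⁻¹ := by
  rcases eq_or_ne x 0 with rfl | x0
  · rwa [inv_zero]
  obtain ⟨h, h0, hh, c, c0, hc⟩ := hx
  refine ⟨c • (h * x), smul_ne_zero c0 (mul_ne_zero h0 x0), hc, c⁻¹, inv_ne_zero c0, ?_⟩
  rw [show c⁻¹ • (c • (h * x) * x⁻¹) = h by
    simp only [smul_eq_algebraMap_mul, map_inv₀]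
    field_simp [(map_ne_zero (algebraMap K (LaurentSeries K))).mpr c0]]
  exact hh

variable (A) in
/-- Series with bounded multiples form a subfield. -/
def boundedMultipleSubfield : Subfield (LaurentSeries K) where
  carrier := {y | HasBoundedMultiple A y}
  mul_mem' := HasBoundedMultiple.mul
  add_mem' := HasBoundedMultiple.add
  neg_mem' := HasBoundedMultiple.neg
  inv_mem' := fun _ => HasBoundedMultiple.inv
  zero_mem' := hasBoundedMultiple_of_intSeries IntSeries.zero
  one_mem' := hasBoundedMultiple_of_intSeries IntSeries.one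

theorem intSeries_coeffMap_intCast (x : LaurentSeries ℤ) :
    IntSeries A (coeffMap (Int.castRingHom K) x) := fun i => by
  rw [coeffMap_coeff]
  exact intCast_mem A _

theorem intSeries_qExpand_jqModC (d : ℕ) [NeZero d] : IntSeries A (qExpand K d (jqModC K)) := by
  rw [← coeffMap_jqModC (Int.castRingHom K), ← coeffMap_qExpand]
  exact intSeries_coeffMap_intCast _

theorem intSeries_jqModC : IntSeries A (jqModC K) := by
  rw [← coeffMap_jqModC (Int.castRingHom K)]
  exact intSeries_coeffMap_intCast _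

theorem hasBoundedMultiple_of_mem_fullC {M : ℕ} {y : LaurentSeries K}
    (hy : y ∈ modularFunctionFieldFullC K M) : HasBoundedMultiple A y := by
  rw [modularFunctionFieldFullC] at hy
  induction hy using IntermediateField.adjoin_induction with
  | mem x hx =>
    obtain ⟨d, hd, -, rfl⟩ := hx
    exact hasBoundedMultiple_of_intSeries (intSeries_qExpand_jqModC d)
  | algebraMap a => exact hasBoundedMultiple_algebraMap a
  | add x y _ _ hx hy => exact hx.add hy
  | inv x _ hx => exact hx.inv
  | mul x y _ _ hx hy => exact hx.mul hy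

/-- A finite set of scalars has a nonzero multiplier into `A`. -/
theorem exists_scalar_finset (s : Finset K) : ∃ c : K, c ≠ 0 ∧ c ∈ A ∧ ∀ a ∈ s, c * a ∈ A := by
  classical
  induction s using Finset.induction with
  | empty => exact ⟨1, one_ne_zero, A.one_mem, by simp⟩
  | insert a s _ ih =>
    obtain ⟨c, c0, cA, hc⟩ := ih
    rcases A.mem_or_inv_mem a with h | h
    · refine ⟨c, c0, cA, fun b hb => ?_⟩
      rcases Finset.mem_insert.mp hb with rfl | hb
      exacts [mul_mem cA h, hc b hb]
    · rcases eq_or_ne a 0 with rfl | a0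
      · refine ⟨c, c0, cA, fun b hb => ?_⟩
        rcases Finset.mem_insert.mp hb with rfl | hb
        exacts [by rw [mul_zero]; exact A.zero_mem, hc b hb]
      refine ⟨c * a⁻¹, mul_ne_zero c0 (inv_ne_zero a0), mul_mem cA h, fun b hb => ?_⟩
      rcases Finset.mem_insert.mp hb with rfl | hb
      · rwa [mul_assoc, inv_mul_cancel₀ a0, mul_one]
      · rw [mul_right_comm]; exact mul_mem (hc b hb) h

/-- A series integral over `K[t]` with a bounded multiple is bounded. -/
theorem exists_intSeries_smul_of_monic (hA : RankOne A) {t y : LaurentSeries K}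
    (ht : IntSeries A t) (hy : HasBoundedMultiple A y) (P : Polynomial (Polynomial K))
    (hP : P.Monic) (hPy : P.eval₂ (Polynomial.aeval t).toRingHom y = 0) :
    ∃ c : K, c ≠ 0 ∧ IntSeries A (c • y) := by
  classical
  obtain ⟨h, h0, hh, d, d0, hd⟩ := hy
  obtain ⟨c₁, c₁0, c₁A, hc₁⟩ := exists_scalar_finset (A := A)
    ((Finset.range P.natDegree).biUnion fun i => (P.coeff i).support.image (P.coeff i).coeff)
  obtain ⟨c, c0, hc1, hcd⟩ := exists_common_scalar (A := A) c₁ d c₁0 d0
  have hcA : c ∈ A := by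
    rw [show c = (c / c₁) * c₁ from (div_mul_cancel₀ c c₁0).symm]
    exact mul_mem hc1 c₁A
  refine ⟨c, c0, ?_⟩
  set Q : Polynomial (LaurentSeries K) := P.map (Polynomial.aeval t).toRingHom
  have hQ : Q.Monic := hP.map _
  set a : LaurentSeries K := algebraMap K (LaurentSeries K) c
  refine intSeries_of_monic hA h0 hh ?_ (Q.scaleRoots a) ((Polynomial.monic_scaleRoots_iff a).mpr hQ)
    ?_ ?_
  · rw [show h * c • y = (c / d) • (d • (h * y)) by
      rw [smul_smul, div_mul_cancel₀ c d0]
      simp only [smul_eq_algebraMap_mul]; ring]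
    exact IntSeries.smul hcd hd
  · intro i
    have hdeg : Q.natDegree = P.natDegree := hP.natDegree_map _
    rw [Polynomial.coeff_scaleRoots, hdeg]
    rcases lt_or_ge i P.natDegree with hi | hi
    · rw [Polynomial.coeff_map, AlgHom.toRingHom_eq_coe, RingHom.coe_coe,
        Polynomial.aeval_eq_sum_range, Finset.sum_mul]
      refine IntSeries.sum _ _ fun m _ => ?_
      rw [Algebra.smul_def, ← map_pow, mul_right_comm, ← map_mul]
      refine IntSeries.mul (intSeries_algebraMap ?_) (IntSeries.pow ht _)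
      obtain ⟨j, hj⟩ : ∃ j, P.natDegree - i = j + 1 := ⟨P.natDegree - i - 1, by omega⟩
      rw [hj, pow_succ', ← mul_assoc]
      refine mul_mem ?_ (pow_mem hcA _)
      rcases eq_or_ne ((P.coeff i).coeff m) 0 with h | h
      · rw [h, zero_mul]; exact A.zero_mem
      rw [show c = (c / c₁) * c₁ from (div_mul_cancel₀ c c₁0).symm, mul_left_comm]
      refine mul_mem hc1 ?_
      rw [mul_comm]
      exact hc₁ _ (Finset.mem_biUnion.mpr ⟨i, Finset.mem_range.mpr hi,
        Finset.mem_image.mpr ⟨m, Polynomial.mem_support_iff.mpr h, rfl⟩⟩)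
    · rcases eq_or_lt_of_le hi with rfl | hi
      · rw [Nat.sub_self, pow_zero, mul_one, ← hdeg, hQ.coeff_natDegree]
        exact IntSeries.one
      · rw [Polynomial.coeff_eq_zero_of_natDegree_lt (hdeg ▸ hi), zero_mul]
        exact IntSeries.zero
  · rw [smul_eq_algebraMap_mul]
    have := Polynomial.scaleRoots_eval₂_mul (p := Q) (RingHom.id (LaurentSeries K)) y a
    rw [RingHom.id_apply, Polynomial.eval₂_id, Polynomial.eval₂_id] at this
    rw [this, Polynomial.eval_map, hPy, mul_zero]

end Bounded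

end FLTA.BadRed.Series

end
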