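/-
Functions of `X₀(M)` with poles only at poles of `j` have bounded `q`-expansions; coefficient
fields of expansions are finitely generated and discretely valued.
-/
import Fermat.Agent.BadRed.Series

set_option linter.style.haveILetI false

set_option autoImplicit false

noncomputable section

open AlgebraicCurve IntermediateField Polynomial ModularCurve IsDedekindDomain

namespace FLTA.BadRed.Series

variable {K F : Type*} [Field K] [Field F] [Algebra K F]

/-- An element without poles over a Dedekind model of a subfield is integral over the model. -/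
theorem isIntegral_of_ord_nonneg_over {E : Type*} [Field E] [Algebra E F] [FiniteDimensional E F]
    [Algebra.IsSeparable E F] (R : Type*) [CommRing R] [IsDedekindDomain R] [Algebra K R]
    [Algebra R E] [IsFractionRing R E] [Algebra R F] [IsScalarTower R E F] [IsScalarTower K R F]
    {f : F} (hf : ∀ v : Place K F, (∀ r : R, algebraMap R F r ∈ v.toValuationSubring) →
      0 ≤ v.ord f) : IsIntegral R f := by
  haveI : IsDedekindDomain (integralClosure R F) :=
    IsIntegralClosure.isDedekindDomain R E F _
  haveI : IsFractionRing (integralClosure R F) F :=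
    integralClosure.isFractionRing_of_finite_extension E F
  have h : f ∈ (algebraMap (integralClosure R F) F).range := by
    refine HeightOneSpectrum.mem_integers_of_valuation_le_one F f fun w => ?_
    rcases eq_or_ne f 0 with rfl | hf0
    · simp
    have hw := hf (Place.ofHeightOneSpectrum (K := K) (F := F) w) fun r => by
      rw [IsScalarTower.algebraMap_apply R (integralClosure R F) F]
      exact Curves.algebraMap_mem_ofHeightOneSpectrum w _
    rw [← Curves.mem_iff_ord_nonneg _ hf0, Place.ofHeightOneSpectrum_toValuationSubring,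
      Valuation.mem_valuationSubring_iff] at hw
    exact hw
  obtain ⟨b, rfl⟩ := h
  exact b.2

/-- A function whose poles are among those of `x` is integral over `K[x]`. -/
theorem exists_monic_eval₂_eq_zero [CharZero K] [Curves.IsSepFunctionField K F] {x : F}
    (hx : Transcendental K x) {f : F}
    (hf : ∀ v : Place K F, 0 ≤ v.ord x → 0 ≤ v.ord f) :
    ∃ P : Polynomial (Polynomial K), P.Monic ∧ P.eval₂ (aeval x).toRingHom f = 0 := by
  haveI : CharZero F := charZero_of_injective_algebraMap (algebraMap K F).injective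
  haveI : CharZero K⟮x⟯ := charZero_of_injective_algebraMap (algebraMap K K⟮x⟯).injective
  haveI : Module.Finite K⟮x⟯ F := Curves.finite_adjoin_of_transcendental hx
  letI := Curves.polyAlgebraAdjoin (K := K) x
  haveI := Curves.isScalarTower_polyAlgebraAdjoin (K := K) x
  haveI := Curves.isFractionRing_polyAlgebraAdjoin hx
  letI : Algebra K[X] F := ((algebraMap K⟮x⟯ F).comp (algebraMap K[X] K⟮x⟯)).toAlgebra
  haveI : IsScalarTower K[X] K⟮x⟯ F := IsScalarTower.of_algebraMap_eq fun _ => rfl
  have halg : ∀ p : K[X], algebraMap K[X] F p = aeval x p := fun p => by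
    show algebraMap K⟮x⟯ F (aeval (AdjoinSimple.gen K x) p) = _
    rw [← aeval_algebraMap_apply, AdjoinSimple.algebraMap_gen]
  haveI : IsScalarTower K K[X] F := IsScalarTower.of_algebraMap_eq fun a => by
    rw [halg, Polynomial.algebraMap_eq, aeval_C]
  have hint : IsIntegral K[X] f := by
    refine isIntegral_of_ord_nonneg_over (K := K) (E := K⟮x⟯) K[X] fun v hv => hf v ?_
    have h := hv Polynomial.X
    rw [halg, aeval_X] at h
    exact Curves.ord_nonneg_of_mem v h
  obtain ⟨P, hP, hPf⟩ := hint
  refine ⟨P, hP, ?_⟩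
  rw [show (aeval x).toRingHom = algebraMap K[X] F from RingHom.ext fun p => (halg p).symm]
  exact hPf

section Modular

variable {K : Type*} [Field K] [CharZero K] [Algebra ℚ K] [Algebra.IsAlgebraic ℚ K]
  {A : ValuationSubring K} {q M : ℕ}
variable (F : IntermediateField K (LaurentSeries K))

/-- Functions with poles only at poles of `j` have bounded `q`-expansions. -/
theorem exists_intSeries_smul [NeZero M] (hq : q.Prime) (hA : (q : K) ∈ A.nonunits)
    [Curves.IsSepFunctionField K F] (hF : ∀ y ∈ F, y ∈ modularFunctionFieldFullC K M)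
    (hj : jqModC K ∈ F) {f : F}
    (hf : ∀ v : Place K F, 0 ≤ v.ord (⟨jqModC K, hj⟩ : F) → 0 ≤ v.ord f) :
    ∃ c : K, c ≠ 0 ∧ IntSeries A (c • (f : LaurentSeries K)) := by
  have htr : Transcendental K (⟨jqModC K, hj⟩ : F) := fun h =>
    Curves.transcendental_jqModC K (h.algHom F.val)
  obtain ⟨P, hP, hPf⟩ := exists_monic_eval₂_eq_zero htr hf
  refine exists_intSeries_smul_of_monic (rankOne_of_isAlgebraic hq hA) intSeries_jqModC
    (hasBoundedMultiple_of_mem_fullC (hF _ f.2)) P hP ?_
  have h := congrArg F.val.toRingHom hPf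
  rw [hom_eval₂, map_zero] at h
  have he : (F.val.toRingHom.comp (aeval (⟨jqModC K, hj⟩ : F)).toRingHom) =
      (aeval (jqModC K)).toRingHom := RingHom.ext fun p =>
    (aeval_algHom_apply F.val (⟨jqModC K, hj⟩ : F) p).symm
  rw [he] at h
  exact h

/-- Sections over two cusps have bounded expansions. -/
theorem exists_intSeries_smul_of_mem [NeZero M] (hq : q.Prime) (hA : (q : K) ∈ A.nonunits)
    [Curves.IsSepFunctionField K F] (hF : ∀ y ∈ F, y ∈ modularFunctionFieldFullC K M)
    (hj : jqModC K ∈ F) (P₀ P₁ : Place K F) (h₀ : P₀.ord (⟨jqModC K, hj⟩ : F) < 0)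
    (h₁ : P₁.ord (⟨jqModC K, hj⟩ : F) < 0) (m : ℕ) {f : F}
    (hf : f ∈ riemannRochSpace (Finsupp.single P₀ (m : ℤ) + Finsupp.single P₁ (m : ℤ))) :
    ∃ c : K, c ≠ 0 ∧ IntSeries A (c • (f : LaurentSeries K)) := by
  refine exists_intSeries_smul F hq hA hF hj fun v hv => ?_
  rcases mem_riemannRochSpace_iff.mp hf v with h | h
  · simp [h]
  have hne : ∀ {P : Place K F}, P.ord (⟨jqModC K, hj⟩ : F) < 0 → P ≠ v := fun hP he =>
    absurd hv (not_le.mpr (he ▸ hP))
  rwa [Finsupp.add_apply, Finsupp.single_eq_of_ne (hne h₀).symm,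
    Finsupp.single_eq_of_ne (hne h₁).symm, add_zero, neg_zero] at h

/-- The coefficients of an element of the base changed field generate a finitely generated
field. -/
theorem exists_finset_coeff {F₀ : IntermediateField ℚ (LaurentSeries ℚ)} {y : LaurentSeries K}
    (hy : y ∈ laurentBaseChange K F₀) :
    ∃ s : Finset K, ∀ i, y.coeff i ∈ Subfield.closure (s : Set K) :=
  (hasNumberField_of_mem_laurentBaseChange hy).exists_finset

end Modular

section Bar

theorem isAlgebraic_qbar : Algebra.IsAlgebraic ℚ (AlgebraicClosure ℚ) := by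
  refine ⟨fun x => ?_⟩
  obtain ⟨p, hp, hpx⟩ := (AlgebraicClosure.isAlgebraic ℚ).isAlgebraic x
  refine ⟨p, hp, ?_⟩
  rw [aeval_def] at hpx ⊢
  convert hpx using 2
  exact Subsingleton.elim _ _

attribute [local instance] isAlgebraic_qbar

/-- `bdd_cusp` for `modularFunctionFieldBar`. -/
theorem exists_intSeries_smul_bar {M : ℕ} [NeZero M] {q : ℕ} (hq : q.Prime)
    {A : ValuationSubring (AlgebraicClosure ℚ)} (hA : (q : AlgebraicClosure ℚ) ∈ A.nonunits)
    (hj : jqModC (AlgebraicClosure ℚ) ∈ modularFunctionFieldBar M)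
    (P₀ P₁ : Place (AlgebraicClosure ℚ) (modularFunctionFieldBar M))
    (h₀ : P₀.ord (⟨jqModC (AlgebraicClosure ℚ), hj⟩ : modularFunctionFieldBar M) < 0)
    (h₁ : P₁.ord (⟨jqModC (AlgebraicClosure ℚ), hj⟩ : modularFunctionFieldBar M) < 0) (m : ℕ)
    {f : modularFunctionFieldBar M}
    (hf : f ∈ riemannRochSpace (Finsupp.single P₀ (m : ℤ) + Finsupp.single P₁ (m : ℤ))) :
    ∃ c : AlgebraicClosure ℚ, c ≠ 0 ∧
      IntSeries A (c • (f : LaurentSeries (AlgebraicClosure ℚ))) :=
  exists_intSeries_smul_of_mem (M := M) _ hq hA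
    (fun y hy => (Curves.laurentBaseChange_full_eq M (AlgebraicClosure ℚ)).le hy) hj P₀ P₁ h₀ h₁
    m hf

/-- `coeff_fg` for `modularFunctionFieldBar`. -/
theorem exists_finset_coeff_bar {M : ℕ} (f : modularFunctionFieldBar M) :
    ∃ s : Finset (AlgebraicClosure ℚ), ∀ i,
      (f : LaurentSeries (AlgebraicClosure ℚ)).coeff i ∈
        Subfield.closure (s : Set (AlgebraicClosure ℚ)) :=
  exists_finset_coeff f.2

/-- `discrete` for valuation rings of `ℚ̄` over a prime. -/
theorem isDiscreteOn_bar {q : ℕ} (hq : q.Prime) {A : ValuationSubring (AlgebraicClosure ℚ)}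
    (hA : (q : AlgebraicClosure ℚ) ∈ A.nonunits) (s : Finset (AlgebraicClosure ℚ)) :
    IsDiscreteOn A (Subfield.closure (s : Set (AlgebraicClosure ℚ))) :=
  isDiscreteOn_closure hq hA s

end Bar

end FLTA.BadRed.Series

end
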