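import Fermat.Agent.Curves.BasicOrdExtra
import Fermat.Prelude.Def_ModularCurve_LaurentCoeff

/-!
# The place of an expansion
-/

set_option autoImplicit false

noncomputable section

open AlgebraicCurve WithZero

namespace FLTA.BadRed

variable {K F : Type*} [Field K] [Field F] [Algebra K F] (e : F →ₐ[K] LaurentSeries K)

open Classical in
/-- The valuation given by the order of the expansion. -/
def seriesValuation : Valuation F ℤᵐ⁰ where
  toFun x := if e x = 0 then 0 else exp (-(e x).order)
  map_zero' := by simp
  map_one' := by simp
  map_mul' x y := by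
    by_cases hx : e x = 0
    · simp [hx]
    by_cases hy : e y = 0
    · simp [hy]
    simp only [map_mul, mul_eq_zero, hx, hy, or_self, if_false, HahnSeries.order_mul hx hy]
    rw [← exp_add]
    congr 1
    ring
  map_add_le_max' x y := by
    by_cases hx : e x = 0
    · simp [hx]
    by_cases hy : e y = 0
    · simp [hy]
    by_cases hxy : e x + e y = 0
    · simp [hxy]
    simp only [map_add, hx, hy, hxy, if_false]
    have h := HahnSeries.min_order_le_order_add (x := e x) (y := e y) hxy
    rcases min_le_iff.mp h with h' | h'
    · exact le_max_of_le_left (exp_le_exp.mpr (by omega))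
    · exact le_max_of_le_right (exp_le_exp.mpr (by omega))

theorem seriesValuation_apply_of_ne {x : F} (hx : x ≠ 0) :
    seriesValuation e x = exp (-(e x).order) := by
  have h : e x ≠ 0 := fun h => hx (e.toRingHom.injective (by simpa using h))
  exact if_neg h

theorem seriesValuation_algebraMap_le (a : K) : seriesValuation e (algebraMap K F a) ≤ 1 := by
  rcases eq_or_ne a 0 with rfl | ha
  · simp
  rw [seriesValuation_apply_of_ne e (by simpa using ha), AlgHom.commutes,
    ModularCurve.algebraMap_laurentSeries_eq_single, HahnSeries.order_single ha]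
  simp

/-- The place of an expansion with an element of order `±1`. -/
theorem exists_seriesPlace (h : ∃ x : F, x ≠ 0 ∧ ((e x).order = 1 ∨ (e x).order = -1)) :
    ∃ P : Place K F, ∀ x : F, x ≠ 0 → P.ord x = (e x).order := by
  obtain ⟨x, hx, h1⟩ := h
  have hπ : ∃ π : F, seriesValuation e π = exp (-1 : ℤ) := by
    rcases h1 with h1 | h1
    · exact ⟨x, by rw [seriesValuation_apply_of_ne e hx, h1]⟩
    · exact ⟨x⁻¹, by rw [map_inv₀, seriesValuation_apply_of_ne e hx, h1, ← exp_neg]; simp⟩
  refine ⟨FLTA.Curves.ofValuation _ (seriesValuation_algebraMap_le e) hπ, fun y hy => ?_⟩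
  rw [FLTA.Curves.ord_ofValuation, seriesValuation_apply_of_ne e hy, log_exp]
  ring

end FLTA.BadRed

end
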