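import Fermat.Agent.BadRed.Setup
import Fermat.Agent.BadRed.SeriesPlace
import Fermat.Agent.BadRed.SeriesBounded
import Fermat.Agent.BadRed.SeriesCalc
import Fermat.Agent.PlaceRed.Along
import Fermat.Agent.BadRed.Swap
import Fermat.Agent.Congruence.FrobeniusField
import Fermat.Agent.Curves.BasicModular
import Fermat.Agent.Curves.RRMult
import Fermat.Agent.Curves.RRInstances
import Fermat.Agent.Galois.Places

/-!
# `X₀(N q)` at `q ∤ N` as a `BadFibre`
-/

set_option autoImplicit false
set_option synthInstance.maxHeartbeats 400000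

noncomputable section

open AlgebraicCurve ModularCurve IntermediateField

namespace FLTA.BadRed

local notation "Qb" => AlgebraicClosure ℚ

section Field

theorem jqModC_mem_bar (M : ℕ) [NeZero M] : jqModC Qb ∈ modularFunctionFieldBar M := by
  show jqModC Qb ∈ laurentBaseChange Qb (modularFunctionFieldFull M)
  rw [FLTA.Curves.laurentBaseChange_full_eq]
  exact jqModC_mem_full Qb M

/-- `j` in the field of level `M`. -/
def jBar (M : ℕ) [NeZero M] : modularFunctionFieldBar M := ⟨jqModC Qb, jqModC_mem_bar M⟩

theorem order_jqModC (R : Type*) [CommRing R] [Nontrivial R] : (jqModC R).order = -1 := by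
  refine le_antisymm (HahnSeries.order_le_of_coeff_ne_zero ?_) ?_
  · rw [coeff_jqModC_neg_one]; exact one_ne_zero
  · rw [HahnSeries.le_order_iff_forall (jqModC_ne_zero_of_nontrivial R)]
    exact fun i hi => coeff_jqModC_of_lt R hi

variable (N q : ℕ) [NeZero N] [NeZero q] [hq : Fact q.Prime]

/-- An algebra endomorphism exchanging the two degeneracy images is an involution. -/
theorem swap_swap (w : modularFunctionFieldBar (N * q) →ₐ[Qb] modularFunctionFieldBar (N * q))
    (h₁ : w.comp (heckeAlphaBar Qb N q) = heckeBetaBar Qb N q)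
    (h₂ : w.comp (heckeBetaBar Qb N q) = heckeAlphaBar Qb N q)
    (x : modularFunctionFieldBar (N * q)) : w (w x) = x := by
  refine bar_induction N q (P := fun x => w (w x) = x) (fun c => by simp)
    (fun x y hx hy => by simp [hx, hy]) (fun x hx => by simp [hx])
    (fun x y hx hy => by simp [hx, hy]) (fun x hx => by simp [hx]) (fun y => ?_) (fun y => ?_) x
  · rw [show w (heckeAlphaBar Qb N q y) = heckeBetaBar Qb N q y from DFunLike.congr_fun h₁ y]
    exact DFunLike.congr_fun h₂ y
  · rw [show w (heckeBetaBar Qb N q y) = heckeAlphaBar Qb N q y from DFunLike.congr_fun h₂ y]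
    exact DFunLike.congr_fun h₁ y

/-- The Atkin-Lehner involution. -/
def swapBar (hqN : ¬ q ∣ N) :
    modularFunctionFieldBar (N * q) →ₐ[Qb] modularFunctionFieldBar (N * q) :=
  (exists_atkinSwap N q hq.out hqN).choose

theorem swapBar_alpha (hqN : ¬ q ∣ N) :
    (swapBar N q hqN).comp (heckeAlphaBar Qb N q) = heckeBetaBar Qb N q :=
  (exists_atkinSwap N q hq.out hqN).choose_spec.1

theorem swapBar_beta (hqN : ¬ q ∣ N) :
    (swapBar N q hqN).comp (heckeBetaBar Qb N q) = heckeAlphaBar Qb N q :=
  (exists_atkinSwap N q hq.out hqN).choose_spec.2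

theorem swapBar_swapBar (hqN : ¬ q ∣ N) (x : modularFunctionFieldBar (N * q)) :
    swapBar N q hqN (swapBar N q hqN x) = x :=
  swap_swap N q _ (swapBar_alpha N q hqN) (swapBar_beta N q hqN) x

theorem swapBar_apply_alpha (hqN : ¬ q ∣ N) (y : modularFunctionFieldBar N) :
    swapBar N q hqN (heckeAlphaBar Qb N q y) = heckeBetaBar Qb N q y :=
  DFunLike.congr_fun (swapBar_alpha N q hqN) y

end Field

section Reduced

variable (N q : ℕ) [NeZero N] [NeZero q] [Fact q.Prime]
variable (k : Type*) [Field k] [CharP k q] [PerfectRing k q]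

/-- `t ↦ t ^ q` on the field of modular functions in characteristic `q`. -/
def iotaFull : modularFunctionFieldFullC k N →ₐ[k] modularFunctionFieldFullC k N where
  toFun x := ((FLTA.Congruence.frobSemilinear k q N)⁻¹ • x) ^ q
  map_one' := by rw [smul_one, one_pow]
  map_mul' x y := by rw [smul_mul', mul_pow]
  map_zero' := by rw [smul_zero, zero_pow (NeZero.ne q)]
  map_add' x y := Subtype.ext <| by
    rw [AddMemClass.coe_add, FLTA.Congruence.pow_frobSemilinear_inv_smul,
      FLTA.Congruence.pow_frobSemilinear_inv_smul, FLTA.Congruence.pow_frobSemilinear_inv_smul,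
      AddMemClass.coe_add, map_add]
  commutes' c := Subtype.ext <| by
    rw [FLTA.Congruence.pow_frobSemilinear_inv_smul, IntermediateField.coe_algebraMap_apply,
      algebraMap_laurentSeries_eq_single, qExpand_single, mul_zero]

theorem coe_iotaFull (x : modularFunctionFieldFullC k N) :
    (iotaFull N q k x : LaurentSeries k) = qExpand k q (x : LaurentSeries k) :=
  FLTA.Congruence.pow_frobSemilinear_inv_smul k q N x

end Reduced

end FLTA.BadRed

end
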