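import Fermat.Agent.BadRed.Modular
import Fermat.Agent.BadRed.InfReduce
import Fermat.Agent.PlaceRed.Interface

/-!
# `X₀(N q)`, `q ∤ N`, as a `BadFibre`
-/

set_option autoImplicit false
set_option synthInstance.maxHeartbeats 400000

noncomputable section

open AlgebraicCurve ModularCurve IntermediateField

namespace FLTA.BadRed

local notation "Qb" => AlgebraicClosure ℚ

variable (N q : ℕ) [NeZero N] [NeZero q] [hq : Fact q.Prime]
variable (A : ValuationSubring (AlgebraicClosure ℚ)) (hA : A.LiesOverPrime q) (hqN : ¬ q ∣ N)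

local notation "k" => IsLocalRing.ResidueField A

/-- The cusp `∞` in characteristic zero. -/
def cuspBar (M : ℕ) [NeZero M] : Place Qb (modularFunctionFieldBar M) :=
  (exists_seriesPlace (modularFunctionFieldBar M).val
    ⟨jBar M, fun h => jqModC_ne_zero_of_nontrivial Qb (congrArg Subtype.val h),
      Or.inr (order_jqModC Qb)⟩).choose

theorem ord_cuspBar (M : ℕ) [NeZero M] (x : modularFunctionFieldBar M) (hx : x ≠ 0) :
    (cuspBar M).ord x = (x : LaurentSeries Qb).order :=
  (exists_seriesPlace (modularFunctionFieldBar M).val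
    ⟨jBar M, fun h => jqModC_ne_zero_of_nontrivial Qb (congrArg Subtype.val h),
      Or.inr (order_jqModC Qb)⟩).choose_spec x hx

/-- The cusp `∞` of the reduced curve. -/
def cuspFullC (K : Type*) [Field K] (M : ℕ) [NeZero M] :
    Place K (modularFunctionFieldFullC K M) :=
  (exists_seriesPlace (modularFunctionFieldFullC K M).val
    ⟨⟨jqModC K, jqModC_mem_full K M⟩,
      fun h => jqModC_ne_zero_of_nontrivial K (congrArg Subtype.val h),
      Or.inr (order_jqModC K)⟩).choose

theorem ord_cuspFullC (K : Type*) [Field K] (M : ℕ) [NeZero M]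
    (x : modularFunctionFieldFullC K M) (hx : x ≠ 0) :
    (cuspFullC K M).ord x = (x : LaurentSeries K).order :=
  (exists_seriesPlace (modularFunctionFieldFullC K M).val
    ⟨⟨jqModC K, jqModC_mem_full K M⟩,
      fun h => jqModC_ne_zero_of_nontrivial K (congrArg Subtype.val h),
      Or.inr (order_jqModC K)⟩).choose_spec x hx

theorem jBar_mul (M d : ℕ) [NeZero M] [NeZero d] [Fact d.Prime] :
    heckeAlphaBar Qb M d (jBar M) = jBar (M * d) :=
  Subtype.ext (coe_heckeAlphaBar (L := Qb) M d (jBar M))

/-- The cusp `0`: `∞` transported by the involution. -/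
def cuspSwap : Place Qb (modularFunctionFieldBar (N * q)) :=
  (exists_seriesPlace ((modularFunctionFieldBar (N * q)).val.comp (swapBar N q hqN))
    ⟨swapBar N q hqN (jBar (N * q)), fun h => jqModC_ne_zero_of_nontrivial Qb (congrArg Subtype.val
      ((swapBar N q hqN).injective (h.trans (map_zero _).symm))),
      Or.inr (by
        rw [AlgHom.comp_apply, swapBar_swapBar]
        exact order_jqModC Qb)⟩).choose

theorem ord_cuspSwap (x : modularFunctionFieldBar (N * q)) (hx : x ≠ 0) :
    (cuspSwap N q hqN).ord x = (swapBar N q hqN x : LaurentSeries Qb).order :=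
  (exists_seriesPlace ((modularFunctionFieldBar (N * q)).val.comp (swapBar N q hqN))
    ⟨swapBar N q hqN (jBar (N * q)), fun h => jqModC_ne_zero_of_nontrivial Qb (congrArg Subtype.val
      ((swapBar N q hqN).injective (h.trans (map_zero _).symm))),
      Or.inr (by
        rw [AlgHom.comp_apply, swapBar_swapBar]
        exact order_jqModC Qb)⟩).choose_spec x hx

theorem jBar_ne_zero (M : ℕ) [NeZero M] : jBar M ≠ 0 :=
  fun h => jqModC_ne_zero_of_nontrivial Qb (congrArg Subtype.val h)

theorem ord_cuspBar_jBar (M : ℕ) [NeZero M] : (cuspBar M).ord (jBar M) = -1 := by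
  rw [ord_cuspBar M _ (jBar_ne_zero M)]
  exact order_jqModC Qb

theorem ord_cuspSwap_jBar : (cuspSwap N q hqN).ord (jBar (N * q)) < 0 := by
  rw [ord_cuspSwap N q hqN _ (jBar_ne_zero _), ← jBar_mul, swapBar_apply_alpha, coe_heckeBetaBar,
    BadFibre.order_qExpand_eq]
  show (q : ℤ) * (jqModC Qb).order < 0
  rw [order_jqModC]
  have := hq.out.pos
  omega

include hq in
/-- A bar function with integral expansion is integral for the Gauss reduction. -/
theorem red_of_intSeries (x : modularFunctionFieldBar N)
    (hx : IntSeries A (x : LaurentSeries Qb)) :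
    ∃ h : x ∈ (FLTA.PlaceRed.gaussRedModL N hqN A hA).O,
      ((FLTA.PlaceRed.gaussRedModL N hqN A hA).red ⟨x, h⟩ : LaurentSeries k) =
        redSeries A (IsLocalRing.residue A) (x : LaurentSeries Qb) := by
  obtain ⟨y, hy⟩ := exists_coeffMap_eq hx
  have hy' : coeffMap A.subtype y ∈ modularFunctionFieldBar N := hy.symm ▸ SetLike.coe_mem _
  obtain rfl : x = ⟨coeffMap A.subtype y, hy'⟩ := Subtype.ext hy.symm
  have hG := FLTA.PlaceRed.isGauss_gaussRedModL N hqN A hA
  exact ⟨hG.mem y hy', (hG.red_eq y hy').trans (redSeries_coeffMap y).symm⟩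

include hA in
theorem isDiscreteOn_residue (s : Finset Qb) :
    IsDiscreteOn A (Subfield.closure (s : Set Qb)) :=
  Series.isDiscreteOn_bar hq.out hA s

include hqN hA in
theorem placeRed_cuspBar :
    FLTA.PlaceRed.placeRed N hqN A hA (cuspBar N) = cuspFullC k N := by
  haveI : IsAlgClosed k := FLTA.Galois.isAlgClosed_residueField A
  haveI := Series.isAlgebraic_qbar
  have hjint : IntSeries A (jBar N : LaurentSeries Qb) :=
    Series.intSeries_jqModC (A := A)
  obtain ⟨hjmem, hjred⟩ := red_of_intSeries N q A hA hqN (jBar N) hjint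
  have hjk : ((FLTA.PlaceRed.gaussRedModL N hqN A hA).red ⟨jBar N, hjmem⟩ : LaurentSeries k) =
      jqModC k := by
    rw [hjred]
    show redSeries A _ (jqModC Qb) = _
    rw [← coeffMap_jqModC A.subtype, redSeries_coeffMap, coeffMap_jqModC]
  refine placeMap_inf_eq (FLTA.PlaceRed.isGauss_gaussRedModL N hqN A hA)
    (FLTA.PlaceRed.rrCurve_bar N) (FLTA.PlaceRed.rrCurve_fullC N hqN A hA)
    (isDiscreteOn_residue q A hA) (fun x => Series.exists_finset_coeff_bar x)
    (cuspBar N) (cuspFullC k N) (ord_cuspBar N) (ord_cuspFullC k N) ⟨jBar N, hjmem⟩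
    (ord_cuspBar_jBar N) ?_ (fun x hx => ?_)
  · rw [ord_cuspFullC k N _ (fun h0 => jqModC_ne_zero_of_nontrivial k
      (hjk.symm.trans (congrArg Subtype.val h0))), hjk, order_jqModC]
    norm_num
  · exact Series.exists_intSeries_smul (M := N) _ hq.out hA
      (fun y hy => (FLTA.Curves.laurentBaseChange_full_eq N Qb).le hy) (jqModC_mem_bar N) hx

/-- A map of positive finite degree is finite. -/
theorem finiteAlong_of_finrank {K F F' : Type*} [Field K] [Field F] [Algebra K F] [Field F']
    [Algebra K F'] (φ : F →ₐ[K] F') {n : ℕ} (h : finrankAlong K φ = n + 1) : FiniteAlong K φ := by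
  letI := algebraAlong φ
  exact Module.finite_of_finrank_eq_succ h

theorem val_heckeAlphaBar (x : modularFunctionFieldBar N) :
    (modularFunctionFieldBar (N * q)).val (heckeAlphaBar Qb N q x) = (x : LaurentSeries Qb) := by
  rw [IntermediateField.coe_val]
  exact coe_heckeAlphaBar (L := Qb) N q x

theorem val_swapBar_alpha (x : modularFunctionFieldBar N) :
    (modularFunctionFieldBar (N * q)).val (swapBar N q hqN (heckeAlphaBar Qb N q x)) =
      qExpand Qb q ((modularFunctionFieldBar (N * q)).val (heckeAlphaBar Qb N q x)) := by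
  rw [val_heckeAlphaBar, IntermediateField.coe_val, swapBar_apply_alpha, coe_heckeBetaBar]

theorem val_red_of_int (x : modularFunctionFieldBar N)
    (hx : IntSeries A ((modularFunctionFieldBar (N * q)).val (heckeAlphaBar Qb N q x))) :
    ∃ h : x ∈ (FLTA.PlaceRed.gaussRedModL N hqN A hA).O,
      (modularFunctionFieldFullC k N).val ((FLTA.PlaceRed.gaussRedModL N hqN A hA).red ⟨x, h⟩) =
        redSeries A (IsLocalRing.residue A)
          ((modularFunctionFieldBar (N * q)).val (heckeAlphaBar Qb N q x)) := by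
  rw [val_heckeAlphaBar] at hx ⊢
  obtain ⟨h, h'⟩ := red_of_intSeries N q A hA hqN x hx
  refine ⟨h, ?_⟩
  rw [IntermediateField.coe_val]
  exact h'

theorem ord_cuspBar_alpha (x : modularFunctionFieldBar N) (hx : x ≠ 0) :
    (cuspBar N).ord x =
      ((modularFunctionFieldBar (N * q)).val (heckeAlphaBar Qb N q x)).order := by
  rw [val_heckeAlphaBar, ord_cuspBar N x hx]

/-- `X₀(N q)` at a place over `q`. -/
def badFibre [CharP k q] [PerfectRing k q] :
    BadFibre A (IsLocalRing.residue A) q (modularFunctionFieldBar (N * q))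
      (modularFunctionFieldBar N) (modularFunctionFieldFullC k N)
      (FLTA.PlaceRed.genusX0 N) (FLTA.PlaceRed.genusX0 (N * q)) where
  a := heckeAlphaBar Qb N q
  w := swapBar N q hqN
  w_w := swapBar_swapBar N q hqN
  finrank_a := FLTA.Congruence.finrankAlong_heckeAlphaBar N q hq.out hqN
  finite_a := finiteAlong_of_finrank _ (FLTA.Congruence.finrankAlong_heckeAlphaBar N q hq.out hqN)
  ex := (modularFunctionFieldBar (N * q)).val
  ex_w_a := val_swapBar_alpha N q hqN
  coeff_fg x := Series.exists_finset_coeff_bar x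
  discrete := isDiscreteOn_residue q A hA
  rrF := FLTA.PlaceRed.rrCurve_bar (N * q)
  P := ![cuspBar (N * q), cuspSwap N q hqN]
  ord_P_zero := ord_cuspBar (N * q)
  ord_P_one := ord_cuspSwap N q hqN
  exk := (modularFunctionFieldFullC k N).val
  iota := iotaFull N q k
  exk_iota := coe_iotaFull N q k
  frobq := FLTA.Congruence.frobSemilinear k q N
  baseAut_frobq _ := rfl
  bdd_cusp m x hx := Series.exists_intSeries_smul_bar hq.out hA (jqModC_mem_bar (N * q))
    (cuspBar (N * q)) (cuspSwap N q hqN)
    (by show (cuspBar (N * q)).ord (jBar (N * q)) < 0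
        rw [ord_cuspBar_jBar]; norm_num)
    (ord_cuspSwap_jBar N q hqN) m hx
  exk_frobq _ _ := rfl
  R := FLTA.PlaceRed.gaussRedModL N hqN A hA
  red_of_int := val_red_of_int N q A hA hqN
  rr' := FLTA.PlaceRed.rrCurve_bar N
  rrk := FLTA.PlaceRed.rrCurve_fullC N hqN A hA
  inf := cuspBar N
  infk := cuspFullC k N
  ord_inf := ord_cuspBar_alpha N q
  ord_infk := ord_cuspFullC k N
  reduces_inf m hm := by
    rw [← placeRed_cuspBar N q A hA hqN, ← Finsupp.mapDomain_single
      (f := FLTA.PlaceRed.placeRed N hqN A hA) (a := cuspBar N) (b := (m : ℤ))]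
    exact FLTA.PlaceRed.reduces_mapDomain hqN hA
      (FLTA.PlaceRed.isPlaceReductionModL_placeRed N hqN A hA) _ (by
        rw [Divisor.degree_single, (FLTA.PlaceRed.rrCurve_bar N).deg_eq_one]
        push_cast
        omega)

end FLTA.BadRed

end
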