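import Mathlib
import Fermat.Prelude.Def_GaloisRep_LocalConditions

/-!
# Gluing ordinary lines

If a 2-dimensional representation over a local ring `A` is ordinary at `q` after base change to
a jointly injective family of local rings, and some inertia element has determinant `d` with
`d - 1` a unit, then it is ordinary over `A`: the line is the image of `(u - 1) / (d - 1)`.
-/

set_option autoImplicit false

noncomputable section

open scoped TensorProduct

namespace FLTA.BadRed

/-- On a rank two module, an endomorphism fixing the second coordinate in the sense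
`coord₁ ∘ u = coord₁` has determinant the diagonal entry. -/
theorem ordLine_det_eq {B : Type*} [CommRing B] {W : Type*} [AddCommGroup W] [Module B W]
    (b : Module.Basis (Fin 2) B W) (u : Module.End B W)
    (hu : ∀ w, u w - w ∈ B ∙ b 0) :
    u (b 0) = LinearMap.det u • b 0 ∧ ∀ w, b.coord 1 (u w) = b.coord 1 w := by
  have hcoord : ∀ w, b.coord 1 (u w) = b.coord 1 w := by
    intro w
    obtain ⟨c, hc⟩ := Submodule.mem_span_singleton.mp (hu w)
    have h1 : u w = w + c • b 0 := by rw [hc]; abel
    rw [h1, map_add, map_smul]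
    simp
  obtain ⟨c, hc⟩ := Submodule.mem_span_singleton.mp (hu (b 0))
  have h0 : u (b 0) = (1 + c) • b 0 := by
    rw [add_smul, one_smul, hc]; abel
  have h01 : b.repr (u (b 0)) 1 = 0 := by simp [h0]
  have h00 : b.repr (u (b 0)) 0 = 1 + c := by simp [h0]
  have h11 : b.repr (u (b 1)) 1 = 1 := by
    simpa [Module.Basis.coord_apply] using hcoord (b 1)
  have hdet : LinearMap.det u = 1 + c := by
    rw [← LinearMap.det_toMatrix b, Matrix.det_fin_two]
    simp only [LinearMap.toMatrix_apply, h01, h00, h11]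
    ring
  exact ⟨by rw [hdet]; exact h0, hcoord⟩

/-- The projector attached to `u` and the inverse `w` of `det u - 1`. -/
def ordProj {A : Type*} [CommRing A] {V : Type*} [AddCommGroup V] [Module A V]
    (u : Module.End A V) (w : A) : Module.End A V := w • (u - 1)

section AtPoint

variable {B : Type*} [CommRing B] {W : Type*} [AddCommGroup W] [Module B W]
  (b : Module.Basis (Fin 2) B W) (u : Module.End B W) (w : B)

theorem ordProj_spec (hu : ∀ x, u x - x ∈ B ∙ b 0) (hw : w * (LinearMap.det u - 1) = 1) :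
    (∀ x, ordProj u w x ∈ B ∙ b 0) ∧ ∀ x ∈ B ∙ b 0, ordProj u w x = x := by
  refine ⟨fun x => ?_, fun x hx => ?_⟩
  · exact Submodule.smul_mem _ _ (hu x)
  · obtain ⟨c, rfl⟩ := Submodule.mem_span_singleton.mp hx
    have h := (ordLine_det_eq b u hu).1
    simp only [ordProj, LinearMap.smul_apply, LinearMap.sub_apply, Module.End.one_apply,
      map_smul, h]
    simp only [smul_sub, smul_smul, ← sub_smul]
    congr 1
    linear_combination c * hw

end AtPoint

theorem isOrdinaryAt_of_baseChange {A : Type} [CommRing A] [IsLocalRing A] (ρ : GaloisRepAdic A)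
    (q : ℕ) {ι : Type*} (B : ι → Type) [∀ i, CommRing (B i)] [∀ i, IsLocalRing (B i)]
    (φ : ∀ i, A →+* B i) (hφ : ∀ i, IsLocalHom (φ i))
    (hinj : ∀ a : A, (∀ i, φ i a = 0) → a = 0)
    (hσ₀ : ∀ P : ValuationSubring (AlgebraicClosure ℚ), P.LiesOverPrime q →
      ∃ σ₀ ∈ P.inertiaSubgroupIn ℚ, IsUnit (LinearMap.det (ρ.ρ σ₀) - 1))
    (hord : ∀ i, (ρ.baseChangeAlong (φ i) (hφ i)).IsOrdinaryAt q) :
    ρ.IsOrdinaryAt q := by
  classical
  intro P hP
  obtain ⟨σ₀, hσ₀I, hunit⟩ := hσ₀ P hP
  obtain ⟨w, hw⟩ := isUnit_iff_exists_inv'.mp hunit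
  set e : Module.End A ρ.V := ordProj (ρ.ρ σ₀) w with he
  -- injectivity of all the base changes together
  have hsep : ∀ x : ρ.V, (∀ i, letI := (φ i).toAlgebra; (1 : B i) ⊗ₜ[A] x = 0) → x = 0 := by
    intro x hx
    let b := Module.Free.chooseBasis A ρ.V
    refine b.repr.injective (Finsupp.ext fun j => ?_)
    rw [map_zero, Finsupp.zero_apply]
    refine hinj _ fun i => ?_
    let := (φ i).toAlgebra
    have h := congrArg (fun t => (b.baseChange (B i)).repr t j) (hx i)
    simp only [Module.Basis.baseChange_repr_tmul, map_zero, Finsupp.zero_apply] at h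
    rw [Algebra.smul_def, mul_one] at h
    exact h
  -- what happens at each point
  have key : ∀ i, letI := (φ i).toAlgebra;
      ∃ b : Module.Basis (Fin 2) (B i) (B i ⊗[A] ρ.V),
        (∀ σ ∈ P.decompositionSubgroup ℚ, ∀ v ∈ (B i) ∙ b 0,
          (ρ.ρ σ).baseChange (B i) v ∈ (B i) ∙ b 0) ∧
        (∀ σ ∈ P.inertiaSubgroupIn ℚ, ∀ v,
          (ρ.ρ σ).baseChange (B i) v - v ∈ (B i) ∙ b 0) ∧
        (∀ x, e.baseChange (B i) x ∈ (B i) ∙ b 0) ∧
        ∀ x ∈ (B i) ∙ b 0, e.baseChange (B i) x = x := by
    intro i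
    let := (φ i).toAlgebra
    obtain ⟨L, ⟨b, hb⟩, hD, hI⟩ := hord i P hP
    subst hb
    refine ⟨b, hD, hI, ?_⟩
    have hec : e.baseChange (B i) = ordProj ((ρ.ρ σ₀).baseChange (B i)) (φ i w) := by
      rw [he, ordProj, ordProj, LinearMap.baseChange_smul, LinearMap.baseChange_sub,
        LinearMap.baseChange_one]
      ext x
      rfl
    rw [hec]
    refine ordProj_spec b _ _ (hI σ₀ hσ₀I) ?_
    erw [LinearMap.det_baseChange]
    show φ i w * (φ i (LinearMap.det (ρ.ρ σ₀)) - 1) = 1
    rw [← map_one (φ i), ← map_sub, ← map_mul, hw, map_one]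
  have hidem : ∀ x, e (e x) = e x := by
    intro x
    refine sub_eq_zero.mp (hsep _ fun i => ?_)
    let := (φ i).toAlgebra
    obtain ⟨b, -, -, h1, h2⟩ := key i
    rw [TensorProduct.tmul_sub, ← LinearMap.baseChange_tmul, ← LinearMap.baseChange_tmul,
      h2 _ (h1 _), sub_self]
  have hstab : ∀ σ ∈ P.decompositionSubgroup ℚ, ∀ x, e (ρ.ρ σ (e x)) = ρ.ρ σ (e x) := by
    intro σ hσ x
    refine sub_eq_zero.mp (hsep _ fun i => ?_)
    let := (φ i).toAlgebra
    obtain ⟨b, hD, -, h1, h2⟩ := key i
    rw [TensorProduct.tmul_sub, ← LinearMap.baseChange_tmul, ← LinearMap.baseChange_tmul,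
      ← LinearMap.baseChange_tmul, h2 _ (hD σ hσ _ (h1 _)), sub_self]
  have hinert : ∀ σ ∈ P.inertiaSubgroupIn ℚ, ∀ x, e (ρ.ρ σ x - x) = ρ.ρ σ x - x := by
    intro σ hσ x
    refine sub_eq_zero.mp (hsep _ fun i => ?_)
    let := (φ i).toAlgebra
    obtain ⟨b, -, hI, h1, h2⟩ := key i
    rw [TensorProduct.tmul_sub, ← LinearMap.baseChange_tmul, TensorProduct.tmul_sub,
      ← LinearMap.baseChange_tmul, h2 _ (hI σ hσ _), sub_self]
  -- the range of the projector is free of rank one
  have hcompl : IsCompl (LinearMap.range e) (LinearMap.ker e) :=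
    LinearMap.IsProj.isCompl
      ⟨fun x => ⟨x, rfl⟩, by rintro _ ⟨y, rfl⟩; exact hidem y⟩
  have : Module.Finite A (LinearMap.range e) := Module.Finite.range e
  have : Module.Projective A (LinearMap.range e) :=
    Module.Projective.of_split (LinearMap.range e).subtype e.rangeRestrict
      (LinearMap.ext fun ⟨y, ⟨x, hx⟩⟩ => Subtype.ext (by
        subst hx; exact hidem x))
  have : Module.Free A (LinearMap.range e) := Module.free_of_flat_of_isLocalRing
  have : Module.Finite A (LinearMap.ker e) :=
    Module.Finite.of_surjective ((LinearMap.ker e).projectionOnto (LinearMap.range e) hcompl.symm)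
      (Submodule.projectionOnto_surjective _)
  have : Module.Projective A (LinearMap.ker e) :=
    Module.Projective.of_split (LinearMap.ker e).subtype
      ((LinearMap.ker e).projectionOnto (LinearMap.range e) hcompl.symm)
      (LinearMap.ext fun y => Submodule.projectionOnto_apply_left _ y)
  have : Module.Free A (LinearMap.ker e) := Module.free_of_flat_of_isLocalRing
  have hsum : Module.finrank A (LinearMap.range e) + Module.finrank A (LinearMap.ker e) = 2 := by
    rw [← Module.finrank_prod, (Submodule.prodEquivOfIsCompl _ _ hcompl).finrank_eq, ρ.finrank_eq]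
  obtain ⟨i⟩ : Nonempty ι := by
    by_contra h
    rw [not_nonempty_iff] at h
    exact one_ne_zero (hinj 1 fun i => h.elim i)
  let := (φ i).toAlgebra
  obtain ⟨b, -, -, h1, h2⟩ := key i
  have hne0 : e ≠ 0 := by
    intro h0
    have := h2 (b 0) (Submodule.mem_span_singleton_self _)
    rw [h0, LinearMap.baseChange_zero, LinearMap.zero_apply] at this
    exact b.ne_zero 0 this.symm
  have hne1 : e ≠ 1 := by
    intro h1'
    have := h1 (b 1)
    rw [h1', LinearMap.baseChange_one, Module.End.one_apply] at this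
    obtain ⟨c, hc⟩ := Submodule.mem_span_singleton.mp this
    have h := congrArg (fun t => b.repr t 1) hc
    simp at h
  have hr : Module.finrank A (LinearMap.range e) = 1 := by
    by_contra hr
    rcases Nat.eq_zero_or_pos (Module.finrank A (LinearMap.range e)) with h0 | hpos
    · refine hne0 (LinearMap.ext fun x => ?_)
      have : Subsingleton (LinearMap.range e) :=
        (Module.finBasisOfFinrankEq A (LinearMap.range e) h0).repr.toEquiv.subsingleton
      exact congrArg Subtype.val (Subsingleton.elim (⟨e x, x, rfl⟩ : LinearMap.range e) 0)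
    · have hk : Module.finrank A (LinearMap.ker e) = 0 := by omega
      have : Subsingleton (LinearMap.ker e) :=
        (Module.finBasisOfFinrankEq A (LinearMap.ker e) hk).repr.toEquiv.subsingleton
      refine hne1 (LinearMap.ext fun x => ?_)
      have hmem : e x - x ∈ LinearMap.ker e := by
        rw [LinearMap.mem_ker, map_sub, hidem, sub_self]
      exact sub_eq_zero.mp
        (congrArg Subtype.val (Subsingleton.elim (⟨_, hmem⟩ : LinearMap.ker e) 0))
  have hk : Module.finrank A (LinearMap.ker e) = 1 := by omega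
  let bR := (Module.finBasisOfFinrankEq A (LinearMap.range e) hr)
  let bK := (Module.finBasisOfFinrankEq A (LinearMap.ker e) hk)
  let bb : Module.Basis (Fin 2) A ρ.V :=
    (((bR.prod bK).map (Submodule.prodEquivOfIsCompl _ _ hcompl)).reindex finSumFinEquiv)
  have hbb : A ∙ bb 0 = LinearMap.range e := by
    have h0 : (finSumFinEquiv : Fin 1 ⊕ Fin 1 ≃ Fin 2).symm 0 = Sum.inl 0 := by decide
    have hb0 : bb 0 = (bR 0 : ρ.V) := by
      simp [bb, h0]
    rw [hb0]
    refine le_antisymm ((Submodule.span_singleton_le_iff_mem _ _).mpr (bR 0).2) fun x hx => ?_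
    refine Submodule.mem_span_singleton.mpr ⟨bR.repr ⟨x, hx⟩ 0, ?_⟩
    have := congrArg Subtype.val (bR.sum_repr ⟨x, hx⟩)
    simpa using this
  refine ⟨LinearMap.range e, ⟨bb, hbb.symm⟩, ?_, ?_⟩
  · intro σ hσ v hv
    obtain ⟨x, rfl⟩ := hv
    exact ⟨_, hstab σ hσ x⟩
  · intro σ hσ v
    exact ⟨_, hinert σ hσ v⟩

end FLTA.BadRed
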