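import Mathlib

/-!
# `n`-th roots of power series and uniqueness in Laurent series

* a power series over a ring whose constant coefficient is the `n`-th power of a unit has an
  `n`-th root with that constant coefficient, if `n` is a unit;
* two `n`-th roots of the same non-zero element of a field differ by a root of unity.
-/

set_option autoImplicit false

noncomputable section

open PowerSeries

namespace FLTA.BadRed

/-- `n`-th roots in power series rings (Hensel for the `X`-adic topology). -/
theorem exists_pow_eq_powerSeries {R : Type*} [CommRing R] {n : ℕ} (hn0 : n ≠ 0)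
    (hn : IsUnit (n : R)) (u : PowerSeries R) (c : R) (hc : IsUnit c)
    (hu : constantCoeff u = c ^ n) :
    ∃ w : PowerSeries R, w ^ n = u ∧ constantCoeff w = c := by
  classical
  set I : Ideal (PowerSeries R) := Ideal.span {PowerSeries.X} with hI
  haveI : HenselianRing (PowerSeries R) I := inferInstance
  have hmem : ∀ f : PowerSeries R, f ∈ I ↔ constantCoeff f = 0 := fun f => by
    rw [hI, Ideal.mem_span_singleton, PowerSeries.X_dvd_iff]
  have h1 : (Polynomial.X ^ n - Polynomial.C u).eval (PowerSeries.C c) ∈ I := by
    rw [hmem]
    simp [hu]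
  have h2 : IsUnit (Ideal.Quotient.mk I
      ((Polynomial.X ^ n - Polynomial.C u).derivative.eval (PowerSeries.C c))) := by
    have : IsUnit ((Polynomial.X ^ n - Polynomial.C u).derivative.eval (PowerSeries.C c)) := by
      simp only [Polynomial.derivative_sub, Polynomial.derivative_X_pow, Polynomial.derivative_C,
        sub_zero, Polynomial.eval_mul, Polynomial.eval_C, Polynomial.eval_pow, Polynomial.eval_X]
      refine IsUnit.mul ?_ ((hc.map PowerSeries.C).pow _)
      simpa using hn.map (PowerSeries.C (R := R))
    exact this.map _
  obtain ⟨w, hw, hwc⟩ := HenselianRing.is_henselian (I := I)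
    (Polynomial.X ^ n - Polynomial.C u) (Polynomial.monic_X_pow_sub_C u hn0) (PowerSeries.C c) h1 h2
  refine ⟨w, ?_, ?_⟩
  · simpa [Polynomial.IsRoot, sub_eq_zero] using hw
  · have := (hmem _).mp hwc
    simpa [sub_eq_zero] using this

/-- Two `n`-th roots of the same element in a field extension differ by an `n`-th root of unity
from the base, provided the base contains all `n`-th roots of unity. -/
theorem exists_root_of_unity_mul {k L : Type*} [Field k] [IsAlgClosed k] [Field L] [Algebra k L]
    {n : ℕ} (hn : 0 < n) {a b : L} (hb : b ≠ 0) (h : a ^ n = b ^ n) :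
    ∃ ζ : k, ζ ^ n = 1 ∧ a = algebraMap k L ζ * b := by
  have hroot : (a / b) ^ n = 1 := by rw [div_pow, h, div_self (pow_ne_zero _ hb)]
  have hint : IsIntegral k (a / b) :=
    ⟨Polynomial.X ^ n - 1, Polynomial.monic_X_pow_sub_C 1 hn.ne', by simp [hroot]⟩
  obtain ⟨ζ, hζ⟩ := minpoly.mem_range_of_degree_eq_one k (a / b)
    (IsAlgClosed.degree_eq_one_of_irreducible k (minpoly.irreducible hint))
  refine ⟨ζ, ?_, by rw [hζ, div_mul_cancel₀ _ hb]⟩
  apply (algebraMap k L).injective
  rw [map_pow, hζ, hroot, map_one]

end FLTA.BadRed
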