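import Fermat.Agent.BadRed.ResidueBasis
import Fermat.Agent.Curves.BasicExt

/-!
# Sections reduce to functions regular away from the cusp
-/

set_option autoImplicit false

noncomputable section

open AlgebraicCurve

namespace FLTA.BadRed.BadFibre

variable {K : Type*} [Field K] [CharZero K] {A : ValuationSubring K}
  {k : Type*} [Field k] {π : A →+* k}
  {q : ℕ} [NeZero q] [Fact q.Prime]
  {F : Type*} [Field F] [Algebra K F] {F' : Type*} [Field F'] [Algebra K F']
  {Fk : Type*} [Field Fk] [Algebra k Fk] {g gF : ℕ} (B : BadFibre A π q F F' Fk g gF)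

theorem exists_isR' {G : F} (hG : ∀ i, G ∈ B.side i) : ∃ p, B.IsR G p := by
  classical
  letI := algebraAlong B.a
  obtain ⟨h, u₀, u₁, t, hh⟩ := B.exists_adapted
  obtain ⟨b, hb⟩ := hh.exists_basis
  have hsum : ∑ i, B.a (b.repr G i) * h i = G := by
    conv_rhs => rw [← b.sum_repr G]
    simp only [hb, Algebra.smul_def]
    rfl
  have hm := hh.mem_O (x := fun i => b.repr G i) (by rw [hsum]; exact hG)
  have h1 := hh.isR_sum fun i => (⟨_, hm i⟩ : B.R.O)
  rw [show (∑ i, B.a ((⟨b.repr G i, hm i⟩ : B.R.O) : F') * h i) = G from hsum] at h1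
  exact ⟨_, h1⟩

theorem isIntegral_O_of_mem_side {G : F} (hG : ∀ i, G ∈ B.side i) :
    letI := algebraAlong B.a
    IsIntegral B.R.O G := by
  classical
  letI := algebraAlong B.a
  obtain ⟨h, u₀, u₁, t, hh⟩ := B.exists_adapted
  obtain ⟨b, hb⟩ := hh.exists_basis
  obtain ⟨p, hp⟩ := B.exists_isR' hG
  have hmem : ∀ i j, Algebra.leftMulMatrix b G i j ∈ B.R.O := by
    intro i j
    have hj : ∃ r, B.IsR (h j) r := by
      rcases j with ⟨⟨⟩⟩ | j
      · exact ⟨_, hh.red_inl⟩
      · exact ⟨_, hh.red_inr j⟩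
    obtain ⟨r, hr⟩ := hj
    have hsum : ∑ l, B.a (b.repr (G * h j) l) * h l = G * h j := by
      conv_rhs => rw [← b.sum_repr (G * h j)]
      simp only [hb, Algebra.smul_def]
      rfl
    have hm := hh.mem_O (x := fun l => b.repr (G * h j) l) (by rw [hsum]; exact (hp.mul hr).mem) i
    rwa [Algebra.leftMulMatrix_eq_repr_mul, hb]
  let M : Matrix (Unit ⊕ Fin q) (Unit ⊕ Fin q) B.R.O := Matrix.of fun i j => ⟨_, hmem i j⟩
  have hM : M.map (algebraMap B.R.O F') = Algebra.leftMulMatrix b G := rfl
  refine ⟨M.charpoly, M.charpoly_monic, ?_⟩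
  have h0 : Polynomial.aeval (Algebra.leftMulMatrix b G)
      (M.charpoly.map (algebraMap B.R.O F')) = 0 := by
    rw [← Matrix.charpoly_map, hM]
    exact Matrix.aeval_self_charpoly _
  rw [Polynomial.aeval_algHom_apply] at h0
  have h1 := Algebra.leftMulMatrix_injective b (h0.trans (map_zero _).symm)
  rwa [Polynomial.aeval_map_algebraMap, Polynomial.aeval_def] at h1


/-- Over a place other than `inf`, a section of the cusp divisor is integral. -/
theorem isIntegral_place_of_mem {m : ℕ} {G : F}
    (hG : G ∈ riemannRochSpace (B.cuspDiv m)) {v : Place K F'} (hv : v ≠ B.inf) :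
    letI := algebraAlong B.a
    IsIntegral v.toValuationSubring G := by
  classical
  letI := algebraAlong B.a
  haveI := isScalarTower_along B.a
  haveI : Module.Finite F' F := B.finite_a
  haveI : CharZero F' := charZero_of_injective_algebraMap (algebraMap K F').injective
  haveI : Algebra.IsSeparable F' F := inferInstance
  haveI : HasPrincipalDivisors K F := B.rrF.principal
  have hcomp : ∀ f : F', f ≠ 0 → (B.P 0).ord (algebraMap F' F f) = B.inf.ord f ∧
      (B.P 1).ord (algebraMap F' F f) = q * B.inf.ord f := fun f hf =>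
    ⟨B.ord_P_zero_a hf, B.ord_P_one_a hf⟩
  have hqpos : (0 : ℤ) < q := by exact_mod_cast Nat.pos_of_neZero q
  have hres : ∀ i, (B.P i).restrict F' = B.inf := by
    intro i
    refine (FLTA.Curves.place_eq_of_le fun f hf => ?_).symm
    rcases eq_or_ne f 0 with rfl | hf0
    · exact zero_mem _
    rw [Place.mem_restrict_iff,
      FLTA.Curves.mem_iff_ord_nonneg _ ((map_ne_zero _).2 hf0)]
    have h0 := FLTA.Curves.ord_nonneg_of_mem B.inf hf
    fin_cases i
    · exact ((hcomp f hf0).1).symm ▸ h0
    · exact ((hcomp f hf0).2).symm ▸ mul_nonneg hqpos.le h0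
  have hmem : ∀ w : Place K F, w.restrict F' = v → G ∈ w.toValuationSubring := by
    intro w hw
    rcases eq_or_ne G 0 with rfl | hG0
    · exact zero_mem _
    rw [FLTA.Curves.mem_iff_ord_nonneg _ hG0]
    have h := ((mem_riemannRochSpace_iff.1 hG w).resolve_left hG0)
    have hD : B.cuspDiv m w = 0 := by
      rw [cuspDiv, Finsupp.add_apply, Finsupp.single_apply, Finsupp.single_apply,
        if_neg, if_neg, add_zero]
      · rintro rfl; exact hv (hw.symm.trans (hres 1))
      · rintro rfl; exact hv (hw.symm.trans (hres 0))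
    rwa [hD, neg_zero] at h
  haveI := FLTA.Curves.isScalarTower_place (F' := F) v
  obtain ⟨y, hy⟩ := IsDedekindDomain.HeightOneSpectrum.mem_integers_of_valuation_le_one
    (R := FLTA.Curves.intClosure F v) (K := F) G fun P => by
      have := hmem _ (FLTA.Curves.restrict_placeOver v P)
      rwa [FLTA.Curves.placeOver, Place.ofHeightOneSpectrum_toValuationSubring,
        Valuation.mem_valuationSubring_iff] at this
  exact hy ▸ y.2

variable [CharP k q]

theorem frobq_smul_infk_res : B.frobq • B.infk = B.infk := by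
  refine FLTA.Curves.place_ext_ord fun y => ?_
  obtain ⟨x, rfl⟩ : ∃ x, B.frobq • x = y := ⟨B.frobq⁻¹ • y, smul_inv_smul _ _⟩
  rw [SemilinearAut.ord_smul]
  rcases eq_or_ne x 0 with rfl | hx
  · simp
  have hx' : B.frobq • x ≠ 0 := fun h => hx ((smul_eq_zero_iff_eq _).1 h)
  rw [B.ord_infk _ hx, B.ord_infk _ hx']
  have hne : B.exk x ≠ 0 := (map_ne_zero _).2 hx
  refine le_antisymm ((HahnSeries.le_order_iff_forall ((map_ne_zero _).2 hx')).2 fun i hi => ?_)
    (HahnSeries.order_le_of_coeff_ne_zero ?_)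
  · rw [B.exk_frobq, HahnSeries.coeff_eq_zero_of_lt_order hi, zero_pow (NeZero.ne q)]
  · rw [B.exk_frobq]
    exact pow_ne_zero _ (HahnSeries.coeff_order_eq_zero.not.2 hne)

theorem mem_of_monic_root {Q : Place k Fk} {d : ℕ} {z : Fk} (a : ℕ → Fk) (had : a d = 1)
    (ha : ∀ j ∈ Finset.range (d + 1), a j ∈ Q.toValuationSubring)
    (hz : ∑ j ∈ Finset.range (d + 1), a j * z ^ j = 0) : z ∈ Q.toValuationSubring := by
  by_contra hzn
  have hzi : z⁻¹ ∈ Q.toValuationSubring :=
    (Q.toValuationSubring.mem_or_inv_mem z).resolve_left hzn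
  have hz0 : z ≠ 0 := fun h => hzn (h ▸ zero_mem _)
  rw [Finset.sum_range_succ, had, one_mul] at hz
  rcases Nat.eq_zero_or_pos d with hd0 | hdpos
  · simp [hd0] at hz
  apply hzn
  have hz' : z = -∑ j ∈ Finset.range d, a j * (z⁻¹) ^ (d - 1 - j) := by
    refine mul_right_cancel₀ (pow_ne_zero (d - 1) hz0) ?_
    rw [neg_mul, Finset.sum_mul, ← pow_succ', Nat.sub_add_cancel hdpos,
      eq_neg_of_add_eq_zero_right hz]
    congr 1
    refine Finset.sum_congr rfl fun j hj => ?_
    have hj' : j < d := Finset.mem_range.1 hj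
    rw [mul_assoc, inv_pow, mul_comm ((z ^ _)⁻¹),
      show z ^ (d - 1) = z ^ j * z ^ (d - 1 - j) by rw [← pow_add]; congr 1; omega,
      mul_assoc, mul_inv_cancel₀ (pow_ne_zero _ hz0), mul_one]
  rw [hz']
  exact neg_mem (sum_mem fun j hj => mul_mem
    (ha j (Finset.mem_range.2 (Nat.lt_succ_of_lt (Finset.mem_range.1 hj)))) (pow_mem hzi _))

/-- The reduction of a section is regular away from the cusp. -/
theorem regular_of_isR {m : ℕ} {G : F} (hG : G ∈ riemannRochSpace (B.cuspDiv m))
    {p : Fin 2 → Fk} (hp : B.IsR G p) (i : Fin 2) {Q : Place k Fk} (hQ : Q ≠ B.infk) :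
    p i ∈ Q.toValuationSubring := by
  classical
  letI := algebraAlong B.a
  haveI : Module.Finite F' F := B.finite_a
  have hint := B.isIntegral_O_of_mem_side hp.mem
  have hGi : IsIntegral F' G := Algebra.IsIntegral.isIntegral G
  set P := minpoly F' G with hP
  have hPO : P = (minpoly B.R.O G).map (algebraMap B.R.O F') :=
    minpoly.isIntegrallyClosed_eq_field_fractions' F' hint
  set P₀ := minpoly B.R.O G with hP₀
  have hc : ∀ j, P.coeff j = (P₀.coeff j : F') := fun j => by rw [hPO, Polynomial.coeff_map]; rfl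
  have hmon : P₀.Monic := minpoly.monic hint
  have hv : ∀ v : Place K F', v ≠ B.inf → ∀ j, P.coeff j ∈ v.toValuationSubring := fun v hv j => by
    haveI := FLTA.Curves.isScalarTower_place (F' := F) v
    have h := minpoly.isIntegrallyClosed_eq_field_fractions' F'
      (B.isIntegral_place_of_mem hG hv)
    rw [hP, h, Polynomial.coeff_map]
    exact ((minpoly v.toValuationSubring G).coeff j).2
  set d := P₀.natDegree with hd
  let M : ℕ := 2 * g + ∑ j ∈ Finset.range (d + 1), (B.inf.ord (P.coeff j)).natAbs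
  have hL : ∀ j ∈ Finset.range (d + 1),
      B.R.red (P₀.coeff j) ∈ riemannRochSpace (Finsupp.single B.infk (M : ℤ)) := by
    intro j hj
    refine (B.reduces_inf M (Nat.le_add_right _ _)).map_mem _ ?_
    rw [mem_riemannRochSpace_iff]
    intro v
    rw [← hc j]
    by_cases h0 : P.coeff j = 0
    · exact Or.inl h0
    refine Or.inr ?_
    by_cases hvi : v = B.inf
    · subst hvi
      rw [Finsupp.single_eq_same]
      have h1 : (B.inf.ord (P.coeff j)).natAbs ≤ M := (Finset.single_le_sum
        (f := fun j => (B.inf.ord (P.coeff j)).natAbs) (fun _ _ => Nat.zero_le _) hj).trans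
        (Nat.le_add_left _ _)
      omega
    · rw [Finsupp.single_eq_of_ne' (Ne.symm hvi), neg_zero]
      exact FLTA.Curves.ord_nonneg_of_mem v (hv v hvi j)
  have hreg : ∀ j ∈ Finset.range (d + 1), ∀ Q : Place k Fk, Q ≠ B.infk →
      B.R.red (P₀.coeff j) ∈ Q.toValuationSubring := by
    intro j hj Q hQ
    rcases eq_or_ne (B.R.red (P₀.coeff j)) 0 with h0 | h0
    · rw [h0]; exact zero_mem _
    rw [FLTA.Curves.mem_iff_ord_nonneg _ h0]
    have h := (mem_riemannRochSpace_iff.1 (hL j hj) Q).resolve_left h0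
    rwa [Finsupp.single_eq_of_ne' (Ne.symm hQ), neg_zero] at h
  -- reduce the equation
  have heq : B.IsR 0 (∑ j ∈ Finset.range (d + 1),
      ![B.R.red (P₀.coeff j), B.iota (B.R.red (P₀.coeff j))] * p ^ j) := by
    have h := IsR.sum (B := B) (s := Finset.range (d + 1))
      (G := fun j => B.a (P₀.coeff j : F') * G ^ j)
      (p := fun j => ![B.R.red (P₀.coeff j), B.iota (B.R.red (P₀.coeff j))] * p ^ j)
      (fun j _ => (B.isR_a _).mul (hp.pow j))
    convert h using 1
    have h0 := minpoly.aeval B.R.O G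
    rw [Polynomial.aeval_eq_sum_range] at h0
    rw [← h0]
    exact Finset.sum_congr rfl fun j _ => (Algebra.smul_def _ _)
  have hroot := IsR.ext B heq B.isR_zero
  have hlead : B.R.red (P₀.coeff d) = 1 := by rw [hd, hmon.coeff_natDegree, map_one]
  fin_cases i
  · have h0 := congrFun hroot 0
    simp only [Finset.sum_apply, Pi.mul_apply, Pi.pow_apply, Matrix.cons_val_zero,
      Pi.zero_apply] at h0
    exact mem_of_monic_root _ hlead (fun j hj => hreg j hj Q hQ) h0
  · have h1 := congrFun hroot 1
    simp only [Finset.sum_apply, Pi.mul_apply, Pi.pow_apply, Matrix.cons_val_one,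
      Matrix.cons_val_zero, Pi.zero_apply] at h1
    have hQ' : B.frobq • Q ≠ B.infk := fun h => hQ (by
      rw [← inv_smul_smul B.frobq Q, h]
      nth_rewrite 1 [← B.frobq_smul_infk_res]
      rw [inv_smul_smul])
    have key : B.frobq • p 1 ∈ (B.frobq • Q).toValuationSubring := by
      by_contra hn
      apply hn
      have h2 := congrArg (fun z => B.frobq • z) h1
      simp only [smul_zero, Finset.smul_sum, smul_mul', smul_pow',
        (B.exk_frobq_iota _).1] at h2
      have hQ'' : ∀ j ∈ Finset.range (d + 1),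
          B.R.red (P₀.coeff j) ^ q ∈ (B.frobq • Q).toValuationSubring :=
        fun j hj => pow_mem (hreg j hj _ hQ') q
      exact mem_of_monic_root (fun j => B.R.red (P₀.coeff j) ^ q)
        (by rw [hlead, one_pow]) hQ'' h2
    exact (ValuationSubring.smul_mem_pointwise_smul_iff).1 key

end FLTA.BadRed.BadFibre
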