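import Fermat.Agent.BadRed.ResidueNorm
import Fermat.Agent.BadRed.ResidueRegular
import Fermat.Agent.BadRed.SeriesLattice

/-!
# The two residue fields and the norm formula
-/

set_option autoImplicit false

noncomputable section

open AlgebraicCurve

namespace FLTA.BadRed.BadFibre

variable {K : Type*} [Field K] [IsAlgClosed K] [CharZero K] {A : ValuationSubring K}
  {k : Type*} [Field k] [IsAlgClosed k] {π : A →+* k}
  {q : ℕ} [NeZero q] [Fact q.Prime] [CharP k q]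
  {F : Type*} [Field F] [Algebra K F] {F' : Type*} [Field F'] [Algebra K F']
  {Fk : Type*} [Field Fk] [Algebra k Fk] {g gF : ℕ} (B : BadFibre A π q F F' Fk g gF)

omit [IsAlgClosed K] [IsAlgClosed k] [CharP k q] in
theorem isR_of_isRed {G : F} {p : Fin 2 → Fk} (h : B.IsRed G p) : B.IsR G p := fun i =>
  ⟨B.sideMem_of_int i (h.1 i), (B.sred_of_int i (h.1 i)).trans (h.2 i).symm⟩

omit [IsAlgClosed K] [IsAlgClosed k] [CharP k q] in
theorem exists_isRed {G : F} (hG : IntPair A (B.pair G)) : ∃ p, B.IsRed G p := by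
  obtain ⟨p, hp⟩ := B.exists_isR' (G := G) fun i => B.sideMem_of_int i (hG i)
  exact ⟨p, hG, fun i => (hp i).2.symm.trans (B.sred_of_int i (hG i))⟩

omit [IsAlgClosed K] [IsAlgClosed k] [CharP k q] in
/-- The residue fields of both components are the reduced field. -/
theorem exists_exk_eq_sred (i : Fin 2) {x : F} (hx : x ∈ B.side i) :
    ∃ p : Fk, B.exk p = B.sred i ⟨x, hx⟩ := by
  by_cases hred : B.sred i ⟨x, hx⟩ = 0
  · exact ⟨0, by rw [map_zero, hred]⟩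
  have hx0 : x ≠ 0 := by
    rintro rfl
    exact hred (map_zero _)
  obtain ⟨j, hj⟩ : ∃ j : Fin 2, ∀ l, l = i ∨ l = j := by
    refine ⟨i + 1, fun l => ?_⟩
    fin_cases i <;> fin_cases l <;> simp
  obtain ⟨d, hd0, hd, hdr⟩ := B.exists_scaling j hx0
  rcases A.mem_or_inv_mem d with hdA | hdA
  · obtain ⟨hi, hir⟩ := B.inv_mem_side hx hred
    obtain ⟨hji, -⟩ := B.inv_mem_side hd hdr
    have hmem : ∀ l, x⁻¹ ∈ B.side l := fun l => by
      rcases hj l with rfl | rfl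
      · exact hi
      · rw [show x⁻¹ = d • (d • x)⁻¹ by
          have : algebraMap K F d ≠ 0 := (map_ne_zero _).2 hd0
          rw [Algebra.smul_def, Algebra.smul_def]
          field_simp]
        exact B.smul_mem_side hdA hji
    obtain ⟨p, hp⟩ := B.exists_isR' hmem
    refine ⟨(p i)⁻¹, ?_⟩
    rw [map_inv₀ B.exk, ← (hp i).2, hir, inv_inv]
  · have hmem : ∀ l, x ∈ B.side l := fun l => by
      rcases hj l with rfl | rfl
      · exact hx
      · rw [← inv_smul_smul₀ hd0 x]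
        exact B.smul_mem_side hdA hd
    obtain ⟨p, hp⟩ := B.exists_isR' hmem
    exact ⟨p i, (hp i).2.symm⟩

omit [IsAlgClosed K] [IsAlgClosed k] [CharP k q] in
/-- Reductions of expansions lie in the reduced field. -/
theorem exists_exk_eq_redSeries (i : Fin 2) {f : F} {c : K} (hf : IntSeries A (c • B.e i f)) :
    ∃ p : Fk, B.exk p = redSeries A π (c • B.e i f) := by
  rw [← B.e_const_smul] at hf ⊢
  rw [← B.sred_of_int i hf]
  exact B.exists_exk_eq_sred i _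

omit [IsAlgClosed K] [IsAlgClosed k] in
/-- Sections reduce to sections regular away from the cusp. -/
theorem mem_riemannRochSpace_of_isRed {m : ℕ} {G : F}
    (hG : G ∈ riemannRochSpace (B.cuspDiv m)) {p : Fin 2 → Fk} (hp : B.IsRed G p) (i : Fin 2) :
    p i ∈ riemannRochSpace (Finsupp.single B.infk (m : ℤ)) := by
  classical
  rw [mem_riemannRochSpace_iff]
  intro Q
  by_cases hp0 : p i = 0
  · exact Or.inl hp0
  refine Or.inr ?_
  by_cases hQ : Q = B.infk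
  · subst hQ
    rw [Finsupp.single_eq_same, B.ord_infk _ hp0, hp.2 i]
    have hne : redSeries A π (B.e i G) ≠ 0 := hp.2 i ▸ (map_ne_zero _).2 hp0
    have hG0 : G ≠ 0 := fun h => hne (by rw [h, map_zero, redSeries_zero])
    refine le_trans ?_ (order_le_order_redSeries hne)
    rw [← B.ord_P i hG0]
    refine le_trans ?_ ((mem_riemannRochSpace_iff.1 hG (B.P i)).resolve_left hG0)
    rw [B.cuspDiv_apply (Fact.out : q.Prime).two_le]
  · rw [Finsupp.single_eq_of_ne' (Ne.symm hQ), neg_zero]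
    exact FLTA.Curves.ord_nonneg_of_mem Q (B.regular_of_isR hG (B.isR_of_isRed hp) i hQ)

omit [IsAlgClosed K] [IsAlgClosed k] [CharP k q] in
/-- Every non-zero element can be scaled to have a non-zero reduction. -/
theorem exists_hasRed_smul (i : Fin 2) {f : F} (hf : f ≠ 0) :
    ∃ (c : K) (p : Fk), c ≠ 0 ∧ p ≠ 0 ∧ B.HasRed i (c • f) p := by
  obtain ⟨d, hd0, hd, hdr⟩ := B.exists_scaling i hf
  obtain ⟨p, hp⟩ := B.exists_exk_eq_sred i hd
  exact ⟨d, p, hd0, fun h => hdr (by rw [← hp, h, map_zero]), B.hasRed_iff.2 ⟨hd, hp.symm⟩⟩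

omit [IsAlgClosed K] [IsAlgClosed k] in
/-- The reduction of the norm along `a`. -/
theorem hasRed_normA {f : F} {c₀ c₁ : K} {p₀ p₁ : Fk}
    (h₀ : B.HasRed 0 (c₀ • f) p₀) (h₁ : B.HasRed 1 (c₁ • f) p₁)
    (hne₀ : p₀ ≠ 0) (hne₁ : p₁ ≠ 0) :
    ∃ hx : (c₀ * c₁ ^ q) • B.normA f ∈ B.R.O,
      B.R.red ⟨(c₀ * c₁ ^ q) • B.normA f, hx⟩ = p₀ * (B.frobq • p₁) := by
  classical
  obtain ⟨h₀, hp₀⟩ := B.hasRed_iff.1 h₀
  obtain ⟨h₁, hp₁⟩ := B.hasRed_iff.1 h₁
  have hr₀ : B.sred 0 ⟨_, h₀⟩ ≠ 0 := hp₀ ▸ (map_ne_zero _).2 hne₀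
  have hr₁ : B.sred 1 ⟨_, h₁⟩ ≠ 0 := hp₁ ▸ (map_ne_zero _).2 hne₁
  have key : ∃ y : B.R.O, (c₀ * c₁ ^ q) • B.normA f = (y : F') ∧
      B.R.red y = p₀ * (B.frobq • p₁) := by
    rcases A.mem_or_inv_mem (c₀ / c₁) with hcd | hcd
    · exact exists_normA_eq_of_div_mem hcd h₀ hp₀ h₁ hp₁ hne₀ hne₁
    rw [inv_div] at hcd
    have hf0 : f ≠ 0 := by
      rintro rfl
      exact hr₀ ((congrArg (B.sred 0) (Subtype.ext (smul_zero c₀) :
        (⟨_, h₀⟩ : B.side 0) = 0)).trans (map_zero _))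
    have hinv : ∀ c : K, c⁻¹ • f⁻¹ = (c • f)⁻¹ := fun c => by
      rw [Algebra.smul_def, Algebra.smul_def, mul_inv, map_inv₀]
    obtain ⟨hi₀, hi₀'⟩ := B.inv_mem_side h₀ hr₀
    obtain ⟨hi₁, hi₁'⟩ := B.inv_mem_side h₁ hr₁
    have e₀ : ∃ h : c₀⁻¹ • f⁻¹ ∈ B.side 0, B.sred 0 ⟨_, h⟩ = B.exk p₀⁻¹ := by
      rw [hinv, map_inv₀ B.exk, ← hp₀]
      exact ⟨hi₀, hi₀'⟩
    have e₁ : ∃ h : c₁⁻¹ • f⁻¹ ∈ B.side 1, B.sred 1 ⟨_, h⟩ = B.exk p₁⁻¹ := by
      rw [hinv, map_inv₀ B.exk, ← hp₁]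
      exact ⟨hi₁, hi₁'⟩
    obtain ⟨g₀, hg₀⟩ := e₀
    obtain ⟨g₁, hg₁⟩ := e₁
    obtain ⟨y, hy, hyr⟩ := exists_normA_eq_of_div_mem (f := f⁻¹) (p₀ := p₀⁻¹) (p₁ := p₁⁻¹)
      (show c₀⁻¹ / c₁⁻¹ ∈ A by rwa [inv_div_inv]) g₀ hg₀ g₁ hg₁
      (inv_ne_zero hne₀) (inv_ne_zero hne₁)
    have hyne : B.R.red y ≠ 0 := by rw [hyr]; simp [hne₀, hne₁]
    obtain ⟨z, hz⟩ := (B.isUnit_of_red_ne_zero hyne).exists_right_inv
    refine ⟨z, ?_, ?_⟩
    · have hz' : (y : F') * (z : F') = 1 := congrArg Subtype.val hz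
      letI := algebraAlong B.a
      have hn : B.normA f * B.normA f⁻¹ = 1 := by
        show Algebra.norm F' f * Algebra.norm F' f⁻¹ = 1
        rw [← map_mul, mul_inv_cancel₀ hf0, map_one]
      rw [← hy] at hz'
      have hc₀0 : c₀ ≠ 0 := by
        rintro rfl
        exact hr₀ ((congrArg (B.sred 0) (Subtype.ext (zero_smul K f) :
          (⟨_, h₀⟩ : B.side 0) = 0)).trans (map_zero _))
      have hc₁0 : c₁ ≠ 0 := by
        rintro rfl
        exact hr₁ ((congrArg (B.sred 1) (Subtype.ext (zero_smul K f) :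
          (⟨_, h₁⟩ : B.side 1) = 0)).trans (map_zero _))
      have hc : algebraMap K F' (c₀ * c₁ ^ q) * algebraMap K F' (c₀⁻¹ * c₁⁻¹ ^ q) = 1 := by
        rw [← map_mul, ← map_one (algebraMap K F'), inv_pow]
        congr 1
        field_simp
      simp only [Algebra.smul_def] at hz' ⊢
      calc algebraMap K F' (c₀ * c₁ ^ q) * B.normA f
          = algebraMap K F' (c₀ * c₁ ^ q) * B.normA f *
              (algebraMap K F' (c₀⁻¹ * c₁⁻¹ ^ q) * B.normA f⁻¹ * z) := by rw [hz', mul_one]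
        _ = algebraMap K F' (c₀ * c₁ ^ q) * algebraMap K F' (c₀⁻¹ * c₁⁻¹ ^ q) *
              (B.normA f * B.normA f⁻¹) * z := by ring
        _ = z := by rw [hc, hn, one_mul, one_mul]
    · have h : B.R.red y * B.R.red z = 1 := by rw [← map_mul, hz, map_one]
      rw [eq_inv_of_mul_eq_one_right h, hyr, smul_inv'', mul_inv, inv_inv, inv_inv]
  obtain ⟨y, hy, hyr⟩ := key
  refine ⟨hy ▸ y.2, ?_⟩
  rw [← hyr]
  exact congrArg B.R.red (Subtype.ext hy)

end FLTA.BadRed.BadFibre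

end
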