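import Fermat.Agent.BadRed.ResidueSide
import Fermat.Agent.Congruence.FrobeniusField
import Fermat.Agent.Curves.BasicOrd

/-!
# A basis of `F` over `F'` adapted to the two components of the special fibre
-/

set_option autoImplicit false

noncomputable section

open AlgebraicCurve

namespace FLTA.BadRed.BadFibre

variable {K : Type*} [Field K] [CharZero K] {A : ValuationSubring K}
  {k : Type*} [Field k] {π : A →+* k}
  {q : ℕ} [NeZero q] [Fact q.Prime]
  {F : Type*} [Field F] [Algebra K F] {F' : Type*} [Field F'] [Algebra K F']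
  {Fk : Type*} [Field Fk] [Algebra k Fk] {g gF : ℕ} (B : BadFibre A π q F F' Fk g gF)

theorem exk_injective : Function.Injective B.exk := B.exk.toRingHom.injective

theorem iota_injective : Function.Injective B.iota := B.iota.toRingHom.injective

theorem isUnit_of_red_ne_zero {x : B.R.O} (h : B.R.red x ≠ 0) : IsUnit x := by
  by_contra hx
  apply h
  rw [← RingHom.mem_ker,
    IsLocalRing.eq_maximalIdeal (RingHom.ker_isMaximal_of_surjective _ B.R.red_surjective)]
  exact (IsLocalRing.mem_maximalIdeal x).2 hx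

/-- `p` is the reduction of `G`, which is integral on both components. -/
def IsR (G : F) (p : Fin 2 → Fk) : Prop :=
  ∀ i, ∃ hG : G ∈ B.side i, B.sred i ⟨G, hG⟩ = B.exk (p i)

theorem IsR.ext {G : F} {p p' : Fin 2 → Fk} (h : B.IsR G p) (h' : B.IsR G p') : p = p' :=
  funext fun i => B.exk_injective ((h i).2.symm.trans (h' i).2)

theorem isR_zero : B.IsR 0 0 := fun i =>
  ⟨zero_mem _, (map_zero (B.sred i)).trans (map_zero B.exk).symm⟩

theorem isR_one : B.IsR 1 1 := fun i =>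
  ⟨one_mem _, (map_one (B.sred i)).trans (map_one B.exk).symm⟩

variable {B}

theorem IsR.mem {G : F} {p : Fin 2 → Fk} (h : B.IsR G p) (i : Fin 2) : G ∈ B.side i := (h i).1

theorem IsR.add {G H : F} {p r : Fin 2 → Fk} (hG : B.IsR G p) (hH : B.IsR H r) :
    B.IsR (G + H) (p + r) := fun i => by
  refine ⟨add_mem (hG.mem i) (hH.mem i), ?_⟩
  rw [Pi.add_apply, map_add B.exk, ← (hG i).2, ← (hH i).2, ← map_add]
  rfl

theorem IsR.sub {G H : F} {p r : Fin 2 → Fk} (hG : B.IsR G p) (hH : B.IsR H r) :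
    B.IsR (G - H) (p - r) := fun i => by
  refine ⟨sub_mem (hG.mem i) (hH.mem i), ?_⟩
  rw [Pi.sub_apply, map_sub B.exk, ← (hG i).2, ← (hH i).2, ← map_sub]
  rfl

theorem IsR.mul {G H : F} {p r : Fin 2 → Fk} (hG : B.IsR G p) (hH : B.IsR H r) :
    B.IsR (G * H) (p * r) := fun i => by
  refine ⟨mul_mem (hG.mem i) (hH.mem i), ?_⟩
  rw [Pi.mul_apply, map_mul B.exk, ← (hG i).2, ← (hH i).2, ← map_mul]
  rfl

theorem IsR.pow {G : F} {p : Fin 2 → Fk} (hG : B.IsR G p) (n : ℕ) : B.IsR (G ^ n) (p ^ n) := by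
  induction n with
  | zero => simpa only [pow_zero] using B.isR_one
  | succ n ih => simpa only [pow_succ] using ih.mul hG

theorem IsR.sum {ι : Type*} {s : Finset ι} {G : ι → F} {p : ι → Fin 2 → Fk}
    (h : ∀ j ∈ s, B.IsR (G j) (p j)) : B.IsR (∑ j ∈ s, G j) (∑ j ∈ s, p j) := by
  classical
  induction s using Finset.induction_on with
  | empty => simpa using B.isR_zero
  | insert j s hj ih =>
    rw [Finset.sum_insert hj, Finset.sum_insert hj]
    exact (h j (Finset.mem_insert_self _ _)).add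
      (ih fun i hi => h i (Finset.mem_insert_of_mem hi))

theorem IsR.swap {G : F} {p : Fin 2 → Fk} (hG : B.IsR G p) : B.IsR (B.w G) ![p 1, p 0] := by
  have h01 : ∀ z, B.e 0 (B.w z) = B.e 1 z := fun z => rfl
  have h10 : ∀ z, B.e 1 (B.w z) = B.e 0 z := fun z => by rw [e_one_apply, B.w_w]; rfl
  refine Fin.forall_fin_two.2 ⟨⟨B.w_mem_side.1.2 (hG.mem 1), ?_⟩,
    ⟨B.w_mem_side.2.2 (hG.mem 0), ?_⟩⟩
  · rw [Matrix.cons_val_zero, B.sred_w h01 (hG.mem 1), (hG 1).2]
  · rw [Matrix.cons_val_one, Matrix.cons_val_zero, B.sred_w h10 (hG.mem 0), (hG 0).2]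

variable (B)

theorem isR_a (x : B.R.O) : B.IsR (B.a (x : F')) ![B.R.red x, B.iota (B.R.red x)] :=
  Fin.forall_fin_two.2 ⟨B.a_mem_side_zero x, B.a_mem_side_one x⟩

theorem isR_w_a (x : B.R.O) :
    B.IsR (B.w (B.a (x : F'))) ![B.iota (B.R.red x), B.R.red x] := by
  simpa using (B.isR_a x).swap

/-- Laurent series with pairwise distinct orders are independent. -/
theorem eq_zero_of_sum_eq_zero_of_order_ne {R : Type*} [CommRing R] {ι : Type*} {s : Finset ι}
    {f : ι → LaurentSeries R}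
    (hne : ∀ i ∈ s, ∀ j ∈ s, f i ≠ 0 → f j ≠ 0 → i ≠ j → (f i).order ≠ (f j).order)
    (hsum : ∑ i ∈ s, f i = 0) : ∀ i ∈ s, f i = 0 := by
  classical
  by_contra hcon
  push Not at hcon
  obtain ⟨i, hi, hi0⟩ := hcon
  obtain ⟨j, hj, hmin⟩ := (s.filter fun i => f i ≠ 0).exists_min_image (fun i => (f i).order)
    ⟨i, Finset.mem_filter.2 ⟨hi, hi0⟩⟩
  obtain ⟨hjs, hj0⟩ := Finset.mem_filter.1 hj
  have h := congrArg (fun y : LaurentSeries R => y.coeff (f j).order) hsum
  simp only [HahnSeries.coeff_sum, HahnSeries.coeff_zero] at h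
  rw [Finset.sum_eq_single j ?_ fun hn => absurd hjs hn] at h
  · exact HahnSeries.coeff_order_eq_zero.not.2 hj0 h
  intro b hb hbj
  by_cases hb0 : f b = 0
  · simp [hb0]
  exact HahnSeries.coeff_eq_zero_of_lt_order (lt_of_le_of_ne
    (hmin b (Finset.mem_filter.2 ⟨hb, hb0⟩)) (hne j hjs b hb hj0 hb0 hbj.symm))

theorem exists_ord_infk_eq_one : ∃ t : Fk, t ≠ 0 ∧ B.infk.ord t = 1 :=
  FLTA.Curves.exists_ord_eq_one B.infk

theorem ord_infk_iota (x : Fk) : B.infk.ord (B.iota x) = q * B.infk.ord x := by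
  rcases eq_or_ne x 0 with rfl | hx
  · simp
  have hx' : B.exk x ≠ 0 := fun h => hx (B.exk_injective (by rw [h, map_zero]))
  rw [B.ord_infk _ fun h => hx (B.iota_injective (by rw [h, map_zero])), B.exk_iota,
    B.ord_infk _ hx]
  refine le_antisymm (HahnSeries.order_le_of_coeff_ne_zero ?_)
    ((HahnSeries.le_order_iff_forall fun h =>
      hx' (ModularCurve.qExpand_injective q (by rw [h, map_zero]))).2 ?_)
  · rw [ModularCurve.qExpand_coeff_mul]
    exact HahnSeries.coeff_order_eq_zero.not.2 hx'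
  · intro i hi
    by_cases hd : (q : ℤ) ∣ i
    · obtain ⟨j, rfl⟩ := hd
      rw [ModularCurve.qExpand_coeff_mul]
      exact HahnSeries.coeff_eq_zero_of_lt_order
        (lt_of_mul_lt_mul_left hi (Int.natCast_nonneg q))
    · exact ModularCurve.qExpand_coeff_of_not_dvd q _ hd

/-- The powers `1, t, …, t^(q-1)` of a uniformiser are independent over the image of `iota`. -/
theorem eq_zero_of_sum_iota_mul_pow {t : Fk} (ht : B.infk.ord t = 1) {y : Fin q → Fk}
    (h : ∑ i, B.iota (y i) * t ^ (i : ℕ) = 0) : y = 0 := by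
  classical
  have ht0 : t ≠ 0 := by rintro rfl; simp at ht
  have hord : ∀ i, y i ≠ 0 → (B.exk (B.iota (y i) * t ^ (i : ℕ))).order =
      q * B.infk.ord (y i) + (i : ℤ) := by
    intro i hi
    have h1 : B.iota (y i) ≠ 0 := fun h => hi (B.iota_injective (by rw [h, map_zero]))
    rw [← B.ord_infk _ (mul_ne_zero h1 (pow_ne_zero _ ht0)),
      B.infk.ord_mul h1 (pow_ne_zero _ ht0), ord_infk_iota, FLTA.Curves.ord_pow, ht, mul_one]
  have hy : ∀ i, B.exk (B.iota (y i) * t ^ (i : ℕ)) ≠ 0 → y i ≠ 0 := fun i h h0 =>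
    h (by rw [h0, map_zero, zero_mul, map_zero])
  funext i
  have hz := eq_zero_of_sum_eq_zero_of_order_ne (s := Finset.univ)
    (f := fun i => B.exk (B.iota (y i) * t ^ (i : ℕ))) ?_
    (by rw [← map_sum, h, map_zero]) i (Finset.mem_univ i)
  · have h0 : B.iota (y i) * t ^ (i : ℕ) = 0 := B.exk_injective (by rw [hz, map_zero])
    exact B.iota_injective (by simpa [ht0] using h0)
  intro a _ b _ ha hb hab heq
  rw [hord a (hy a ha), hord b (hy b hb)] at heq
  apply hab
  have hlt : ∀ j : Fin q, ((j : ℕ) : ℤ) < (q : ℤ) := fun j => by exact_mod_cast j.2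
  have := congrArg (· % (q : ℤ)) heq
  simp only [Int.mul_add_emod_self_left] at this
  rw [Int.emod_eq_of_lt (Int.natCast_nonneg _) (hlt a),
    Int.emod_eq_of_lt (Int.natCast_nonneg _) (hlt b)] at this
  exact Fin.ext (by exact_mod_cast this)

theorem exk_frobq_iota [CharP k q] (x : Fk) :
    B.frobq • B.iota x = x ^ q ∧ B.iota (B.frobq • x) = x ^ q := by
  have h2 : B.iota (B.frobq • x) = x ^ q := by
    apply B.exk_injective
    haveI : ExpChar k q := ExpChar.prime Fact.out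
    rw [B.exk_iota, map_pow, ← FLTA.Congruence.qExpand_coeffMap_frobenius q]
    congr 1
    ext i
    rw [ModularCurve.coeffMap_coeff, B.exk_frobq, frobenius_def]
  refine ⟨?_, h2⟩
  rw [← h2]
  apply B.exk_injective
  ext i
  rw [B.exk_frobq, B.exk_iota, B.exk_iota]
  by_cases hd : (q : ℤ) ∣ i
  · obtain ⟨j, rfl⟩ := hd
    rw [ModularCurve.qExpand_coeff_mul, ModularCurve.qExpand_coeff_mul, B.exk_frobq]
  · rw [ModularCurve.qExpand_coeff_of_not_dvd q _ hd, ModularCurve.qExpand_coeff_of_not_dvd q _ hd,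
      zero_pow (NeZero.ne q)]

/-- A family adapted to the two components: `h none` lives on side `0`, the others on side `1`. -/
structure Adapted (h : Unit ⊕ Fin q → F) (u₀ u₁ t : Fk) : Prop where
  u₀_ne : u₀ ≠ 0
  u₁_ne : u₁ ≠ 0
  ord_t : B.infk.ord t = 1
  red_inl : B.IsR (h (Sum.inl ())) ![u₀, 0]
  red_inr : ∀ i : Fin q, B.IsR (h (Sum.inr i)) ![0, u₁ * t ^ (i : ℕ)]

theorem exists_adapted : ∃ h u₀ u₁ t, B.Adapted h u₀ u₁ t := by
  obtain ⟨t, ht0, ht⟩ := B.exists_ord_infk_eq_one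
  obtain ⟨β, hβ⟩ := B.R.red_surjective (B.iota t)
  obtain ⟨b, hb⟩ := B.R.red_surjective t
  set s := B.a (β : F') - B.w (B.a (b : F')) with hs
  set u := B.iota (B.iota t) - t with hu
  have hred : B.IsR s ![0, u] := by
    have h := (B.isR_a β).sub (B.isR_w_a b)
    convert h using 1
    funext i
    fin_cases i <;> simp [hu, hβ, hb]
  have hu0 : u ≠ 0 := by
    intro h
    have h1 := congrArg B.infk.ord (sub_eq_zero.mp h)
    rw [ord_infk_iota, ord_infk_iota, ht] at h1
    have hq : (2 : ℤ) ≤ q := by exact_mod_cast (Fact.out : q.Prime).two_le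
    nlinarith
  refine ⟨Sum.elim (fun _ => B.w s) (fun i => s * B.w (B.a (b : F')) ^ (i : ℕ)),
    u, u, t, hu0, hu0, ht, ?_, ?_⟩
  · simpa using hred.swap
  · intro i
    rw [Sum.elim_inr]
    have hp := hred.mul ((B.isR_w_a b).pow (i : ℕ))
    convert hp using 1
    funext j
    fin_cases j <;> simp [hb]

variable {B}
variable {h : Unit ⊕ Fin q → F} {u₀ u₁ t : Fk}

/-- The reduction of an integral combination of an adapted family. -/
theorem Adapted.isR_sum (hh : B.Adapted h u₀ u₁ t) (x : Unit ⊕ Fin q → B.R.O) :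
    B.IsR (∑ j, B.a (x j : F') * h j)
      ![B.R.red (x (Sum.inl ())) * u₀,
        (∑ i, B.iota (B.R.red (x (Sum.inr i))) * t ^ (i : ℕ)) * u₁] := by
  have hall := IsR.sum (B := B) (s := Finset.univ)
    (G := fun j => B.a (x j : F') * h j)
    (p := fun j => ![B.R.red (x j), B.iota (B.R.red (x j))] *
      Sum.elim (fun _ : Unit => ![u₀, 0]) (fun i : Fin q => ![0, u₁ * t ^ (i : ℕ)]) j)
    (fun j _ => by
      rcases j with j | i
      · exact (B.isR_a _).mul hh.red_inl
      · exact (B.isR_a _).mul (hh.red_inr i))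
  convert hall using 1
  rw [Fintype.sum_sum_type, Fintype.sum_unique (ι := Unit),
    show (default : Unit) = () from rfl]
  funext i
  fin_cases i
  · simp [Finset.sum_apply]
  · simp [Finset.sum_apply, Finset.sum_mul, mul_comm u₁, mul_assoc]

theorem Adapted.red_eq_zero (hh : B.Adapted h u₀ u₁ t) {x : Unit ⊕ Fin q → B.R.O}
    (h0 : B.IsR (∑ j, B.a (x j : F') * h j) 0) : ∀ j, B.R.red (x j) = 0 := by
  have h1 := IsR.ext B (hh.isR_sum x) h0
  have hl : B.R.red (x (Sum.inl ())) * u₀ = 0 := by simpa using congrFun h1 0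
  have hr : (∑ i, B.iota (B.R.red (x (Sum.inr i))) * t ^ (i : ℕ)) * u₁ = 0 := by
    simpa using congrFun h1 1
  have h2 := B.eq_zero_of_sum_iota_mul_pow hh.ord_t
    ((mul_eq_zero.mp hr).resolve_right hh.u₁_ne)
  rintro (⟨⟨⟩⟩ | i)
  · exact (mul_eq_zero.mp hl).resolve_right hh.u₀_ne
  · exact congrFun h2 i

/-- Integral elements have integral coordinates in an adapted family. -/
theorem Adapted.mem_O (hh : B.Adapted h u₀ u₁ t) {x : Unit ⊕ Fin q → F'}
    (hint : ∀ i, ∑ j, B.a (x j) * h j ∈ B.side i) : ∀ j, x j ∈ B.R.O := by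
  classical
  obtain ⟨j₀, -, hmax⟩ := Finset.exists_max_image Finset.univ (fun j => B.R.O.valuation (x j))
    ⟨Sum.inl (), Finset.mem_univ _⟩
  by_contra hcon
  push Not at hcon
  obtain ⟨j₁, hj₁⟩ := hcon
  have hj₀ : x j₀ ∉ B.R.O := fun hm => hj₁ ((B.R.O.valuation_le_one_iff _).1
    (le_trans (hmax j₁ (Finset.mem_univ _)) ((B.R.O.valuation_le_one_iff _).2 hm)))
  have hx0 : x j₀ ≠ 0 := fun h0 => hj₀ (h0 ▸ B.R.O.zero_mem)
  have hy : (x j₀)⁻¹ ∈ B.R.O := (B.R.O.mem_or_inv_mem _).resolve_left hj₀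
  have hz : ∀ j, x j / x j₀ ∈ B.R.O := fun j => by
    rw [← B.R.O.valuation_le_one_iff, map_div₀]
    exact (div_le_one₀ (zero_lt_iff.2 ((map_ne_zero _).2 hx0))).2 (hmax j (Finset.mem_univ _))
  have hy0 : B.R.red ⟨_, hy⟩ = 0 := by
    by_contra hne
    obtain ⟨d, hd⟩ := (B.isUnit_of_red_ne_zero hne).exists_right_inv
    apply hj₀
    have h1 : (x j₀)⁻¹ * (d : F') = 1 := congrArg Subtype.val hd
    have h2 : (d : F') = x j₀ := by field_simp at h1; exact h1
    exact h2 ▸ d.2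
  have hred : B.IsR (∑ j, B.a ((⟨x j / x j₀, hz j⟩ : B.R.O) : F') * h j) 0 := by
    have heq : (∑ j, B.a ((⟨x j / x j₀, hz j⟩ : B.R.O) : F') * h j) =
        B.a ((⟨_, hy⟩ : B.R.O) : F') * ∑ j, B.a (x j) * h j := by
      rw [Finset.mul_sum]
      refine Finset.sum_congr rfl fun j _ => ?_
      rw [← mul_assoc, ← map_mul]
      congr 2
      show x j / x j₀ = (x j₀)⁻¹ * x j
      rw [div_eq_inv_mul]
    rw [heq]
    intro i
    obtain ⟨hm, hr⟩ := B.isR_a ⟨_, hy⟩ i
    refine ⟨mul_mem hm (hint i), ?_⟩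
    rw [show (⟨_, mul_mem hm (hint i)⟩ : B.side i) = ⟨_, hm⟩ * ⟨_, hint i⟩ from rfl, map_mul, hr]
    fin_cases i <;> simp [hy0]
  have h1 := hh.red_eq_zero hred j₀
  rw [show (⟨x j₀ / x j₀, hz j₀⟩ : B.R.O) = 1 from Subtype.ext (div_self hx0), map_one] at h1
  exact one_ne_zero h1

theorem Adapted.eq_zero (hh : B.Adapted h u₀ u₁ t) {x : Unit ⊕ Fin q → F'}
    (hx : ∑ j, B.a (x j) * h j = 0) : x = 0 := by
  by_contra hne
  obtain ⟨j, hj⟩ := Function.ne_iff.mp hne
  have hs : ∑ i, B.a ((x j)⁻¹ * x i) * h i = 0 := by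
    rw [← mul_zero (B.a (x j)⁻¹), ← hx, Finset.mul_sum]
    simp only [map_mul, mul_assoc]
  have hint : ∀ l, ∑ i, B.a ((x j)⁻¹ * x i) * h i ∈ B.side l := fun l => by
    rw [hs]
    exact zero_mem _
  have hmem := hh.mem_O hint
  have h1 := hh.red_eq_zero (x := fun i => ⟨_, hmem i⟩) (by
    show B.IsR (∑ i, B.a ((x j)⁻¹ * x i) * h i) 0
    rw [hs]; exact B.isR_zero) j
  rw [show (⟨_, hmem j⟩ : B.R.O) = 1 from Subtype.ext (inv_mul_cancel₀ hj), map_one] at h1
  exact one_ne_zero h1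

/-- An adapted family is a basis along `a`. -/
theorem Adapted.exists_basis (hh : B.Adapted h u₀ u₁ t) :
    letI := algebraAlong B.a
    ∃ b : Module.Basis (Unit ⊕ Fin q) F' F, ⇑b = h := by
  letI := algebraAlong B.a
  have hli : LinearIndependent F' h := Fintype.linearIndependent_iff.2 fun x hx j =>
    congrFun (hh.eq_zero (x := x) hx) j
  have hcard : Fintype.card (Unit ⊕ Fin q) = Module.finrank F' F := by
    rw [show Module.finrank F' F = q + 1 from B.finrank_a]
    simp [add_comm]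
  exact ⟨basisOfLinearIndependentOfCardEqFinrank hli hcard,
    coe_basisOfLinearIndependentOfCardEqFinrank _ _⟩

end FLTA.BadRed.BadFibre
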