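import Fermat.Agent.BadRed.ResidueBasis

/-!
# The norm along `a` on the two components
-/

set_option autoImplicit false

noncomputable section

open AlgebraicCurve

namespace FLTA.BadRed.BadFibre

variable {K : Type*} [Field K] [CharZero K] {A : ValuationSubring K}
  {k : Type*} [Field k] {π : A →+* k}
  {q : ℕ} [NeZero q] [Fact q.Prime] [CharP k q]
  {F : Type*} [Field F] [Algebra K F] {F' : Type*} [Field F'] [Algebra K F']
  {Fk : Type*} [Field Fk] [Algebra k Fk] {g gF : ℕ} (B : BadFibre A π q F F' Fk g gF)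

theorem sum_iota_pow_mul_pow {t p : Fk} {M : Matrix (Fin q) (Fin q) Fk}
    (hM : ∀ j : Fin q, ∑ i, B.iota (M i j) * t ^ (i : ℕ) = p * t ^ (j : ℕ)) (n : ℕ) :
    ∀ j : Fin q, ∑ i, B.iota ((M ^ n) i j) * t ^ (i : ℕ) = p ^ n * t ^ (j : ℕ) := by
  induction n with
  | zero =>
    intro j
    rw [pow_zero, pow_zero, Finset.sum_eq_single j (fun b _ hb => by simp [Matrix.one_apply_ne hb])
      (fun hj => absurd (Finset.mem_univ j) hj)]
    simp
  | succ n ih =>
    intro j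
    have h2 : p ^ (n + 1) * t ^ (j : ℕ) =
        ∑ i, ∑ l, B.iota (M l i * (M ^ n) i j) * t ^ (l : ℕ) := by
      rw [pow_succ', mul_assoc, ← ih j, Finset.mul_sum]
      refine Finset.sum_congr rfl fun i _ => ?_
      rw [mul_left_comm, ← hM i, Finset.mul_sum]
      refine Finset.sum_congr rfl fun l _ => ?_
      rw [map_mul]; ring
    rw [h2, Finset.sum_comm]
    refine Finset.sum_congr rfl fun l _ => ?_
    rw [pow_succ' M n, Matrix.mul_apply, map_sum, Finset.sum_mul]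

/-- The matrix of multiplication by `p` over the image of `iota` has determinant `frobq • p`. -/
theorem det_eq_frobq_smul {t p : Fk} (ht : B.infk.ord t = 1) {M : Matrix (Fin q) (Fin q) Fk}
    (hM : ∀ j : Fin q, ∑ i, B.iota (M i j) * t ^ (i : ℕ) = p * t ^ (j : ℕ)) :
    M.det = B.frobq • p := by
  classical
  haveI : CharP Fk q := charP_of_injective_algebraMap (algebraMap k Fk).injective q
  haveI : ExpChar Fk q := ExpChar.prime Fact.out
  have hMq : M ^ q = Matrix.scalar (Fin q) (B.frobq • p) := by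
    ext l j
    have h0 := B.eq_zero_of_sum_iota_mul_pow ht
      (y := fun i => (M ^ q) i j - Matrix.scalar (Fin q) (B.frobq • p) i j) ?_
    · exact sub_eq_zero.mp (congrFun h0 l)
    simp only [map_sub, sub_mul, Finset.sum_sub_distrib, B.sum_iota_pow_mul_pow hM q j]
    rw [Finset.sum_eq_single j (fun b _ hb => by simp [hb])
      (fun hj => absurd (Finset.mem_univ j) hj)]
    simp [← (B.exk_frobq_iota p).2]
  refine frobenius_inj Fk q ?_
  rw [frobenius_def, frobenius_def, ← Matrix.det_pow, hMq]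
  simp

variable {B}

/-- The norm formula when the side `0` scaling is the smaller one. -/
theorem exists_normA_eq_of_div_mem {f : F} {c₀ c₁ : K} (hdiv : c₀ / c₁ ∈ A) {p₀ p₁ : Fk}
    (h₀ : c₀ • f ∈ B.side 0) (hp₀ : B.sred 0 ⟨_, h₀⟩ = B.exk p₀)
    (h₁ : c₁ • f ∈ B.side 1) (hp₁ : B.sred 1 ⟨_, h₁⟩ = B.exk p₁)
    (hne₀ : p₀ ≠ 0) (hne₁ : p₁ ≠ 0) :
    ∃ y : B.R.O, (c₀ * c₁ ^ q) • B.normA f = (y : F') ∧
      B.R.red y = p₀ * (B.frobq • p₁) := by
  classical
  letI := algebraAlong B.a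
  have hr₀ : B.sred 0 ⟨_, h₀⟩ ≠ 0 := hp₀ ▸ (map_ne_zero _).2 hne₀
  have hr₁ : B.sred 1 ⟨_, h₁⟩ ≠ 0 := hp₁ ▸ (map_ne_zero _).2 hne₁
  have hc₀ : c₀ ≠ 0 := by
    rintro rfl
    exact hr₀ ((congrArg (B.sred 0) (Subtype.ext (zero_smul K f) :
      (⟨_, h₀⟩ : B.side 0) = 0)).trans (map_zero _))
  have hc₁ : c₁ ≠ 0 := by
    rintro rfl
    exact hr₁ ((congrArg (B.sred 1) (Subtype.ext (zero_smul K f) :
      (⟨_, h₁⟩ : B.side 1) = 0)).trans (map_zero _))
  have hf : f ≠ 0 := by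
    rintro rfl
    exact hr₀ ((congrArg (B.sred 0) (Subtype.ext (smul_zero c₀) :
      (⟨_, h₀⟩ : B.side 0) = 0)).trans (map_zero _))
  obtain ⟨h, u₀, u₁, t, hh⟩ := B.exists_adapted
  obtain ⟨b, hb⟩ := hh.exists_basis
  -- the scaled inverse `φ` and the scaled element `f₀`
  obtain ⟨hi₀, -⟩ := B.inv_mem_side h₀ hr₀
  obtain ⟨hi₁, hi₁'⟩ := B.inv_mem_side h₁ hr₁
  set φ : F := c₁⁻¹ • f⁻¹ with hφ
  have hφ' : φ = (c₁ • f)⁻¹ := by
    rw [hφ, Algebra.smul_def, Algebra.smul_def, mul_inv, map_inv₀]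
  have hφ₀ : φ ∈ B.side 0 := by
    rw [show φ = (c₀ / c₁) • (c₀ • f)⁻¹ by
      rw [hφ, Algebra.smul_def, Algebra.smul_def, Algebra.smul_def, mul_inv, map_div₀, map_inv₀]
      have : algebraMap K F c₀ ≠ 0 := (map_ne_zero _).2 hc₀
      field_simp]
    exact B.smul_mem_side hdiv hi₀
  obtain ⟨hφ₁, hφr⟩ : ∃ hφ₁ : φ ∈ B.side 1, B.sred 1 ⟨φ, hφ₁⟩ = B.exk p₁⁻¹ := by
    rw [hφ', map_inv₀ B.exk, ← hp₁]
    exact ⟨hi₁, hi₁'⟩
  set f₀ : F := c₀ • f with hf₀
  have hf₀₁ : f₀ ∈ B.side 1 := by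
    rw [hf₀, show c₀ • f = (c₀ / c₁) • (c₁ • f) by rw [smul_smul, div_mul_cancel₀ _ hc₁]]
    exact B.smul_mem_side hdiv h₁
  -- the second basis
  let G : Unit ⊕ Fin q → F := Sum.elim (fun _ => h (Sum.inl ())) (fun j => h (Sum.inr j) * φ)
  have hG : ∀ j, B.IsR (G j)
      (Sum.elim (fun _ : Unit => ![u₀, 0]) (fun i : Fin q => ![0, u₁ * t ^ (i : ℕ) * p₁⁻¹]) j) := by
    rintro (⟨⟨⟩⟩ | j)
    · exact hh.red_inl
    · simp only [G, Sum.elim_inr]
      refine Fin.forall_fin_two.2 ⟨?_, ?_⟩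
      · obtain ⟨hm, hr⟩ := hh.red_inr j 0
        refine ⟨mul_mem hm hφ₀, ?_⟩
        rw [B.sred_mul hm hφ₀, hr]
        simp
      · obtain ⟨hm, hr⟩ := hh.red_inr j 1
        refine ⟨mul_mem hm hφ₁, ?_⟩
        rw [B.sred_mul hm hφ₁, hr, hφr]
        simp
  have hsum : ∀ z : F, ∑ i, B.a (b.repr z i) * h i = z := fun z => by
    conv_rhs => rw [← b.sum_repr z]
    simp only [hb, Algebra.smul_def]
    rfl
  have hcoord : ∀ (z : F) (p : Fin 2 → Fk), B.IsR z p → ∃ x : Unit ⊕ Fin q → B.R.O,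
      (∀ i, (x i : F') = b.repr z i) ∧ p = ![B.R.red (x (Sum.inl ())) * u₀,
        (∑ i, B.iota (B.R.red (x (Sum.inr i))) * t ^ (i : ℕ)) * u₁] := by
    intro z p hz
    have hm := hh.mem_O (x := fun i => b.repr z i) (by rw [hsum]; exact hz.mem)
    refine ⟨fun i => ⟨_, hm i⟩, fun i => rfl, ?_⟩
    have h1 := hh.isR_sum fun i => (⟨_, hm i⟩ : B.R.O)
    rw [show (∑ i, B.a ((⟨b.repr z i, hm i⟩ : B.R.O) : F') * h i) = z from hsum z] at h1
    exact IsR.ext B hz h1
  choose T hT hTr using fun j => hcoord (G j) _ (hG j)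
  let TO : Matrix (Unit ⊕ Fin q) (Unit ⊕ Fin q) B.R.O := Matrix.of fun i j => T j i
  have hll : B.R.red (T (Sum.inl ()) (Sum.inl ())) = 1 := by
    have := congrFun (hTr (Sum.inl ())) 0
    simpa [hh.u₀_ne] using this.symm
  have hrl : ∀ i, B.R.red (T (Sum.inl ()) (Sum.inr i)) = 0 := by
    have := congrFun (hTr (Sum.inl ())) 1
    have h2 := B.eq_zero_of_sum_iota_mul_pow hh.ord_t
      (y := fun i => B.R.red (T (Sum.inl ()) (Sum.inr i))) (by simpa [hh.u₁_ne] using this.symm)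
    exact congrFun h2
  have hlr : ∀ j, B.R.red (T (Sum.inr j) (Sum.inl ())) = 0 := fun j => by
    have := congrFun (hTr (Sum.inr j)) 0
    simpa [hh.u₀_ne] using this.symm
  let M : Matrix (Fin q) (Fin q) Fk := Matrix.of fun i j => B.R.red (T (Sum.inr j) (Sum.inr i))
  have hM : M.det = B.frobq • p₁⁻¹ := by
    refine B.det_eq_frobq_smul hh.ord_t fun j => ?_
    have h3 := congrFun (hTr (Sum.inr j)) 1
    simp only [Sum.elim_inr, Matrix.cons_val_one, Matrix.cons_val_zero] at h3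
    refine mul_right_cancel₀ hh.u₁_ne ?_
    simp only [M, Matrix.of_apply]
    rw [← h3]
    ring
  have hred : TO.map B.R.red = Matrix.fromBlocks 1 0 0 M := by
    ext (⟨⟨⟩⟩ | i) (⟨⟨⟩⟩ | j) <;> simp [TO, M, hll, hrl, hlr]
  have hdet : B.R.red TO.det = B.frobq • p₁⁻¹ := by
    rw [RingHom.map_det, RingHom.mapMatrix_apply, hred, Matrix.det_fromBlocks_zero₂₁,
      Matrix.det_one, one_mul, hM]
  obtain ⟨dinv, hdinv⟩ := (B.isUnit_of_red_ne_zero (x := TO.det) (by
    rw [hdet]; simpa using hne₁)).exists_right_inv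
  -- the product
  have hprod0 : B.IsR (f₀ * h (Sum.inl ())) ![p₀ * u₀, 0] := by
    refine Fin.forall_fin_two.2 ⟨?_, ?_⟩
    · obtain ⟨hm, hr⟩ := hh.red_inl 0
      refine ⟨mul_mem h₀ hm, ?_⟩
      rw [B.sred_mul h₀ hm, hr, hp₀]
      simp
    · obtain ⟨hm, hr⟩ := hh.red_inl 1
      refine ⟨mul_mem hf₀₁ hm, ?_⟩
      rw [B.sred_mul hf₀₁ hm, hr]
      simp
  obtain ⟨x, hx, hxr⟩ := hcoord _ _ hprod0
  have hxl : B.R.red (x (Sum.inl ())) = p₀ := by
    have := congrFun hxr 0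
    simpa [hh.u₀_ne] using this.symm
  have hcol : ∀ j, f₀ * G (Sum.inr j) =
      algebraMap F' F (algebraMap K F' (c₀ / c₁)) * b (Sum.inr j) := by
    intro j
    simp only [G, Sum.elim_inr, hb, hf₀, hφ, Algebra.smul_def]
    rw [show algebraMap F' F (algebraMap K F' (c₀ / c₁)) = algebraMap K F (c₀ / c₁) from
      B.a.commutes _]
    simp only [map_div₀, map_inv₀]
    field_simp
  have hE : Algebra.leftMulMatrix b f₀ * TO.map B.R.O.subtype =
      Matrix.fromBlocks (fun _ _ => (x (Sum.inl ()) : F')) 0 (fun i _ => (x (Sum.inr i) : F'))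
        (algebraMap K F' (c₀ / c₁) • 1) := by
    ext i j
    have hij : (Algebra.leftMulMatrix b f₀ * TO.map B.R.O.subtype) i j = b.repr (f₀ * G j) i := by
      rw [← Algebra.leftMulMatrix_mulVec_repr, Matrix.mul_apply]
      simp [TO, hT, Matrix.mulVec, dotProduct]
    rw [hij]
    rcases j with ⟨⟨⟩⟩ | j
    · rcases i with ⟨⟨⟩⟩ | i
      · simp [G, hx]
      · simp [G, hx]
    · rw [hcol, ← Algebra.smul_def, map_smul, Finsupp.smul_apply, b.repr_self]
      rcases i with ⟨⟨⟩⟩ | i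
      · simp
      · by_cases hij : i = j
        · subst hij; simp
        · simp [Finsupp.single_eq_of_ne (show (Sum.inr i : Unit ⊕ Fin q) ≠ Sum.inr j by simpa using hij),
            Matrix.one_apply_ne hij]
  have key : Algebra.norm F' f₀ * (TO.det : F') =
      (x (Sum.inl ()) : F') * algebraMap K F' (c₀ / c₁) ^ q := by
    have h4 := congrArg Matrix.det hE
    rw [Matrix.det_mul, Matrix.det_fromBlocks_zero₁₂, Matrix.det_smul, Matrix.det_one,
      Fintype.card_fin, mul_one,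
      Matrix.det_unique (fun (_ _ : Unit) => (x (Sum.inl ()) : F'))] at h4
    rw [Algebra.norm_eq_matrix_det b, ← h4]
    congr 1
    exact (RingHom.map_det B.R.O.subtype TO)
  have hN : Algebra.norm F' f₀ = algebraMap K F' (c₀ ^ (q + 1)) * B.normA f := by
    rw [hf₀, Algebra.smul_def, show algebraMap K F c₀ = algebraMap F' F (algebraMap K F' c₀) from
      (B.a.commutes c₀).symm, map_mul, Algebra.norm_algebraMap, map_pow,
      show Module.finrank F' F = q + 1 from B.finrank_a]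
    rfl
  refine ⟨x (Sum.inl ()) * dinv, ?_, ?_⟩
  · have hd : (TO.det : F') * (dinv : F') = 1 := congrArg Subtype.val hdinv
    have hsc : c₀ * c₁ ^ q * (c₀ / c₁) ^ q = c₀ ^ (q + 1) := by
      rw [div_pow, mul_assoc, mul_div_cancel₀ _ (pow_ne_zero q hc₁)]; ring
    have hne : algebraMap K F' (c₀ / c₁) ^ q ≠ 0 :=
      pow_ne_zero _ ((map_ne_zero _).2 (div_ne_zero hc₀ hc₁))
    rw [Algebra.smul_def, MulMemClass.coe_mul]
    refine mul_right_cancel₀ hne ?_
    have h5 : algebraMap K F' (c₀ ^ (q + 1)) * B.normA f =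
        (x (Sum.inl ()) : F') * algebraMap K F' (c₀ / c₁) ^ q * (dinv : F') := by
      rw [← hN, ← key, mul_assoc, hd, mul_one]
    rw [← hsc, map_mul, map_pow (algebraMap K F')] at h5
    linear_combination h5
  · have hd : B.R.red TO.det * B.R.red dinv = 1 := by rw [← map_mul, hdinv, map_one]
    rw [hdet] at hd
    rw [map_mul, hxl]
    congr 1
    rw [eq_inv_of_mul_eq_one_right hd, smul_inv'', inv_inv]

end FLTA.BadRed.BadFibre
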