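import Fermat.Agent.BadRed.IntSeries
import Fermat.Agent.BadRed.Cusps

/-!
# The valuation rings of the two components

`B.side i` consists of the quotients of series that are integral on the component `i`, with the
reduction `B.sred i`. It is a valuation ring as every function is a quotient of two sections
with poles only at the cusps, which have bounded expansions.
-/

set_option autoImplicit false

noncomputable section

open AlgebraicCurve

namespace FLTA.BadRed.BadFibre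

variable {K : Type*} [Field K] [CharZero K] {A : ValuationSubring K}
  {k : Type*} [Field k] {π : A →+* k}
  {q : ℕ} [NeZero q] [Fact q.Prime]
  {F : Type*} [Field F] [Algebra K F] {F' : Type*} [Field F'] [Algebra K F']
  {Fk : Type*} [Field Fk] [Algebra k Fk] {g gF : ℕ} (B : BadFibre A π q F F' Fk g gF)

omit [CharZero K] [Fact q.Prime] in
theorem e_algebraMap (i : Fin 2) (c : K) :
    B.e i (algebraMap K F c) = HahnSeries.C c := by
  rw [AlgHom.commutes, ModularCurve.algebraMap_laurentSeries_eq_single]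
  rfl

omit [CharZero K] [Fact q.Prime] in
theorem intSeries_C {c : K} (hc : c ∈ A) :
    IntSeries A (HahnSeries.C c : LaurentSeries K) ∧
      redSeries A π (HahnSeries.C c) = HahnSeries.C (π ⟨c, hc⟩) := by
  have h : (HahnSeries.C c : LaurentSeries K) =
      ModularCurve.coeffMap A.subtype (HahnSeries.C ⟨c, hc⟩) := by
    rw [HahnSeries.C_apply, HahnSeries.C_apply, ModularCurve.coeffMap_single]
    rfl
  refine ⟨h ▸ intSeries_coeffMap _, ?_⟩
  rw [h, redSeries_coeffMap, HahnSeries.C_apply, ModularCurve.coeffMap_single]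
  rfl

omit [CharZero K] [Fact q.Prime] in
theorem scalable (i : Fin 2) {x : F} (hx : x ≠ 0) {c : K} (hc : c ≠ 0)
    (hint : IntSeries A (c • B.e i x)) :
    ∃ d : K, d ≠ 0 ∧ IntSeries A (d • B.e i x) ∧ redSeries A π (d • B.e i x) ≠ 0 := by
  have hne : B.e i x ≠ 0 := (map_ne_zero _).2 hx
  obtain ⟨s, hs⟩ : ∃ s : Finset K, ∀ j : ℤ, (B.e i x).coeff j ∈ Subfield.closure (s : Set K) := by
    revert i
    exact Fin.forall_fin_two.2 ⟨fun _ _ => B.coeff_fg x, fun _ _ => B.coeff_fg (B.w x)⟩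
  obtain ⟨_, ⟨j₀, rfl⟩, h0, hmax⟩ := B.discrete s (Set.range (B.e i x).coeff)
    (by rintro _ ⟨j, rfl⟩; exact hs j)
    ⟨_, ⟨_, rfl⟩, (mt HahnSeries.coeff_order_eq_zero.mp hne)⟩
    ⟨c⁻¹, inv_ne_zero hc, by
      rintro _ ⟨j, rfl⟩
      rw [div_inv_eq_mul, mul_comm]
      exact hint j⟩
  refine ⟨((B.e i x).coeff j₀)⁻¹, inv_ne_zero h0, fun j => ?_, fun h => ?_⟩
  · rw [HahnSeries.coeff_smul, smul_eq_mul, ← div_eq_inv_mul]
    exact hmax _ ⟨j, rfl⟩
  · have h1 := congrArg (fun y : LaurentSeries k => y.coeff j₀) h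
    simp only [redSeries_coeff, HahnSeries.coeff_smul, HahnSeries.coeff_zero, smul_eq_mul,
      inv_mul_cancel₀ h0] at h1
    rw [show (1 : K) = ((1 : A) : K) from rfl, redCoeff_coe, map_one] at h1
    exact one_ne_zero h1

omit [CharZero K] [Fact q.Prime] in
/-- Every element is a quotient of elements of the spaces attached to growing divisors. -/
theorem exists_mul_mem {L : Type*} [Field L] [Algebra K L] {g' : ℕ}
    (rr : FLTA.PlaceRed.RRCurve K L g') (E : ℕ → Divisor K L) (hE : ∀ m, 0 ≤ E m)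
    (hdeg : ∀ m : ℕ, (m : ℤ) ≤ Divisor.degree (E m)) {x : L} (hx : x ≠ 0) :
    ∃ m : ℕ, ∃ h : L, h ≠ 0 ∧ h ∈ riemannRochSpace (E m) ∧ x * h ∈ riemannRochSpace (E m) := by
  classical
  obtain ⟨D, hD, -⟩ := rr.principal.exists_divisor x hx
  let N : Divisor K L := Finsupp.mapRange (fun n : ℤ => max (-n) 0) (by simp) D
  have hN : ∀ v, N v = max (-(D v)) 0 := fun v => Finsupp.mapRange_apply
  let m : ℕ := 2 * g' + (Divisor.degree N).natAbs
  have hpos : 0 < Module.finrank K (riemannRochSpace (E m - N)) := by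
    have hd : (2 * g' : ℤ) ≤ Divisor.degree (E m - N) := by
      rw [map_sub]
      have := hdeg m
      have h1 : Divisor.degree N ≤ ((Divisor.degree N).natAbs : ℤ) := Int.le_natAbs
      simp only [m, Nat.cast_add, Nat.cast_mul, Nat.cast_ofNat] at this ⊢
      omega
    have := rr.finrank_eq (E m - N) (by omega)
    omega
  haveI := rr.finiteDimensional (E m - N)
  obtain ⟨⟨h, hh⟩, hh0⟩ := Module.finrank_pos_iff_exists_ne_zero.1 hpos
  have hh0' : h ≠ 0 := fun h0 => hh0 (Subtype.ext h0)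
  refine ⟨m, h, hh0', mem_riemannRochSpace_iff.2 fun v => Or.inr ?_,
    mem_riemannRochSpace_iff.2 fun v => Or.inr ?_⟩
  · have h1 := (mem_riemannRochSpace_iff.1 hh v).resolve_left hh0'
    rw [Finsupp.sub_apply, hN] at h1
    have := le_max_right (-(D v)) 0
    omega
  · have h1 := (mem_riemannRochSpace_iff.1 hh v).resolve_left hh0'
    rw [Finsupp.sub_apply, hN] at h1
    rw [v.ord_mul hx hh0', ← hD v]
    have := le_max_left (-(D v)) 0
    omega

omit [CharZero K] in
/-- Sections can be scaled on both components. -/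
theorem exists_scaling_of_mem (i : Fin 2) {m : ℕ} {x : F} (hx : x ≠ 0)
    (hm : x ∈ riemannRochSpace (B.cuspDiv m)) :
    ∃ d : K, d ≠ 0 ∧ IntSeries A (d • B.e i x) ∧ redSeries A π (d • B.e i x) ≠ 0 := by
  obtain ⟨c, hc, hint⟩ : ∃ c : K, c ≠ 0 ∧ IntSeries A (c • B.e i x) := by
    revert i
    exact Fin.forall_fin_two.2
      ⟨B.bdd_cusp m x hm, B.bdd_cusp m (B.w x) (B.w_mem_riemannRochSpace hm)⟩
  exact B.scalable i hx hc hint

omit [CharZero K] [Fact q.Prime] in
theorem e_const_smul (i : Fin 2) (c : K) (x : F) : B.e i (c • x) = c • B.e i x :=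
  congrFun (B.pair.map_smul c x) i

omit [CharZero K] in
theorem exists_normalForm (i : Fin 2) {x : F} (hx : x ≠ 0) :
    ∃ (c : K) (u v : F), c ≠ 0 ∧ IntSeries A (B.e i u) ∧ redSeries A π (B.e i u) ≠ 0 ∧
      IntSeries A (B.e i v) ∧ redSeries A π (B.e i v) ≠ 0 ∧ x * v = c • u := by
  obtain ⟨m, h, hh0, hh, hxh⟩ := exists_mul_mem B.rrF B.cuspDiv
    (fun m => add_nonneg (Finsupp.single_nonneg.2 (Int.natCast_nonneg m))
      (Finsupp.single_nonneg.2 (Int.natCast_nonneg m)))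
    (fun m => by rw [degree_cuspDiv]; omega) hx
  obtain ⟨d, hd, hdi, hdr⟩ := B.exists_scaling_of_mem i hh0 hh
  obtain ⟨d', hd', hdi', hdr'⟩ := B.exists_scaling_of_mem i (mul_ne_zero hx hh0) hxh
  refine ⟨d / d', d' • (x * h), d • h, div_ne_zero hd hd', ?_, ?_, ?_, ?_, ?_⟩
  · rw [e_const_smul]; exact hdi'
  · rw [e_const_smul]; exact hdr'
  · rw [e_const_smul]; exact hdi
  · rw [e_const_smul]; exact hdr
  · rw [smul_smul, div_mul_cancel₀ _ hd', mul_smul_comm]

/-- `x` is integral on the component `i`. -/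
def SideMem (i : Fin 2) (x : F) : Prop :=
  ∃ u v : F, IntSeries A (B.e i u) ∧ IntSeries A (B.e i v) ∧
    redSeries A π (B.e i v) ≠ 0 ∧ x * v = u

omit [CharZero K] in
theorem sideMem_of_int (i : Fin 2) {x : F} (hx : IntSeries A (B.e i x)) : B.SideMem i x :=
  ⟨x, 1, hx, by rw [map_one]; exact IntSeries.one, by rw [map_one, redSeries_one]; exact one_ne_zero,
    mul_one x⟩

/-- The valuation ring of the component `i`. -/
def side (i : Fin 2) : ValuationSubring F where
  carrier := {x | B.SideMem i x}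
  mul_mem' := by
    rintro x y ⟨u, v, hu, hv, hv0, rfl⟩ ⟨u', v', hu', hv', hv0', rfl⟩
    refine ⟨x * v * (y * v'), v * v', by rw [map_mul]; exact hu.mul hu',
      by rw [map_mul]; exact hv.mul hv', ?_, by ring⟩
    rw [map_mul, redSeries_mul hv hv']
    exact mul_ne_zero hv0 hv0'
  one_mem' := B.sideMem_of_int i (by rw [map_one]; exact IntSeries.one)
  add_mem' := by
    rintro x y ⟨u, v, hu, hv, hv0, rfl⟩ ⟨u', v', hu', hv', hv0', rfl⟩
    refine ⟨x * v * v' + y * v' * v, v * v', ?_, by rw [map_mul]; exact hv.mul hv', ?_, by ring⟩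
    · rw [map_add, map_mul, map_mul (B.e i) (y * v')]
      exact (hu.mul hv').add (hu'.mul hv)
    rw [map_mul, redSeries_mul hv hv']
    exact mul_ne_zero hv0 hv0'
  zero_mem' := B.sideMem_of_int i (by rw [map_zero]; exact IntSeries.zero)
  neg_mem' := by
    rintro x ⟨u, v, hu, hv, hv0, rfl⟩
    exact ⟨-(x * v), v, by rw [map_neg]; exact hu.neg, hv, hv0, by ring⟩
  mem_or_inv_mem' := by
    intro x
    rcases eq_or_ne x 0 with rfl | hx
    · exact Or.inl (B.sideMem_of_int i (by rw [map_zero]; exact IntSeries.zero))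
    obtain ⟨c, u, v, hc, hu, hu0, hv, hv0, h⟩ := B.exists_normalForm i hx
    rcases A.mem_or_inv_mem c with hcA | hcA
    · exact Or.inl ⟨c • u, v, by rw [e_const_smul]; exact hu.smul hcA, hv, hv0, h⟩
    · refine Or.inr ⟨c⁻¹ • v, u, by rw [e_const_smul]; exact hv.smul hcA, hu, hu0, ?_⟩
      rw [show v = x⁻¹ * (c • u) by rw [← h, inv_mul_cancel_left₀ hx], ← mul_smul_comm, smul_smul,
        inv_mul_cancel₀ hc, one_smul]

omit [CharZero K] in
theorem mem_side {i : Fin 2} {x : F} : x ∈ B.side i ↔ B.SideMem i x := Iff.rfl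

/-- The reduction, as a function. -/
def sredFun (i : Fin 2) (x : B.side i) : LaurentSeries k :=
  redSeries A π (B.e i x.2.choose) / redSeries A π (B.e i x.2.choose_spec.choose)

omit [CharZero K] in
theorem sredFun_eq (i : Fin 2) (x : B.side i) {u v : F} (hu : IntSeries A (B.e i u))
    (hv : IntSeries A (B.e i v)) (hv0 : redSeries A π (B.e i v) ≠ 0) (h : (x : F) * v = u) :
    B.sredFun i x = redSeries A π (B.e i u) / redSeries A π (B.e i v) := by
  obtain ⟨hu', hv', hv0', h'⟩ := x.2.choose_spec.choose_spec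
  rw [sredFun, div_eq_div_iff hv0' hv0, ← redSeries_mul hu' hv, ← redSeries_mul hu hv',
    ← map_mul, ← map_mul]
  congr 2
  linear_combination v * h' * (-1 : F) + x.2.choose_spec.choose * h

/-- The reduction on the component `i`. -/
def sred (i : Fin 2) : B.side i →+* LaurentSeries k where
  toFun := B.sredFun i
  map_one' := by
    rw [B.sredFun_eq i 1 (u := 1) (v := 1) (by rw [map_one]; exact IntSeries.one)
      (by rw [map_one]; exact IntSeries.one) (by rw [map_one, redSeries_one]; exact one_ne_zero)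
      (one_mul _)]
    simp
  map_zero' := by
    rw [B.sredFun_eq i 0 (u := 0) (v := 1) (by rw [map_zero]; exact IntSeries.zero)
      (by rw [map_one]; exact IntSeries.one) (by rw [map_one, redSeries_one]; exact one_ne_zero)
      (zero_mul _)]
    simp
  map_mul' := by
    rintro ⟨x, u, v, hu, hv, hv0, h⟩ ⟨y, u', v', hu', hv', hv0', h'⟩
    rw [B.sredFun_eq i ⟨x, _⟩ hu hv hv0 h, B.sredFun_eq i ⟨y, _⟩ hu' hv' hv0' h',
      B.sredFun_eq i _ (u := u * u') (v := v * v') (by rw [map_mul]; exact hu.mul hu')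
        (by rw [map_mul]; exact hv.mul hv')
        (by rw [map_mul, redSeries_mul hv hv']; exact mul_ne_zero hv0 hv0')
        (by simp only [MulMemClass.coe_mul]; rw [← h, ← h']; ring),
      map_mul, map_mul, redSeries_mul hu hu', redSeries_mul hv hv', mul_div_mul_comm]
  map_add' := by
    rintro ⟨x, u, v, hu, hv, hv0, h⟩ ⟨y, u', v', hu', hv', hv0', h'⟩
    have hu1 : IntSeries A (B.e i (u * v')) := by rw [map_mul]; exact hu.mul hv'
    have hu2 : IntSeries A (B.e i (u' * v)) := by rw [map_mul]; exact hu'.mul hv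
    rw [B.sredFun_eq i ⟨x, _⟩ hu hv hv0 h, B.sredFun_eq i ⟨y, _⟩ hu' hv' hv0' h',
      B.sredFun_eq i _ (u := u * v' + u' * v) (v := v * v') (by rw [map_add]; exact hu1.add hu2)
        (by rw [map_mul]; exact hv.mul hv')
        (by rw [map_mul, redSeries_mul hv hv']; exact mul_ne_zero hv0 hv0')
        (by simp only [AddMemClass.coe_add]; rw [← h, ← h']; ring),
      map_add, redSeries_add hu1 hu2, map_mul, map_mul, map_mul, redSeries_mul hu hv',
      redSeries_mul hu' hv, redSeries_mul hv hv', div_add_div _ _ hv0 hv0']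
    ring

omit [CharZero K] in
theorem sred_eq (i : Fin 2) {x : F} (hx : x ∈ B.side i) {u v : F} (hu : IntSeries A (B.e i u))
    (hv : IntSeries A (B.e i v)) (hv0 : redSeries A π (B.e i v) ≠ 0) (h : x * v = u) :
    B.sred i ⟨x, hx⟩ * redSeries A π (B.e i v) = redSeries A π (B.e i u) := by
  show B.sredFun i ⟨x, hx⟩ * _ = _
  rw [B.sredFun_eq i ⟨x, hx⟩ hu hv hv0 h, div_mul_cancel₀ _ hv0]

omit [CharZero K] in
theorem sred_of_int (i : Fin 2) {x : F} (hx : IntSeries A (B.e i x)) :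
    B.sred i ⟨x, B.sideMem_of_int i hx⟩ = redSeries A π (B.e i x) := by
  have h := B.sred_eq i (B.sideMem_of_int i hx) hx (v := 1) (by rw [map_one]; exact IntSeries.one)
    (by rw [map_one, redSeries_one]; exact one_ne_zero) (mul_one x)
  rwa [map_one, redSeries_one, mul_one] at h

omit [CharZero K] in
theorem hasRed_iff {i : Fin 2} {x : F} {p : Fk} :
    B.HasRed i x p ↔ ∃ hx : x ∈ B.side i, B.sred i ⟨x, hx⟩ = B.exk p := by
  constructor
  · rintro ⟨u, v, hu, hv, hv0, h, hp⟩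
    refine ⟨⟨u, v, hu, hv, hv0, h⟩, mul_right_cancel₀ hv0 ?_⟩
    rw [B.sred_eq i _ hu hv hv0 h, hp]
  · rintro ⟨hx, hp⟩
    obtain ⟨u, v, hu, hv, hv0, h⟩ := hx
    exact ⟨u, v, hu, hv, hv0, h, by rw [← hp, B.sred_eq i _ hu hv hv0 h]⟩

omit [CharZero K] in
/-- Elements with non-zero reduction are units. -/
theorem inv_mem_side {i : Fin 2} {x : F} (hx : x ∈ B.side i) (h : B.sred i ⟨x, hx⟩ ≠ 0) :
    ∃ hx' : x⁻¹ ∈ B.side i, B.sred i ⟨x⁻¹, hx'⟩ = (B.sred i ⟨x, hx⟩)⁻¹ := by
  have hx0 : x ≠ 0 := by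
    rintro rfl
    exact h (map_zero _)
  obtain ⟨u, v, hu, hv, hv0, huv⟩ := hx
  have hu0 : redSeries A π (B.e i u) ≠ 0 := by
    rw [← B.sred_eq i ⟨u, v, hu, hv, hv0, huv⟩ hu hv hv0 huv]
    exact mul_ne_zero h hv0
  have hmem : x⁻¹ ∈ B.side i := ⟨v, u, hv, hu, hu0, by rw [← huv, inv_mul_cancel_left₀ hx0]⟩
  refine ⟨hmem, eq_inv_of_mul_eq_one_right ?_⟩
  rw [← map_mul]
  convert map_one (B.sred i)
  exact Subtype.ext (mul_inv_cancel₀ hx0)

omit [CharZero K] in
theorem smul_mem_side {i : Fin 2} {c : K} (hc : c ∈ A) {x : F} (hx : x ∈ B.side i) :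
    c • x ∈ B.side i := by
  rw [Algebra.smul_def]
  exact mul_mem (B.sideMem_of_int i (by rw [e_algebraMap]; exact (intSeries_C (π := π) hc).1)) hx

omit [CharZero K] in
/-- Every non-zero element scales to a unit of either component. -/
theorem exists_scaling (i : Fin 2) {f : F} (hf : f ≠ 0) :
    ∃ d : K, d ≠ 0 ∧ ∃ hd : d • f ∈ B.side i, B.sred i ⟨d • f, hd⟩ ≠ 0 := by
  obtain ⟨c, u, v, hc, hu, hu0, hv, hv0, h⟩ := B.exists_normalForm i hf
  have hmul : c⁻¹ • f * v = u := by rw [smul_mul_assoc, h, inv_smul_smul₀ hc]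
  refine ⟨c⁻¹, inv_ne_zero hc, ⟨u, v, hu, hv, hv0, hmul⟩, fun h0 => hu0 ?_⟩
  rw [← B.sred_eq i ⟨u, v, hu, hv, hv0, hmul⟩ hu hv hv0 hmul, h0, zero_mul]

omit [CharZero K] in
theorem w_mem_side {x : F} :
    (B.w x ∈ B.side 0 ↔ x ∈ B.side 1) ∧ (B.w x ∈ B.side 1 ↔ x ∈ B.side 0) := by
  have key : ∀ {i j : Fin 2} {y : F}, (∀ z, B.e i (B.w z) = B.e j z) → y ∈ B.side j →
      B.w y ∈ B.side i := by
    rintro i j y hij ⟨u, v, hu, hv, hv0, h⟩
    exact ⟨B.w u, B.w v, by rwa [hij], by rwa [hij], by rwa [hij], by rw [← map_mul, h]⟩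
  have h01 : ∀ z, B.e 0 (B.w z) = B.e 1 z := fun z => rfl
  have h10 : ∀ z, B.e 1 (B.w z) = B.e 0 z := fun z => by rw [e_one_apply, B.w_w]; rfl
  refine ⟨⟨fun h => ?_, key h01⟩, ⟨fun h => ?_, key h10⟩⟩
  · simpa [B.w_w] using key h10 h
  · simpa [B.w_w] using key h01 h

omit [CharZero K] in
theorem sred_w {i j : Fin 2} (hij : ∀ z, B.e i (B.w z) = B.e j z) {x : F} (hx : x ∈ B.side j)
    (hx' : B.w x ∈ B.side i) : B.sred i ⟨B.w x, hx'⟩ = B.sred j ⟨x, hx⟩ := by
  obtain ⟨u, v, hu, hv, hv0, h⟩ := id hx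
  refine mul_right_cancel₀ hv0 ?_
  rw [B.sred_eq j hx hu hv hv0 h, ← hij u, ← hij v]
  exact B.sred_eq i hx' (by rwa [hij]) (by rwa [hij]) (by rwa [hij]) (by rw [← map_mul, h])

/-- An element of `R.O` is a quotient of integral elements of `F'`, compatibly with the
reductions. -/
theorem exists_witness (x : B.R.O) :
    ∃ u v : F', IntSeries A (B.e 0 (B.a u)) ∧ IntSeries A (B.e 0 (B.a v)) ∧
      redSeries A π (B.e 0 (B.a v)) ≠ 0 ∧ (x : F') * v = u ∧
      B.exk (B.R.red x) * redSeries A π (B.e 0 (B.a v)) = redSeries A π (B.e 0 (B.a u)) := by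
  rcases eq_or_ne (x : F') 0 with hx0 | hx0
  · obtain rfl : x = 0 := Subtype.ext hx0
    refine ⟨0, 1, ?_, ?_, ?_, zero_mul _, ?_⟩
    · rw [map_zero, map_zero]; exact IntSeries.zero
    · rw [map_one, map_one]; exact IntSeries.one
    · rw [map_one, map_one, redSeries_one]; exact one_ne_zero
    · rw [map_zero, map_zero, zero_mul, map_zero, map_zero, redSeries_zero]
  have hq : 2 ≤ q := (Fact.out : q.Prime).two_le
  obtain ⟨m, h, hh0, hh, hxh⟩ := exists_mul_mem B.rr' (fun m => Finsupp.single B.inf (m : ℤ))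
    (fun m => Finsupp.single_nonneg.2 (Int.natCast_nonneg m))
    (fun m => by rw [Divisor.degree_single, B.rr'.deg_eq_one]; simp) hx0
  have key : ∀ y : F', y ≠ 0 → y ∈ riemannRochSpace (Finsupp.single B.inf (m : ℤ)) →
      ∃ (d : K) (hy : d • y ∈ B.R.O), d ≠ 0 ∧ B.R.red ⟨_, hy⟩ ≠ 0 ∧
        IntSeries A (B.e 0 (B.a (d • y))) ∧
        B.exk (B.R.red ⟨_, hy⟩) = redSeries A π (B.e 0 (B.a (d • y))) := by
    intro y hy0 hy
    obtain ⟨d, hd, hdi, hdr⟩ := B.exists_scaling_of_mem 0 ((map_ne_zero _).2 hy0)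
      (B.a_mem_riemannRochSpace hq hy)
    have heq : B.e 0 (B.a (d • y)) = d • B.e 0 (B.a y) := by rw [map_smul B.a, e_const_smul]
    rw [← heq] at hdi hdr
    obtain ⟨hmem, hr⟩ := B.red_of_int (d • y) hdi
    refine ⟨d, hmem, hd, fun h0 => hdr ?_, hdi, hr⟩
    rw [h0, map_zero] at hr
    exact hr.symm
  obtain ⟨d, hd, hd0, hdne, hdi, hdr⟩ := key h hh0 hh
  obtain ⟨d', hd', hd0', hdne', hdi', hdr'⟩ := key _ (mul_ne_zero hx0 hh0) hxh
  have hcx : algebraMap K F' (d / d') * (d' • ((x : F') * h)) = (x : F') * d • h := by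
    rw [← Algebra.smul_def, smul_smul, div_mul_cancel₀ _ hd0', mul_smul_comm]
  have hc : d / d' ∈ A := by
    by_contra hn
    obtain ⟨c, hc⟩ : ∃ c : A, (c : K) = (d / d')⁻¹ :=
      ⟨⟨_, (A.mem_or_inv_mem _).resolve_left hn⟩, rfl⟩
    have hc0 : π c = 0 :=
      residue_eq_zero_of_inv_notMem B.R.π_surjective c.2 (by rw [hc, inv_inv]; exact hn)
    have h1 : (⟨algebraMap K F' (c : K), B.R.algebraMap_mem c⟩ : B.R.O) * (x * ⟨_, hd⟩) =
        ⟨_, hd'⟩ := Subtype.ext (by
      show algebraMap K F' (c : K) * ((x : F') * d • h) = d' • ((x : F') * h)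
      rw [← hcx, ← mul_assoc, ← map_mul, hc, inv_mul_cancel₀ (div_ne_zero hd0 hd0'), map_one,
        one_mul])
    apply hdne'
    rw [← h1, map_mul, B.R.red_algebraMap, hc0, map_zero, zero_mul]
  have hui : IntSeries A (B.e 0 (B.a ((x : F') * d • h))) := by
    rw [← hcx, ← Algebra.smul_def, map_smul B.a, e_const_smul]
    exact hdi'.smul hc
  have hvr : redSeries A π (B.e 0 (B.a (d • h))) ≠ 0 := hdr ▸ (map_ne_zero _).2 hdne
  obtain ⟨hmem, hr⟩ := B.red_of_int _ hui
  refine ⟨(x : F') * d • h, d • h, hui, hdi, hvr, rfl, ?_⟩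
  rw [← hdr, ← map_mul, ← map_mul]
  exact hr

omit [CharZero K] in
theorem sred_mul {i : Fin 2} {x y : F} (hx : x ∈ B.side i) (hy : y ∈ B.side i)
    (hxy : x * y ∈ B.side i) :
    B.sred i ⟨x * y, hxy⟩ = B.sred i ⟨x, hx⟩ * B.sred i ⟨y, hy⟩ := by
  rw [← map_mul]
  rfl

/-- Elements of `R.O` map into the ring of component `0`, compatibly with the reductions. -/
theorem a_mem_side_zero (x : B.R.O) :
    ∃ hx : B.a (x : F') ∈ B.side 0, B.sred 0 ⟨_, hx⟩ = B.exk (B.R.red x) := by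
  obtain ⟨u, v, hu, hv, hv0, h, hr⟩ := B.exists_witness x
  have h' : B.a (x : F') * B.a v = B.a u := by rw [← map_mul, h]
  refine ⟨⟨_, _, hu, hv, hv0, h'⟩, mul_right_cancel₀ hv0 ?_⟩
  rw [B.sred_eq 0 _ hu hv hv0 h', hr]

/-- Elements of `R.O` map into the ring of component `1`, compatibly with the reductions. -/
theorem a_mem_side_one (x : B.R.O) :
    ∃ hx : B.a (x : F') ∈ B.side 1, B.sred 1 ⟨_, hx⟩ = B.exk (B.iota (B.R.red x)) := by
  obtain ⟨u, v, hu, hv, hv0, h, hr⟩ := B.exists_witness x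
  have hsub : ∀ z : F', B.e 1 (B.a z) = ModularCurve.qExpand K q (B.e 0 (B.a z)) :=
    fun z => B.ex_w_a z
  have hu1 : IntSeries A (B.e 1 (B.a u)) := by rw [hsub]; exact hu.qExpand q
  have hv1 : IntSeries A (B.e 1 (B.a v)) := by rw [hsub]; exact hv.qExpand q
  have hv10 : redSeries A π (B.e 1 (B.a v)) ≠ 0 := by
    rw [hsub, redSeries_qExpand q hv]
    exact fun h => hv0 (ModularCurve.qExpand_injective q (by rw [h, map_zero]))
  have h' : B.a (x : F') * B.a v = B.a u := by rw [← map_mul, h]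
  refine ⟨⟨_, _, hu1, hv1, hv10, h'⟩, mul_right_cancel₀ hv10 ?_⟩
  rw [B.sred_eq 1 _ hu1 hv1 hv10 h', hsub, hsub, B.exk_iota, redSeries_qExpand q hu,
    redSeries_qExpand q hv, ← map_mul, hr]

end FLTA.BadRed.BadFibre
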