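/-
Approximate solutions of polynomial systems force exact solutions, Newton iteration for roots,
and separatedness of the powers of `q` in a valuation ring of `ℚ̄`.
-/
import Mathlib

set_option autoImplicit false

namespace FLTA.BadRed.RootApprox

open MvPolynomial

variable {K : Type*} [Field K] (O : ValuationSubring K) {σ : Type*}

theorem exists_scaling_eval (r : MvPolynomial σ K) :
    ∃ c : O, c ≠ 0 ∧ ∀ x : σ → O, ∃ y : O, (y : K) = c * eval (fun s => (x s : K)) r := by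
  induction r using MvPolynomial.induction_on with
  | C a =>
    rcases O.mem_or_inv_mem a with h | h
    · exact ⟨1, one_ne_zero, fun x => ⟨⟨a, h⟩, by simp⟩⟩
    · rcases eq_or_ne a 0 with rfl | ha
      · exact ⟨1, one_ne_zero, fun x => ⟨0, by simp⟩⟩
      · refine ⟨⟨a⁻¹, h⟩, fun e => inv_ne_zero ha (congrArg Subtype.val e), fun x => ⟨1, ?_⟩⟩
        simp [ha]
  | add p q hp hq =>
    obtain ⟨c, hc, hp⟩ := hp
    obtain ⟨d, hd, hq⟩ := hq
    refine ⟨c * d, mul_ne_zero hc hd, fun x => ?_⟩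
    obtain ⟨y, hy⟩ := hp x
    obtain ⟨z, hz⟩ := hq x
    exact ⟨d * y + c * z, by push_cast; rw [hy, hz, map_add]; ring⟩
  | mul_X p s hp =>
    obtain ⟨c, hc, hp⟩ := hp
    refine ⟨c, hc, fun x => ?_⟩
    obtain ⟨y, hy⟩ := hp x
    exact ⟨y * x s, by push_cast; rw [hy, map_mul, eval_X]; ring⟩

/-- Effective Nullstellensatz: a system without zeros has no very good approximate zeros. -/
theorem exists_ne_zero_mem_of_no_zero [IsAlgClosed K] [Finite σ] {J : Type*}
    (P : J → MvPolynomial σ K) (hP : ∀ x : σ → K, ∃ j, eval x (P j) ≠ 0) :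
    ∃ c : O, c ≠ 0 ∧ ∀ (x : σ → O) (I : Ideal O),
      (∀ j, ∃ y ∈ I, (y : K) = eval (fun s => (x s : K)) (P j)) → c ∈ I := by
  set 𝔞 : Ideal (MvPolynomial σ K) := Ideal.span (Set.range P)
  have hzero : zeroLocus K 𝔞 = ∅ := by
    refine Set.eq_empty_iff_forall_notMem.mpr fun x hx => ?_
    obtain ⟨j, hj⟩ := hP x
    exact hj (by simpa [aeval_eq_eval] using hx (P j) (Ideal.subset_span ⟨j, rfl⟩))
  have htop : 𝔞 = ⊤ := by
    rw [← Ideal.radical_eq_top, ← vanishingIdeal_zeroLocus_eq_radical (K := K) 𝔞, hzero,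
      vanishingIdeal_empty]
  have hone : (1 : MvPolynomial σ K) ∈ 𝔞 := htop ▸ Submodule.mem_top
  let T : MvPolynomial σ K → Prop := fun f => ∃ c : O, c ≠ 0 ∧ ∀ (x : σ → O) (I : Ideal O),
    (∀ j, ∃ y ∈ I, (y : K) = eval (fun s => (x s : K)) (P j)) →
      ∃ y ∈ I, (y : K) = c * eval (fun s => (x s : K)) f
  have hT : T 1 := by
    refine Submodule.span_induction (p := fun f _ => T f) ?_ ?_ ?_ ?_ hone
    · rintro _ ⟨j, rfl⟩
      exact ⟨1, one_ne_zero, fun x I h => by simpa using h j⟩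
    · exact ⟨1, one_ne_zero, fun x I _ => ⟨0, I.zero_mem, by simp⟩⟩
    · rintro f g - - ⟨c, hc, hf⟩ ⟨d, hd, hg⟩
      refine ⟨c * d, mul_ne_zero hc hd, fun x I h => ?_⟩
      obtain ⟨y, hyI, hy⟩ := hf x I h
      obtain ⟨z, hzI, hz⟩ := hg x I h
      exact ⟨d * y + c * z, I.add_mem (I.mul_mem_left _ hyI) (I.mul_mem_left _ hzI),
        by push_cast; rw [hy, hz, map_add]; ring⟩
    · rintro r f - ⟨c, hc, hf⟩
      obtain ⟨d, hd, hr⟩ := exists_scaling_eval O r
      refine ⟨d * c, mul_ne_zero hd hc, fun x I h => ?_⟩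
      obtain ⟨y, hyI, hy⟩ := hf x I h
      obtain ⟨z, hz⟩ := hr x
      exact ⟨z * y, I.mul_mem_left _ hyI, by push_cast; rw [hy, hz, smul_eq_mul, map_mul]; ring⟩
  obtain ⟨c, hc, h⟩ := hT
  refine ⟨c, hc, fun x I hx => ?_⟩
  obtain ⟨y, hy, e⟩ := h x I hx
  rw [map_one, mul_one] at e
  exact Subtype.ext e ▸ hy

/-- Approximate zeros of every precision give a zero. -/
theorem exists_zero_of_approx [IsAlgClosed K] [Finite σ] {J : Type*}
    (P : J → MvPolynomial σ K) (π : O) (hπ : ∀ c : O, (∀ n : ℕ, π ^ n ∣ c) → c = 0)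
    (h : ∀ n : ℕ, ∃ x : σ → O,
      ∀ j, ∃ y : O, (y : K) = eval (fun s => (x s : K)) (P j) ∧ π ^ n ∣ y) :
    ∃ x : σ → K, ∀ j, eval x (P j) = 0 := by
  by_contra hne
  push Not at hne
  obtain ⟨c, hc, hI⟩ := exists_ne_zero_mem_of_no_zero O P hne
  refine hc (hπ c fun n => ?_)
  obtain ⟨x, hx⟩ := h n
  refine Ideal.mem_span_singleton.mp (hI x _ fun j => ?_)
  obtain ⟨y, hy, hd⟩ := hx j
  exact ⟨y, Ideal.mem_span_singleton.mpr hd, hy⟩

section Newton

variable {R : Type*} [CommRing R]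

theorem sq_dvd_one_add_pow_sub (x : R) (m : ℕ) : x ^ 2 ∣ (1 + x) ^ m - (1 + m * x) := by
  induction m with
  | zero => simp
  | succ m ih =>
    have h : (1 + x) ^ (m + 1) - (1 + ((m + 1 : ℕ) : R) * x)
        = ((1 + x) ^ m - (1 + m * x)) * (1 + x) + m * x ^ 2 := by push_cast; ring
    rw [h]
    exact dvd_add (ih.mul_right _) (dvd_mul_left _ _)

/-- One Newton step for `t ↦ t · (n-th power)` squares the error `t - 1`. -/
theorem sq_dvd_newton_step (n : ℕ) (u : R) (hu : (n : R) * u = 1) (t : R) :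
    (1 - t) ^ 2 ∣ t * (1 + u * (1 - t)) ^ n - 1 := by
  set e := 1 - t
  obtain ⟨r, hr⟩ := sq_dvd_one_add_pow_sub (u * e) n
  refine ⟨-1 + (1 - e) * u ^ 2 * r, ?_⟩
  have ht : t = 1 - e := by simp [e]
  have hne : (n : R) * (u * e) = e := by rw [← mul_assoc, hu, one_mul]
  rw [hne, sub_eq_iff_eq_add'] at hr
  rw [ht, hr]
  ring

/-- `n`-th roots of unity near `1` are unique when `n` is invertible. -/
theorem sub_one_mem_of_pow_sub_one_mem (n : ℕ) (hn : IsUnit (n : R)) (I : Ideal R) {r : R}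
    (hr : r - 1 ∈ Ideal.jacobson ⊥) (h : r ^ n - 1 ∈ I) : r - 1 ∈ I := by
  have hsum : (∑ i ∈ Finset.range n, r ^ i) - (n : R) ∈ Ideal.jacobson (⊥ : Ideal R) := by
    have e : (∑ i ∈ Finset.range n, r ^ i) - (n : R) = ∑ i ∈ Finset.range n, (r ^ i - 1) := by
      simp
    rw [e]
    exact Ideal.sum_mem _ fun i _ => Ideal.mem_of_dvd _ (sub_one_dvd_pow_sub_one r i) hr
  have hunit : IsUnit (∑ i ∈ Finset.range n, r ^ i) := by
    obtain ⟨v, hv⟩ := hn
    have h1 := Ideal.mem_jacobson_bot.mp hsum (↑v⁻¹ : R)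
    rw [← hv, sub_mul, Units.mul_inv, sub_add_cancel] at h1
    exact (Units.isUnit_mul_units _ _).mp h1
  rw [← geom_sum_mul, Ideal.unit_mul_mem_iff_mem _ hunit] at h
  exact h

end Newton

section Separated

open Polynomial in
/-- In a valuation ring of `ℚ̄` over `q`, no nonzero element is divisible by all powers of `q`. -/
theorem eq_zero_of_forall_pow_dvd {q : ℕ} (hq : q.Prime)
    (A : ValuationSubring (AlgebraicClosure ℚ)) (hA : (q : AlgebraicClosure ℚ) ∈ A.nonunits)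
    (c : A) (hc : ∀ n : ℕ, (q : A) ^ n ∣ c) : c = 0 := by
  classical
  have : CharZero A := ⟨fun a b h => Nat.cast_injective (R := AlgebraicClosure ℚ)
    (by simpa using congrArg (fun z : A => (z : AlgebraicClosure ℚ)) h)⟩
  by_contra hc0
  have halg : IsAlgebraic ℤ (c : AlgebraicClosure ℚ) :=
    (IsFractionRing.isAlgebraic_iff ℤ ℚ (AlgebraicClosure ℚ)).mpr
      ((AlgebraicClosure.isAlgebraic ℚ).isAlgebraic _)
  obtain ⟨p, hp, hpc⟩ := halg.exists_nonzero_coeff_and_aeval_eq_zero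
    (mem_nonZeroDivisors_of_ne_zero fun h => hc0 (Subtype.ext h))
  have hdvd : c ∣ ((p.coeff 0 : ℤ) : A) := by
    have h0 : aeval c p = 0 := by
      apply Subtype.ext
      have e := aeval_algHom_apply (A.subtype.toIntAlgHom) c p
      simpa using e.symm.trans hpc
    have h1 : aeval c p = c * aeval c p.divX + ((p.coeff 0 : ℤ) : A) := by
      conv_lhs => rw [← X_mul_divX_add p]
      simp
    exact ⟨-aeval c p.divX, by rw [mul_neg, eq_neg_iff_add_eq_zero, add_comm, ← h1, h0]⟩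
  set a := p.coeff 0 with ha
  have key : ∀ (n : ℕ) (b : ℤ), (q : A) ^ n ∣ (b : A) → (q : ℤ) ^ n ∣ b := by
    intro n
    induction n with
    | zero => simp
    | succ n ih =>
      intro b hb
      have hqb : (q : ℤ) ∣ b := by
        by_contra hnd
        obtain ⟨u, v, huv⟩ := (Int.prime_iff_natAbs_prime.mpr (by simpa using hq)).coprime_iff_not_dvd.mpr hnd
        have hmem : ((q : A) : AlgebraicClosure ℚ) ∈ A.nonunits := by simpa using hA
        have hnu : ¬ IsUnit (q : A) := (A.coe_mem_nonunits_iff).mp hmem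
        refine hnu (isUnit_of_dvd_one ?_)
        have h1 : ((1 : ℤ) : A) = (u : A) * (q : A) + (v : A) * (b : A) := by
          rw [← huv]; push_cast; ring
        rw [Int.cast_one] at h1
        rw [h1]
        exact dvd_add (dvd_mul_left _ _)
          (dvd_mul_of_dvd_right ((dvd_pow_self _ n.succ_ne_zero).trans hb) _)
      obtain ⟨b', rfl⟩ := hqb
      obtain ⟨z, hz⟩ := hb
      have hq0 : (q : A) ≠ 0 := Nat.cast_ne_zero.mpr hq.ne_zero
      rw [pow_succ']
      refine mul_dvd_mul_left _ (ih b' ⟨z, mul_left_cancel₀ hq0 ?_⟩)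
      push_cast at hz
      rw [hz, pow_succ']
      ring
  have hb := key a.natAbs.succ a ((hc _).trans hdvd)
  have hlt : a.natAbs < q ^ a.natAbs.succ :=
    lt_trans (Nat.lt_succ_self _) (Nat.lt_pow_self hq.one_lt)
  have := Int.natAbs_dvd_natAbs.mpr hb
  rw [Int.natAbs_pow, Int.natAbs_natCast] at this
  exact absurd (Nat.le_of_dvd (Int.natAbs_pos.mpr hp) this) (not_le.mpr hlt)

end Separated

end FLTA.BadRed.RootApprox
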