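import Fermat.Agent.BadRed.Fibre
import Fermat.Agent.BadRed.Toric.Swap

/-!
# Toric classes: gluing constants, injectivity, Galois action
-/

set_option autoImplicit false

noncomputable section

open AlgebraicCurve

namespace FLTA.BadRed.BadFibre

variable {K : Type*} [Field K] [IsAlgClosed K] [CharZero K] {A : ValuationSubring K}
  {k : Type*} [Field k] [IsAlgClosed k] {π : A →+* k}
  {q : ℕ} [NeZero q] [Fact q.Prime] [CharP k q]
  {F : Type*} [Field F] [Algebra K F] {F' : Type*} [Field F'] [Algebra K F']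
  {Fk : Type*} [Field Fk] [Algebra k Fk] {g gF : ℕ} (B : BadFibre A π q F F' Fk g gF)
  {n : ℕ}

/-- Inertia fixes toric classes. -/
theorem inertia_smul_of_isToric (hn : (n : k) ≠ 0) (s : B.Sym) (hs : s.IsInertia)
    {x : Pic0 K F} (hx : B.IsToric n x) : s.σ • x = x := by
  obtain ⟨S, m₀, hS⟩ := B.exists_isGluing
  have hn0 : 0 < n := Nat.pos_of_ne_zero fun h => hn (by rw [h, Nat.cast_zero])
  obtain ⟨ζ, hζ⟩ := exists_hasTwist hS hn0 hx
  obtain ⟨η, hη⟩ := exists_hasTwist hS hn0 (B.isToric_neg hx)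
  have hpl : ∀ Q : Place k Fk, s.σk • Q = Q := fun Q =>
    (place_smul_congr (g₂ := 1) (fun p => by rw [B.inertia_smul_fk s hs, one_smul]) Q).trans
      (one_smul _ Q)
  have h := (hζ.conj hS hn0 s (fun Q _ => ⟨hpl _, hpl _⟩)).mul hS hn0 hη
  rw [show (fun Q => SemilinearAut.baseAut s.σk (ζ Q) * η Q) = fun Q => ζ Q * η Q from
    funext fun Q => by rw [hs]] at h
  have h0 := h.eq_zero hS hn (hζ.const_of_neg hS hn0 hη)
  rwa [add_neg_eq_zero] at h0

/-- The square of Frobenius acts on toric classes by `q²`. -/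
theorem frob_sq_smul_of_isToric (hn : (n : k) ≠ 0) (s : B.Sym) (hs : s.IsFrob)
    {x : Pic0 K F} (hx : B.IsToric n x) : s.σ • s.σ • x = (q ^ 2) • x := by
  obtain ⟨S, m₀, hS⟩ := B.exists_isGluing
  have hn0 : 0 < n := Nat.pos_of_ne_zero fun h => hn (by rw [h, Nat.cast_zero])
  obtain ⟨ζ, hζ⟩ := exists_hasTwist hS hn0 hx
  obtain ⟨η, hη⟩ := exists_hasTwist hS hn0 (B.isToric_neg hx)
  have hpl : ∀ Q : Place k Fk, (s.σk * s.σk) • Q = B.frobq • B.frobq • Q := fun Q => by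
    rw [← mul_smul]
    refine place_smul_congr (fun p => ?_) Q
    rw [mul_smul, mul_smul, B.frob_smul_fk s hs, B.frob_smul_fk s hs]
  have hfix : ∀ Q ∈ S, s.sq.σk • Q = Q ∧ s.sq.σk • (B.frobq • Q) = B.frobq • Q := fun Q hQ =>
    ⟨(hpl _).trans (hS.frobq_sq Q hQ),
      (hpl _).trans (congrArg (B.frobq • ·) (hS.frobq_sq Q hQ))⟩
  obtain ⟨j, hj⟩ : ∃ j, q ^ 2 = j + 1 :=
    ⟨q ^ 2 - 1, (Nat.sub_add_cancel (Nat.one_le_pow _ _ (Fact.out : q.Prime).pos)).symm⟩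
  have h := (hζ.conj hS hn0 s.sq hfix).mul hS hn0 (hη.succ_nsmul hS hn0 j)
  have h0 := h.eq_zero hS hn (fun Q Q' => ?_)
  · rw [neg_nsmul, add_neg_eq_zero, ← hj] at h0
    exact (mul_smul s.σ s.σ x).symm.trans h0
  · show SemilinearAut.baseAut s.σk (SemilinearAut.baseAut s.σk (ζ Q)) * η Q ^ (j + 1) =
      SemilinearAut.baseAut s.σk (SemilinearAut.baseAut s.σk (ζ Q')) * η Q' ^ (j + 1)
    rw [hs, hs, hs, hs, ← pow_mul, ← pow_mul, ← pow_two, hj, ← mul_pow, ← mul_pow,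
      hζ.const_of_neg hS hn0 hη Q Q']

/-- Frobenius acts on toric classes as `-q` times the involution. -/
theorem frob_smul_of_isToric (hn : (n : k) ≠ 0) (s : B.Sym) (hs : s.IsFrob)
    {x : Pic0 K F} (hx : B.IsToric n x) : s.σ • x = -(q • (B.wAut • x)) := by
  obtain ⟨S, m₀, hS⟩ := B.exists_isGluing
  have hn0 : 0 < n := Nat.pos_of_ne_zero fun h => hn (by rw [h, Nat.cast_zero])
  obtain ⟨ζ, hζ⟩ := exists_hasTwist hS hn0 hx
  obtain ⟨j, hj⟩ : ∃ j, q = j + 1 :=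
    ⟨q - 1, (Nat.sub_add_cancel (Fact.out : q.Prime).pos).symm⟩
  have h := (hζ.conj_frob hS hn0 s hs).mul hS hn0 ((hζ.swap hS hn0).succ_nsmul hS hn0 j)
  have h1 : ∀ Q : S, ζ (partner hS Q) ^ q * (ζ (partner hS Q))⁻¹ ^ (j + 1) = 1 := fun Q => by
    rw [← hj, ← mul_pow, mul_inv_cancel₀ (fun h0 => ?_), one_pow]
    have := hζ.1 (partner hS Q)
    rw [h0, zero_pow hn0.ne'] at this
    exact zero_ne_one this
  have h0 := h.eq_zero hS hn fun Q Q' => (h1 Q).trans (h1 Q').symm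
  rw [← hj] at h0
  exact eq_neg_of_add_eq_zero_left h0

end FLTA.BadRed.BadFibre

end
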